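import Mathlib.Analysis.Complex.Polynomial.Basic
import Mathlib.FieldTheory.IsAlgClosed.Classification
import Mathlib.FieldTheory.IsAlgClosed.AlgebraicClosure
import Mathlib.FieldTheory.Normal.Closure
import Mathlib.Algebra.MvPolynomial.Equiv
import Mathlib.FieldTheory.Perfect

/-!
# Automorphisms of `ℂ` fix only `ℚ`

The main result is `mem_range_rat_of_forall_ringEquiv`.
-/

set_option autoImplicit false

noncomputable section

open MvPolynomial

namespace Fermat.MC

/-- Extension of an automorphism of the polynomial ring over a subfield to `ℂ`. -/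
lemma exists_ringEquiv_complex {K : Type*} [Field K] [Algebra K ℂ] {ι : Type} {v : ι → ℂ}
    (hv : IsTranscendenceBasis K v) (e : MvPolynomial ι K ≃+* MvPolynomial ι K) :
    ∃ σ : ℂ ≃+* ℂ, ∀ p, σ (aeval v p) = aeval v (e p) := by
  let : IsAlgClosure (Algebra.adjoin K (Set.range v)) ℂ :=
    IsAlgClosed.isAlgClosure_of_transcendence_basis v hv
  set E : Algebra.adjoin K (Set.range v) ≃+* Algebra.adjoin K (Set.range v) :=
    (hv.1.aevalEquiv.symm.toRingEquiv.trans e).trans hv.1.aevalEquiv.toRingEquiv with hE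
  refine ⟨IsAlgClosure.equivOfEquiv ℂ ℂ E, fun p => ?_⟩
  have h1 : aeval v p = algebraMap (Algebra.adjoin K (Set.range v)) ℂ (hv.1.aevalEquiv p) :=
    (hv.1.algebraMap_aevalEquiv p).symm
  rw [h1, IsAlgClosure.equivOfEquiv_algebraMap, hE]
  simp [RingEquiv.trans_apply, hv.1.algebraMap_aevalEquiv]

/-- An element of `ℂ` fixed by all automorphisms is rational. -/
theorem mem_range_rat_of_forall_ringEquiv {x : ℂ} (h : ∀ σ : ℂ ≃+* ℂ, σ x = x) :
    x ∈ Set.range (algebraMap ℚ ℂ) := by
  classical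
  by_contra hx
  by_cases halg : IsAlgebraic ℚ x
  · -- algebraic case: move `x` to another conjugate
    set K : IntermediateField ℚ ℂ := algebraicClosure ℚ ℂ
    set xK : K := ⟨x, (mem_algebraicClosure_iff).mpr halg⟩
    have hint : IsIntegral ℚ x := halg.isIntegral
    have hdeg : 2 ≤ (minpoly ℚ x).natDegree :=
      (minpoly.two_le_natDegree_iff hint).mpr fun ⟨q, hq⟩ => hx ⟨q, hq⟩
    have hcard : 2 ≤ Fintype.card ((minpoly ℚ x).rootSet ℂ) := by
      rw [Polynomial.card_rootSet_eq_natDegree (minpoly.irreducible hint).separable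
        (IsAlgClosed.splits _)]
      exact hdeg
    obtain ⟨⟨y, hy⟩, hyx⟩ := Fintype.exists_ne_of_one_lt_card
      (lt_of_lt_of_le one_lt_two (le_of_le_of_eq hcard (Fintype.card_congr (Equiv.refl _))))
      (⟨x, Polynomial.mem_rootSet.mpr ⟨minpoly.ne_zero hint, minpoly.aeval ℚ x⟩⟩ :
        (minpoly ℚ x).rootSet ℂ)
    have : Algebra.IsAlgebraic ℚ K := algebraicClosure.isAlgebraic ℚ ℂ
    have hy' : y ∈ Set.range fun ψ : K →ₐ[ℚ] ℂ => ψ xK := by
      rw [Algebra.IsAlgebraic.range_eval_eq_rootSet_minpoly]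
      have : minpoly ℚ xK = minpoly ℚ x :=
        (minpoly.algebraMap_eq (B := K) (B' := ℂ) (algebraMap K ℂ).injective xK).symm
      rwa [this]
    obtain ⟨ψ, hψ⟩ := hy'
    have hψK : ∀ a, ψ a ∈ K := fun a =>
      mem_algebraicClosure_iff.mpr ((Algebra.IsAlgebraic.isAlgebraic a).algHom ψ)
    set τ : K →ₐ[ℚ] K := ψ.codRestrict K.toSubalgebra hψK
    set τe : K ≃ₐ[ℚ] K := AlgEquiv.ofBijective τ (Algebra.IsAlgebraic.algHom_bijective τ)
    obtain ⟨ι, v, hv⟩ := exists_isTranscendenceBasis' K ℂ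
    obtain ⟨σ, hσ⟩ := exists_ringEquiv_complex hv (MvPolynomial.mapEquiv ι τe.toRingEquiv)
    have h1 := hσ (C xK)
    simp only [MvPolynomial.mapEquiv_apply, map_C, aeval_C] at h1
    have h2 : σ x = y := by
      rw [← hψ]; exact h1
    exact hyx (Subtype.ext (h2.symm.trans (h σ)))
  · -- transcendental case: translate `x` by `1`
    have hs : AlgebraicIndepOn ℚ id ({x} : Set ℂ) := by
      rw [AlgebraicIndepOn, algebraicIndependent_unique_type_iff]
      exact halg
    obtain ⟨t, hxt, ht⟩ := exists_isTranscendenceBasis_superset hs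
    set i : t := ⟨x, hxt rfl⟩
    let f : MvPolynomial t ℚ →ₐ[ℚ] MvPolynomial t ℚ :=
      aeval fun j => if j = i then X j + 1 else X j
    let g : MvPolynomial t ℚ →ₐ[ℚ] MvPolynomial t ℚ :=
      aeval fun j => if j = i then X j - 1 else X j
    have hfg : f.comp g = AlgHom.id _ _ := algHom_ext fun j => by
      by_cases hj : j = i <;> simp [f, g, hj]
    have hgf : g.comp f = AlgHom.id _ _ := algHom_ext fun j => by
      by_cases hj : j = i <;> simp [f, g, hj]
    obtain ⟨σ, hσ⟩ := exists_ringEquiv_complex ht (AlgEquiv.ofAlgHom f g hfg hgf).toRingEquiv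
    have h1 : σ x = x + 1 := by simpa [f, i] using hσ (X i)
    rw [h σ] at h1
    simp at h1

end Fermat.MC
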