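import Fermat.Agent.MC.Lvl.Basic

/-!
# The level one characteristic polynomial of a cusp form on `Γ₀(N)`

The coefficients are `normCoeff`, and `root_normCoeff` makes the form a root.
-/

set_option autoImplicit false

noncomputable section

open Filter Topology Function
open UpperHalfPlane hiding I
open CongruenceSubgroup
open scoped Manifold MatrixGroups ModularForm

namespace Fermat.MC

/-- The value at a translate through the slash action. -/
lemma smul_eq_of_slash {k : ℤ} {f : ℍ → ℂ} (γ : SL(2, ℤ)) (z : ℍ) :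
    f (γ • z) = denom γ z ^ k * (f ∣[k] γ) z := by
  rw [ModularForm.SL_slash_apply, zpow_neg, mul_left_comm,
    mul_inv_cancel₀ (zpow_ne_zero _ (denom_ne_zero γ z)), mul_one]

variable {N : ℕ} [NeZero N] {k : ℤ}

/-- The conjugates of a cusp form. -/
def slashConj (f : CuspForm (Gamma0 N) k) (q : CosetN N) : ℍ → ℂ := ⇑f ∣[k] q.out⁻¹

omit [NeZero N] in
/-- A form is invariant under `Γ₀(N)`. -/
lemma slash_Gamma0_eq (f : CuspForm (Gamma0 N) k) {γ : SL(2, ℤ)} (hγ : γ ∈ Gamma0 N) :
    ⇑f ∣[k] γ = ⇑f :=
  SlashInvariantFormClass.slash_action_eq f _ (Subgroup.mem_map_of_mem _ hγ)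

omit [NeZero N] in
/-- The conjugate at the coset of `γ`. -/
lemma slashConj_mk (f : CuspForm (Gamma0 N) k) (γ : SL(2, ℤ)) :
    slashConj f (γ : CosetN N) = ⇑f ∣[k] γ⁻¹ := by
  obtain ⟨h, hh⟩ := QuotientGroup.mk_out_eq_mul (Gamma0 N) γ
  rw [slashConj, hh, mul_inv_rev, SlashAction.slash_mul, slash_Gamma0_eq f (inv_mem h.2)]

omit [NeZero N] in
/-- The modular group permutes the conjugates. -/
lemma slashConj_slash (f : CuspForm (Gamma0 N) k) (q : CosetN N) (δ : SL(2, ℤ)) :
    slashConj f q ∣[k] δ = slashConj f (δ⁻¹ • q) := by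
  induction q using QuotientGroup.induction_on with
  | H γ =>
    rw [MulAction.Quotient.smul_mk, smul_eq_mul, slashConj_mk, slashConj_mk,
      ← SlashAction.slash_mul]
    simp

omit [NeZero N] in
/-- The conjugates are holomorphic. -/
lemma mdiff_slashConj (f : CuspForm (Gamma0 N) k) (q : CosetN N) : MDiff (slashConj f q) := by
  rw [slashConj, ModularForm.SL_slash]
  exact MDifferentiable.slash (CuspFormClass.holo f) k _

/-- The signed elementary symmetric functions of the conjugates. -/
def normCoeff (f : CuspForm (Gamma0 N) k) (m : ℕ) : ℍ → ℂ :=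
  ∑ t ∈ Finset.powersetCard m Finset.univ, ∏ q ∈ t, -slashConj f q

/-- The coefficients are holomorphic. -/
lemma mdiff_normCoeff (f : CuspForm (Gamma0 N) k) (m : ℕ) : MDiff (normCoeff f m) :=
  MDifferentiable.sum fun _ _ => MDifferentiable.prod fun q _ => (mdiff_slashConj f q).neg

/-- The norm coefficient has level one and weight `k m`. -/
lemma normCoeff_smul (f : CuspForm (Gamma0 N) k) (m : ℕ) (δ : SL(2, ℤ)) (z : ℍ) :
    normCoeff f m (δ • z) = denom δ z ^ (k * m) * normCoeff f m z := by
  simp only [normCoeff, Finset.sum_apply, Finset.prod_apply, Pi.neg_apply, Finset.mul_sum]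
  have hmap : ∀ t : Finset (CosetN N), (∏ q ∈ t, -slashConj f q (δ • z)) =
      denom δ z ^ (k * t.card) * ∏ q ∈ t.map (MulAction.toPerm δ⁻¹).toEmbedding,
        -slashConj f q z := by
    intro t
    rw [Finset.prod_map, zpow_mul, zpow_natCast, ← Finset.prod_const, ← Finset.prod_mul_distrib]
    refine Finset.prod_congr rfl fun q _ => ?_
    rw [smul_eq_of_slash (k := k) (f := slashConj f q), slashConj_slash]
    simp [mul_comm]
  refine Finset.sum_bij' (fun t _ => t.map (MulAction.toPerm δ⁻¹).toEmbedding)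
    (fun t _ => t.map (MulAction.toPerm δ).toEmbedding) ?_ ?_ ?_ ?_ ?_
  · intro t ht; simpa [Finset.mem_powersetCard] using ht
  · intro t ht; simpa [Finset.mem_powersetCard] using ht
  · intro t _; simp [Finset.map_map, Function.Embedding.trans, Function.comp_def,
      MulAction.toPerm]
    exact Finset.map_refl
  · intro t _; simp [Finset.map_map, Function.Embedding.trans, Function.comp_def,
      MulAction.toPerm]
    exact Finset.map_refl
  · intro t ht
    rw [hmap t, (Finset.mem_powersetCard.mp ht).2]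

/-- The coefficients of positive index vanish at `∞`. -/
lemma isZeroAtImInfty_normCoeff (f : CuspForm (Gamma0 N) k) {m : ℕ} (hm : 0 < m) :
    IsZeroAtImInfty (normCoeff f m) := by
  rw [IsZeroAtImInfty, ZeroAtFilter]
  have : Tendsto (fun z => ∑ t ∈ Finset.powersetCard m (Finset.univ : Finset (CosetN N)),
      ∏ q ∈ t, -slashConj f q z) atImInfty (𝓝 (∑ t ∈ Finset.powersetCard m
        (Finset.univ : Finset (CosetN N)), ∏ _q ∈ t, (0 : ℂ))) :=
    tendsto_finsetSum _ fun t _ => tendsto_finsetProd _ fun q _ => by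
      exact (CuspFormClass.zero_at_infty_slash f q.out⁻¹).neg
  rw [Finset.sum_eq_zero fun t ht => ?_] at this
  · convert this using 1
    funext z
    simp [normCoeff]
  · have hc := (Finset.mem_powersetCard.mp ht).2
    obtain ⟨q, hq⟩ := Finset.card_pos.mp (hc ▸ hm)
    exact Finset.prod_eq_zero hq rfl

/-- The coefficient of `X ^ i` as a level one cusp form. -/
def normForm (f : CuspForm (Gamma0 N) k) (m : ℕ) (hm : 0 < m) : CuspForm 𝒮ℒ (k * m) :=
  levelOneCuspForm _ (normCoeff f m) (mdiff_normCoeff f m) (normCoeff_smul f m)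
    (isZeroAtImInfty_normCoeff f hm)

/-- A form is a root of its norm polynomial. -/
theorem root_normCoeff (f : CuspForm (Gamma0 N) k) :
    (⇑f : ℍ → ℂ) ^ psiN N +
      ∑ i ∈ Finset.range (psiN N), normCoeff f (psiN N - i) * (⇑f : ℍ → ℂ) ^ i = 0 := by
  have h0 : ∏ q : CosetN N, (-slashConj f q + ⇑f) = 0 := by
    refine Finset.prod_eq_zero (Finset.mem_univ ((1 : SL(2, ℤ)) : CosetN N)) ?_
    rw [slashConj_mk, inv_one, SlashAction.slash_one, neg_add_cancel]
  rw [Finset.prod_add, Finset.sum_powerset] at h0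
  have hsum : ∑ m ∈ Finset.range (psiN N + 1), normCoeff f m * (⇑f : ℍ → ℂ) ^ (psiN N - m) = 0 := by
    rw [psiN_eq_card, ← Finset.card_univ]
    conv_rhs => rw [← h0]
    refine Finset.sum_congr rfl fun m _ => ?_
    rw [normCoeff, Finset.sum_mul]
    refine Finset.sum_congr rfl fun t ht => ?_
    rw [Finset.prod_const, Finset.card_sdiff_of_subset (Finset.subset_univ t),
      (Finset.mem_powersetCard.mp ht).2]
  rw [← Finset.sum_range_reflect, Finset.sum_range_succ, add_comm] at hsum
  convert hsum using 2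
  · simp [normCoeff]
  · refine Finset.sum_congr rfl fun i hi => ?_
    have := Finset.mem_range.mp hi
    congr 2; omega

end Fermat.MC
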