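import Mathlib.RingTheory.LaurentSeries
import Mathlib.Data.Rat.Lemmas
import Fermat.Agent.MC.Lvl.Rational

/-!
# Integral and bounded-denominator rational Laurent series

`bddDen_biQQ`: rational polynomials in the series of `j` and `j (N τ)` have bounded denominators,
the source of the bounded denominators of `Conjugate`.
-/

set_option autoImplicit false

noncomputable section

open Polynomial
open ModularCurve (coeffMap qExpand jq)

namespace Fermat.MC

/-- Integral Laurent series inside rational Laurent series. -/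
def intRange : Subring (LaurentSeries ℚ) := (coeffMap (Int.castRingHom ℚ)).range

/-- Integral series have integral coefficients. -/
lemma mem_intRange {x : LaurentSeries ℚ} :
    x ∈ intRange ↔ ∀ n : ℤ, ∃ m : ℤ, x.coeff n = m := by
  refine ⟨fun ⟨y, hy⟩ n => ⟨y.coeff n, by rw [← hy]; rfl⟩, fun h => ?_⟩
  choose m hm using h
  refine ⟨⟨m, x.isPWO_support'.mono fun n hn => ?_⟩, ?_⟩
  · simp only [Function.mem_support] at hn ⊢
    rw [hm n]
    exact_mod_cast hn
  · ext n
    rw [ModularCurve.coeffMap_coeff, hm n]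
    rfl

/-- Bounded denominators. -/
def BddDen (x : LaurentSeries ℚ) : Prop := ∃ M : ℕ, M ≠ 0 ∧ (M : LaurentSeries ℚ) * x ∈ intRange

/-- Integral series have bounded denominators. -/
lemma BddDen.of_mem {x : LaurentSeries ℚ} (h : x ∈ intRange) : BddDen x :=
  ⟨1, one_ne_zero, by simpa using h⟩

/-- Bounded denominators are closed under sums. -/
lemma BddDen.add {x y : LaurentSeries ℚ} (hx : BddDen x) (hy : BddDen y) : BddDen (x + y) := by
  obtain ⟨M, hM, hx⟩ := hx
  obtain ⟨K, hK, hy⟩ := hy
  refine ⟨M * K, mul_ne_zero hM hK, ?_⟩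
  rw [show ((M * K : ℕ) : LaurentSeries ℚ) * (x + y) =
    (K : LaurentSeries ℚ) * ((M : LaurentSeries ℚ) * x) +
      (M : LaurentSeries ℚ) * ((K : LaurentSeries ℚ) * y) by push_cast; ring]
  exact add_mem (mul_mem (natCast_mem _ _) hx) (mul_mem (natCast_mem _ _) hy)

/-- Constants have bounded denominators. -/
lemma BddDen.const (c : ℚ) : BddDen (algebraMap ℚ (LaurentSeries ℚ) c) := by
  refine ⟨c.den, c.den_nz, ?_⟩
  rw [← map_natCast (algebraMap ℚ (LaurentSeries ℚ)), ← map_mul, mul_comm, Rat.mul_den_eq_num,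
    map_intCast]
  exact intCast_mem _ _

/-- Bounded denominators are closed under products. -/
lemma BddDen.mul {x y : LaurentSeries ℚ} (hx : BddDen x) (hy : BddDen y) : BddDen (x * y) := by
  obtain ⟨M, hM, hx⟩ := hx
  obtain ⟨K, hK, hy⟩ := hy
  refine ⟨M * K, mul_ne_zero hM hK, ?_⟩
  rw [show ((M * K : ℕ) : LaurentSeries ℚ) * (x * y) =
    ((M : LaurentSeries ℚ) * x) * ((K : LaurentSeries ℚ) * y) by push_cast; ring]
  exact mul_mem hx hy

/-- `ℤ((q))` is completely integrally closed in `ℚ((q))`. -/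
theorem mem_intRange_of_almostIntegral {v x : LaurentSeries ℚ} (hv0 : v ≠ 0)
    (h : ∀ m : ℕ, v * x ^ m ∈ intRange) : x ∈ intRange := by
  rw [mem_intRange]
  by_contra hne
  push Not at hne
  obtain ⟨n₀, hn₀⟩ := hne
  -- choose the first non-integral coefficient
  classical
  have hbdd : ∀ n, (¬ ∃ m : ℤ, x.coeff n = m) → x.order ≤ n := by
    intro n hn
    by_contra hlt
    exact hn ⟨0, by rw [HahnSeries.coeff_eq_zero_of_lt_order (not_le.mp hlt)]; simp⟩
  obtain ⟨t, ht, htmin⟩ := Int.exists_least_of_bdd (P := fun n => ¬ ∃ m : ℤ, x.coeff n = m)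
    ⟨x.order, hbdd⟩ ⟨n₀, fun ⟨m, hm⟩ => hn₀ m hm⟩
  let y : LaurentSeries ℚ := ⟨fun n => if n < t then x.coeff n else 0,
    x.isPWO_support'.mono fun n hn => by
      simp only [Function.mem_support] at hn ⊢
      split_ifs at hn with h1
      · exact hn
      · exact absurd rfl hn⟩
  have hy : y ∈ intRange := by
    rw [mem_intRange]
    intro n
    by_cases hn : n < t
    · obtain ⟨m, hm⟩ : ∃ m : ℤ, x.coeff n = m := by
        by_contra hc
        exact absurd (htmin n hc) (not_le.mpr hn)
      exact ⟨m, by simpa [y, hn] using hm⟩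
    · exact ⟨0, by simp [y, hn]⟩
  have hz : ∀ m : ℕ, v * (x - y) ^ m ∈ intRange := by
    intro m
    rw [sub_eq_add_neg, add_pow, Finset.mul_sum]
    refine sum_mem fun i _ => ?_
    rw [show v * (x ^ i * (-y) ^ (m - i) * ((m.choose i : ℕ) : LaurentSeries ℚ)) =
      (v * x ^ i) * ((-y) ^ (m - i) * ((m.choose i : ℕ) : LaurentSeries ℚ)) by ring]
    exact mul_mem (h i) (mul_mem (pow_mem (neg_mem hy) _) (natCast_mem _ _))
  set z := x - y with hzdef
  have hzt : z.coeff t = x.coeff t := by simp [z, y]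
  have hzlt : ∀ n < t, z.coeff n = 0 := fun n hn => by simp [z, y, hn]
  have hz0 : z ≠ 0 := fun h0 => ht ⟨0, by rw [← hzt, h0]; simp⟩
  have hord : z.order = t := by
    refine le_antisymm (HahnSeries.order_le_of_coeff_ne_zero fun h0 => ht ⟨0, ?_⟩) ?_
    · rw [← hzt, h0]; simp
    · by_contra hlt
      have h2 := hzlt _ (not_le.mp hlt)
      exact (HahnSeries.leadingCoeff_eq_zero.not.mpr hz0)
        (by rw [HahnSeries.leadingCoeff_eq]; exact h2)
  set a := x.coeff t
  have hla : z.leadingCoeff = a := by rw [HahnSeries.leadingCoeff_eq, hord, hzt]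
  have hint : ∀ m : ℕ, ∃ k : ℤ, v.leadingCoeff * a ^ m = k := by
    intro m
    obtain ⟨k, hk⟩ := mem_intRange.mp (hz m) (v * z ^ m).order
    refine ⟨k, ?_⟩
    rw [← hk, ← HahnSeries.leadingCoeff_eq, HahnSeries.leadingCoeff_mul]
    congr 1
    clear hk
    induction m with
    | zero => simp
    | succ m ih => rw [pow_succ, pow_succ, HahnSeries.leadingCoeff_mul, ← ih, hla]
  obtain ⟨c, hc⟩ := hint 0
  rw [pow_zero, mul_one] at hc
  have hc0 : c ≠ 0 := by
    rintro rfl
    exact hv0 (HahnSeries.leadingCoeff_eq_zero.mp (by simpa using hc))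
  have hdvd : ∀ m : ℕ, (a.den : ℤ) ^ m ∣ c := by
    intro m
    obtain ⟨k, hk⟩ := hint m
    rw [hc] at hk
    have h1 : (c : ℚ) * (a.num : ℚ) ^ m = k * (a.den : ℚ) ^ m := by
      rw [← hk, mul_assoc, ← mul_pow, Rat.mul_den_eq_num]
    have h2 : (a.den : ℤ) ^ m ∣ c * a.num ^ m := ⟨k, by
      have : c * a.num ^ m = k * (a.den : ℤ) ^ m := by exact_mod_cast h1
      rw [this, mul_comm]⟩
    have hcop : IsCoprime ((a.den : ℤ) ^ m) (a.num ^ m) := by
      refine IsCoprime.pow ?_
      exact (Rat.isCoprime_num_den a).symm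
    exact hcop.dvd_of_dvd_mul_right h2
  have hden : a.den = 1 := by
    by_contra h1
    have h2 : 2 ≤ a.den := by have := a.den_pos; omega
    have h3 := Int.le_of_dvd (by positivity) ((dvd_abs _ _).mpr (hdvd c.natAbs))
    have h4 : (c.natAbs : ℤ) < (a.den : ℤ) ^ c.natAbs := by
      exact_mod_cast Nat.lt_pow_self (by omega)
    rw [Int.natCast_natAbs] at h4
    omega
  exact ht ⟨a.num, (Rat.den_eq_one_iff a).mp hden ▸ rfl⟩

/-- Powers of a root of an integral monic equation have bounded denominators. -/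
lemma pow_mul_pow_mem_of_root {n : ℕ} {v x : LaurentSeries ℚ} (c : ℕ → LaurentSeries ℚ)
    (hc : ∀ i < n, c i ∈ intRange) (hroot : x ^ n + ∑ i ∈ Finset.range n, c i * x ^ i = 0)
    (hv : v ∈ intRange) (hvx : v * x ∈ intRange) (m : ℕ) : v ^ n * x ^ m ∈ intRange := by
  induction m using Nat.strong_induction_on with | h m ih => ?_
  rcases lt_or_ge m n with hm | hm
  · rw [show v ^ n * x ^ m = v ^ (n - m) * (v * x) ^ m by
      rw [mul_pow, ← mul_assoc, ← pow_add, Nat.sub_add_cancel hm.le]]
    exact mul_mem (pow_mem hv _) (pow_mem hvx _)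
  · rw [show v ^ n * x ^ m = -(∑ i ∈ Finset.range n, c i * (v ^ n * x ^ (m - n + i))) by
      rw [show x ^ m = x ^ (m - n) * x ^ n by rw [← pow_add, Nat.sub_add_cancel hm],
        eq_neg_of_add_eq_zero_left hroot, mul_neg, mul_neg, Finset.mul_sum, Finset.mul_sum]
      congr 1
      refine Finset.sum_congr rfl fun i _ => ?_
      rw [pow_add]; ring]
    refine neg_mem (sum_mem fun i hi => ?_)
    have hin := Finset.mem_range.mp hi
    exact mul_mem (hc i hin) (ih _ (by omega))

/-- `q⁻¹` is integral. -/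
lemma single_neg_one_mem_intRange : HahnSeries.single (-1 : ℤ) (1 : ℚ) ∈ intRange :=
  ⟨HahnSeries.single (-1 : ℤ) 1, by rw [ModularCurve.coeffMap_single, map_one]⟩

/-- Integral power series give integral Laurent series. -/
lemma ofPowerSeries_map_mem_intRange (p : PowerSeries ℤ) :
    HahnSeries.ofPowerSeries ℤ ℚ (p.map (Int.castRingHom ℚ)) ∈ intRange := by
  rw [mem_intRange]
  intro n
  rcases le_or_gt 0 n with hn | hn
  · lift n to ℕ using hn
    exact ⟨p.coeff n, by simp [HahnSeries.ofPowerSeries_apply_coeff, PowerSeries.coeff_map]⟩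
  · exact ⟨0, by simp [ModularCurve.ofPowerSeries_coeff_of_neg _ hn]⟩

/-- The series of `j` is integral. -/
lemma jq_mem_intRange : jq ∈ intRange :=
  mul_mem single_neg_one_mem_intRange (ofPowerSeries_map_mem_intRange _)

/-- The series of `j (N τ)` is integral. -/
lemma qExpand_jq_mem_intRange (N : ℕ) [NeZero N] : qExpand ℚ N jq ∈ intRange := by
  obtain ⟨y, hy⟩ := jq_mem_intRange
  exact ⟨qExpand ℤ N y, by rw [ModularCurve.coeffMap_qExpand, hy]⟩

/-- Rational polynomials in the two series have bounded denominators. -/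
lemma bddDen_biQQ (N : ℕ) [NeZero N] (P : ℚ[X][X]) :
    BddDen (Lvl.biQQ (CongruenceSubgroup.Gamma0 N) P) := by
  induction P using Polynomial.induction_on' with
  | add p q hp hq => rw [map_add]; exact hp.add hq
  | monomial b p =>
    induction p using Polynomial.induction_on' with
    | add p q hp hq => rw [map_add, map_add]; exact hp.add hq
    | monomial a c =>
      rw [Lvl.biQQ_monomial]
      exact (BddDen.const c).mul
        (.of_mem (mul_mem (pow_mem jq_mem_intRange _) (pow_mem (qExpand_jq_mem_intRange N) _)))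

end Fermat.MC
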