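import Fermat.Agent.MC.LevelOne
import Fermat.Agent.MC.IntSeries

/-!
# q-series of level one forms: rationality and bounded denominators

`span_monoSet_props`: the forms of level one are stable under conjugation of coefficients and have
bounded denominators; `Conjugate` carries this to level `Γ₀(N)` by the norm polynomial (`NormPoly`).
-/

set_option autoImplicit false

noncomputable section

open Filter Function
open UpperHalfPlane hiding I
open ModularForm (E₄ E₆)
open ModularCurve (coeffEmb coeffMap)
open scoped Manifold MatrixGroups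

namespace Fermat.MC

/-- Zero constant term means vanishing at `∞`. -/
lemma IsZeroAtImInfty.of_coeff_zero {f : ℍ → ℂ} (hf : BddPer f)
    (h0 : (qExpansion 1 f).coeff 0 = 0) : IsZeroAtImInfty f := by
  have h := tendsto_cusp_atImInfty hf
  rwa [h0] at h

/-- Vanishing at `∞` means zero constant term. -/
lemma qS_coeff_zero_of_isZeroAtImInfty {f : ℍ → ℂ} (hf : BddPer f) (h : IsZeroAtImInfty f) :
    (qS f).coeff 0 = 0 := by
  rw [qS, show (0 : ℤ) = ((0 : ℕ) : ℤ) from rfl, HahnSeries.ofPowerSeries_apply_coeff,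
    qExpansion_coeff_zero one_pos hf.analyticAt (by exact_mod_cast hf.2.1),
    h.valueAtInfty_eq_zero]

/-- An integral power series as a rational Laurent series. -/
def intPSQ (p : PowerSeries ℤ) : LaurentSeries ℚ :=
  HahnSeries.ofPowerSeries ℤ ℚ (p.map (Int.castRingHom ℚ))

/-- The complex series of an integral series. -/
lemma coeffEmb_intPSQ (p : PowerSeries ℤ) : coeffEmb ℂ (intPSQ p) = intPS p := by
  ext k
  rw [ModularCurve.coeffEmb_coeff]
  rcases le_or_gt 0 k with hk | hk
  · lift k to ℕ using hk
    simp [intPS, intPSQ, HahnSeries.ofPowerSeries_apply_coeff, PowerSeries.coeff_map]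
  · simp [intPS, intPSQ, ModularCurve.ofPowerSeries_coeff_of_neg _ hk]

/-- The series of a multiple. -/
lemma qS_smul {f : ℍ → ℂ} (hf : BddPer f) (c : ℂ) :
    qS (c • f) = algebraMap ℂ (LaurentSeries ℂ) c * qS f := by
  rw [show c • f = (fun _ => c) * f from funext fun z => by simp, qS_mul (BddPer.const c) hf,
    qS_const]

/-- The monomials are periodic and bounded. -/
lemma bddPer_mono (a b : ℕ) : BddPer ((⇑E₄) ^ a * (⇑E₆) ^ b) :=
  (bddPer_E₄.pow a).mul (bddPer_E₆.pow b)

/-- The series of a monomial. -/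
lemma qS_mono (a b : ℕ) : qS ((⇑E₄) ^ a * (⇑E₆) ^ b) =
    coeffEmb ℂ (intPSQ (ModularCurve.eisenstein4 ^ a * eisenstein6 ^ b)) := by
  rw [qS_mul (bddPer_E₄.pow a) (bddPer_E₆.pow b), qS_pow bddPer_E₄, qS_pow bddPer_E₆, qS_E₄,
    qS_E₆, coeffEmb_intPSQ, map_mul, map_pow, map_pow]

/-- The span of the monomials consists of periodic functions bounded at infinity. -/
lemma bddPer_of_mem_span_monoSet {k : ℤ} {g : ℍ → ℂ} (hg : g ∈ Submodule.span ℂ (monoSet k)) :
    BddPer g := by
  induction hg using Submodule.span_induction with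
  | mem g hg => obtain ⟨a, b, -, rfl⟩ := hg; exact bddPer_mono a b
  | zero => exact BddPer.const 0
  | add x y _ _ hx hy => exact hx.add hy
  | smul c x _ hx =>
    rw [show c • x = (fun _ => c) * x from funext fun z => by simp]
    exact (BddPer.const c).mul hx

/-- The span of the monomials consists of periodic functions of weight `k`, with q-series stable
under conjugation and of bounded denominators after retraction. -/
lemma span_monoSet_props {k : ℤ} {g : ℍ → ℂ} (hg : g ∈ Submodule.span ℂ (monoSet k)) :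
    BddPer g ∧ (∀ (γ : SL(2, ℤ)) z, g (γ • z) = denom γ z ^ k * g z) ∧
      BddDen (retL (qS g)) ∧
      ∀ σ : ℂ →+* ℂ, ∃ g' ∈ Submodule.span ℂ (monoSet k), qS g' = coeffMap σ (qS g) := by
  -- Each property holds on monomials and passes to linear combinations.
  induction hg using Submodule.span_induction with
  | mem g hg =>
    obtain ⟨a, b, hab, rfl⟩ := hg
    refine ⟨bddPer_mono a b, fun γ z => ?_, ?_,
      fun σ => ⟨_, Submodule.subset_span ⟨a, b, hab, rfl⟩, ?_⟩⟩
    · simp only [Pi.mul_apply, Pi.pow_apply, smul_eq_denom_zpow E₄ γ z, smul_eq_denom_zpow E₆ γ z]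
      rw [← hab, zpow_add₀ (denom_ne_zero γ z), zpow_mul, zpow_mul, zpow_natCast, zpow_natCast]
      ring
    · rw [qS_mono, retL_coeffEmb]
      exact .of_mem (ofPowerSeries_map_mem_intRange _)
    · rw [qS_mono, coeffMap_coeffEmbC]
  | zero =>
    refine ⟨BddPer.const 0, fun γ z => by simp, ?_, fun σ => ⟨0, zero_mem _, ?_⟩⟩
    · rw [show qS (0 : ℍ → ℂ) = 0 from (qS_const 0).trans (map_zero _), map_zero]
      exact .of_mem (zero_mem _)
    · rw [show qS (0 : ℍ → ℂ) = 0 from (qS_const 0).trans (map_zero _), map_zero]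
  | add x y _ _ hx hy =>
    obtain ⟨x1, x2, x3, x4⟩ := hx
    obtain ⟨y1, y2, y3, y4⟩ := hy
    refine ⟨x1.add y1, fun γ z => ?_, ?_, fun σ => ?_⟩
    · simp only [Pi.add_apply, x2, y2]; ring
    · rw [qS_add x1 y1, map_add]; exact x3.add y3
    · obtain ⟨x', hx', hxq⟩ := x4 σ
      obtain ⟨y', hy', hyq⟩ := y4 σ
      refine ⟨x' + y', add_mem hx' hy', ?_⟩
      rw [qS_add (bddPer_of_mem_span_monoSet hx') (bddPer_of_mem_span_monoSet hy'), qS_add x1 y1,
        map_add, hxq, hyq]
  | smul c x _ hx =>
    obtain ⟨x1, x2, x3, x4⟩ := hx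
    have hb : BddPer (c • x) := by
      rw [show c • x = (fun _ => c) * x from funext fun z => by simp]
      exact (BddPer.const c).mul x1
    refine ⟨hb, fun γ z => ?_, ?_, fun σ => ?_⟩
    · simp only [Pi.smul_apply, smul_eq_mul, x2]; ring
    · rename_i hxm
      clear x3 x4 x2 hb x1
      induction hxm using Submodule.span_induction generalizing c with
      | mem g hg =>
        obtain ⟨a, b, -, rfl⟩ := hg
        rw [qS_smul (bddPer_mono a b), qS_mono, retL_smul_coeffEmb]
        exact (BddDen.const _).mul (.of_mem (ofPowerSeries_map_mem_intRange _))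
      | zero =>
        rw [smul_zero, show qS (0 : ℍ → ℂ) = 0 from (qS_const 0).trans (map_zero _), map_zero]
        exact .of_mem (zero_mem _)
      | add x y hxs hys hx hy =>
        rw [smul_add, qS_add (bddPer_of_mem_span_monoSet (Submodule.smul_mem _ c hxs))
          (bddPer_of_mem_span_monoSet (Submodule.smul_mem _ c hys)), map_add]
        exact (hx c).add (hy c)
      | smul d x _ hx =>
        rw [smul_smul]; exact hx _
    · obtain ⟨x', hx', hxq⟩ := x4 σ
      refine ⟨σ c • x', Submodule.smul_mem _ _ hx', ?_⟩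
      rw [qS_smul (bddPer_of_mem_span_monoSet hx'), qS_smul x1, map_mul,
        ModularCurve.coeffMap_algebraMap, hxq]

end Fermat.MC
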