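import Fermat.Prelude.Thm_CongruenceSubgroup_one_mem_strictPeriods_Gamma0
import Fermat.Agent.MC.NormPoly
import Fermat.Agent.MC.Weight

/-!
# Conjugates of cusp forms by field endomorphisms of `ℂ`, and bounded denominators

`exists_conjugate` and `bddDen_of_rational`, the two facts from which `IntStructure` gets an
integral basis of `S_k(Γ₀(N))`.
-/

set_option autoImplicit false

attribute [local instance 10000] SubalgebraClass.toAlgebra HahnSeries.powerSeriesAlgebra

noncomputable section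

open Filter Function
open UpperHalfPlane hiding I
open CongruenceSubgroup
open ModularForm (E₄ E₆)
open ModularCurve (coeffEmb coeffMap)
open scoped Manifold MatrixGroups ModularForm Polynomial

local notation "Δ" => ModularForm.discriminant

namespace Fermat.MC

/-- `E₄ E₆`. -/
def E46 : ℍ → ℂ := (⇑E₄) ^ 1 * (⇑E₆) ^ 1

/-- `E₄ E₆` is periodic and bounded at `∞`. -/
lemma bddPer_E46 : BddPer E46 := bddPer_mono 1 1

/-- `E₄ E₆` has weight `10`. -/
lemma E46_smul (γ : SL(2, ℤ)) (z : ℍ) : E46 (γ • z) = denom γ z ^ (10 : ℤ) * E46 z :=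
  (span_monoSet_props (k := 10) (Submodule.subset_span ⟨1, 1, by norm_num, rfl⟩)).2.1 γ z

/-- `E₄ E₆` is not zero. -/
lemma E46_ne_zero : E46 ≠ 0 := by
  intro h
  have h' : (⇑E₄ : ℍ → ℂ) * (⇑E₆ : ℍ → ℂ) = 0 := by rw [← h, E46, pow_one, pow_one]
  rcases (UpperHalfPlane.mul_eq_zero_iff bddPer_E₄.1 bddPer_E₆.1).mp h' with h | h
  · exact EisensteinSeries.E_ne_zero _ ⟨2, rfl⟩ (DFunLike.coe_injective h)
  · exact EisensteinSeries.E_ne_zero _ ⟨3, rfl⟩ (DFunLike.coe_injective h)

/-- `q ↦` series of `E₄ E₆ / Δ`, over `ℚ`. -/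
def xiQ : LaurentSeries ℚ :=
  HahnSeries.single (-1 : ℤ) 1 *
    intPSQ (ModularCurve.eisenstein4 * eisenstein6 * ModularCurve.dedekindEtaUnitInv)

/-- The series of `E₄ E₆ / Δ` is integral. -/
lemma xiQ_mem : xiQ ∈ intRange :=
  mul_mem single_neg_one_mem_intRange (ofPowerSeries_map_mem_intRange _)

/-- `xiQ` is the expansion of `E₄ E₆ / Δ`. -/
lemma qS_E46_div : qS E46 / qS Δ = coeffEmb ℂ xiQ := by
  rw [div_eq_iff qS_discriminant_ne_zero, E46, qS_mono, qS_discriminant, pow_one, pow_one, xiQ,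
    map_mul, ModularCurve.coeffEmb, ModularCurve.coeffMap_single, map_one, ← ModularCurve.coeffEmb,
    coeffEmb_intPSQ, coeffEmb_intPSQ, mul_mul_mul_comm, HahnSeries.single_mul_single]
  simp only [neg_add_cancel, mul_one, HahnSeries.single_zero_one, one_mul, ← map_mul]
  congr 1
  rw [mul_assoc, mul_comm ModularCurve.dedekindEtaUnitInv, ModularCurve.dedekindEtaUnit_mul_inv,
    mul_one]

/-- The series `xiQ` is nonzero. -/
lemma xiQ_ne_zero : xiQ ≠ 0 := by
  intro h
  have h1 := qS_E46_div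
  rw [h, map_zero, div_eq_zero_iff] at h1
  rcases h1 with h1 | h1
  · exact E46_ne_zero ((qS_eq_zero_iff bddPer_E46).mp h1)
  · exact qS_discriminant_ne_zero h1

/-- `E₄ E₆ / Δ` is holomorphic. -/
lemma mdiff_E46_div : MDiff fun z => E46 z / Δ z :=
  mdiff_of_analyticAt_ext fun z => (analyticAt_ext bddPer_E46.1 z).div
    (analyticAt_ext bddPer_discriminant.1 z)
    (by simpa [ext, ofComplex_apply] using ModularForm.discriminant_ne_zero z)

/-- `E₄ E₆ / Δ` has exponential growth. -/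
lemma expGrowth_E46_div : ExpGrowth fun z => E46 z / Δ z :=
  (ExpGrowth.of_isBoundedAtImInfty bddPer_E46.2.2).div_discriminant

variable {N : ℕ} [NeZero N]

omit [NeZero N] in
/-- A cusp form is periodic and bounded at `∞`. -/
lemma bddPer_cuspForm {k : ℤ} (f : CuspForm (Gamma0 N) k) : BddPer ⇑f :=
  bddPer_of_modularFormClass f (CongruenceSubgroup.one_mem_strictPeriods_Gamma0 N)

/-- `f (E₄ E₆ / Δ) ^ r` as a weakly holomorphic modular function. -/
def weightZero (r : ℕ) (f : CuspForm (Gamma0 N) (2 * r)) : W N :=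
  ⟨fun z => f z * (E46 z / Δ z) ^ r, by
    have hinv : ∀ γ : SL(2, ℤ), compSL γ (fun z => f z * (E46 z / Δ z) ^ r) =
        fun z => (⇑f ∣[(2 * r : ℤ)] γ) z * (E46 z / Δ z) ^ r := by
      intro γ
      funext z
      have hD : Δ (γ • z) = denom γ z ^ (12 : ℤ) * Δ z :=
        smul_eq_denom_zpow CuspForm.discriminant γ z
      have hd := denom_ne_zero γ z
      simp only [compSL_apply, smul_eq_of_slash (k := (2 * r : ℤ)) (f := ⇑f), E46_smul, hD]
      rw [show denom γ z ^ (10 : ℤ) * E46 z / (denom γ z ^ (12 : ℤ) * Δ z) =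
        (denom γ z ^ (2 : ℤ))⁻¹ * (E46 z / Δ z) by
          rw [show (12 : ℤ) = 10 + 2 from rfl, zpow_add₀ hd]
          field_simp, mul_pow, zpow_mul, zpow_natCast, inv_pow]
      field_simp
    refine ⟨?_, fun γ hγ => ?_, fun γ => ?_⟩
    · exact (bddPer_cuspForm f).1.mul (mdiff_E46_div.pow r)
    · rw [hinv, slash_Gamma0_eq f hγ]
    · rw [hinv]
      refine (ExpGrowth.of_isBoundedAtImInfty
        (CuspFormClass.zero_at_infty_slash f γ).isBoundedAtImInfty).mul ?_
      have : (fun z => (E46 z / Δ z) ^ r) = ∏ _i ∈ Finset.range r, fun z => E46 z / Δ z := by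
        funext z; simp [div_pow]
      rw [show (fun a => (E46 a / Δ a) ^ r) = ∏ _i ∈ Finset.range r, fun z => E46 z / Δ z from this]
      exact ExpGrowth.prod fun _ _ => expGrowth_E46_div⟩

/-- The expansion of the weight zero function of a form. -/
lemma qW_weightZero (r : ℕ) (f : CuspForm (Gamma0 N) (2 * r)) :
    Lvl.qW (Gamma0 N) (weightZero r f) = qS ⇑f * coeffEmb ℂ xiQ ^ r := by
  have h : (weightZero r f : ℍ → ℂ) * Δ ^ r = ⇑f * E46 ^ r := by
    funext z
    simp only [weightZero, Pi.mul_apply, Pi.pow_apply, div_pow, mul_assoc]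
    rw [div_mul_cancel₀ _ (pow_ne_zero _ (ModularForm.discriminant_ne_zero z))]
  have hb : IsBoundedAtImInfty ((weightZero r f : ℍ → ℂ) * Δ ^ r) := by
    rw [h]; exact ((bddPer_cuspForm f).mul (bddPer_E46.pow r)).2.2
  rw [Lvl.qW_apply, qL_apply _ hb, h, qS_mul (bddPer_cuspForm f) (bddPer_E46.pow r),
    qS_pow bddPer_E46, ← qS_E46_div, div_pow, mul_div_assoc]

/-- The denominator series over `ℚ`. -/
def denSer (N : ℕ) [NeZero N] (r : ℕ) : LaurentSeries ℚ := Lvl.denQ (Gamma0 N) * xiQ ^ r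

/-- The denominator series over `ℂ`. -/
lemma coeffEmb_denSer (r : ℕ) :
    coeffEmb ℂ (denSer N r) = Lvl.qW (Gamma0 N) (Lvl.denG (Gamma0 N)) * coeffEmb ℂ xiQ ^ r := by
  rw [denSer, map_mul, map_pow, Lvl.qW_denG]

/-- The denominator series is nonzero. -/
lemma denSer_ne_zero (r : ℕ) : denSer N r ≠ 0 := by
  refine mul_ne_zero (fun h => Lvl.denG_ne_zero (Gamma0 N) (Lvl.qW_injective (Gamma0 N) ?_))
    (pow_ne_zero _ xiQ_ne_zero)
  rw [Lvl.qW_denG, h, map_zero, map_zero]

/-- A form times the denominator series is a polynomial in the two series of `j`. -/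
lemma exists_qS_mul_denSer (r : ℕ) (f : CuspForm (Gamma0 N) (2 * r)) :
    ∃ H : ℂ[X][X], qS ⇑f * coeffEmb ℂ (denSer N r) = Lvl.biQ (Gamma0 N) H := by
  obtain ⟨H, -, hH⟩ := Lvl.exists_interp (Gamma0 N) (weightZero r f)
  refine ⟨H, ?_⟩
  rw [Lvl.biQ, RingHom.comp_apply, ← hH]
  show _ = Lvl.qW (Gamma0 N) (weightZero r f * Lvl.denG (Gamma0 N))
  rw [map_mul, coeffEmb_denSer, qW_weightZero]
  ring

/-- The expansion of a form of weight `2 r` is a root of the expansion of its level one norm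
polynomial. -/
lemma qS_root (r : ℕ) (f : CuspForm (Gamma0 N) (2 * r)) :
    qS ⇑f ^ psiN N + ∑ i ∈ Finset.range (psiN N),
      qS (normCoeff f (psiN N - i)) * qS ⇑f ^ i = 0 := by
  have hb : ∀ i ∈ Finset.range (psiN N), BddPer (normCoeff f (psiN N - i)) := fun i hi =>
    bddPer_of_modularFormClass
      (normForm f (psiN N - i) (by have := Finset.mem_range.mp hi; omega))
      one_mem_strictPeriods_SL
  have hf := bddPer_cuspForm f
  set P : perAlg := ⟨⇑f, hf.mem_perAlg⟩ with hP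
  set cf : ℕ → perAlg := fun i =>
    if hi : i ∈ Finset.range (psiN N) then ⟨_, (hb i hi).mem_perAlg⟩ else 0 with hcf
  have h : P ^ psiN N + ∑ i ∈ Finset.range (psiN N), cf i * P ^ i = 0 := by
    have hinj : Injective perAlg.val := Subtype.val_injective
    apply hinj
    rw [map_add, map_pow, map_sum, map_zero]
    refine Eq.trans ?_ (root_normCoeff f)
    refine congrArg₂ (· + ·) rfl (Finset.sum_congr rfl fun i hi => ?_)
    rw [map_mul, map_pow]
    simp only [hcf, dif_pos hi]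
    rfl
  have h2 := congrArg qL h
  rw [map_add, map_pow, map_sum, map_zero, hP, qL_eq_qS hf] at h2
  refine Eq.trans (congrArg₂ (· + ·) rfl (Finset.sum_congr rfl fun i hi => ?_)) h2
  rw [map_mul, map_pow]
  simp only [hcf, dif_pos hi, qL_eq_qS hf, qL_eq_qS (hb i hi)]

/-- The conjugates of the coefficients of the norm polynomial are level one forms vanishing at
infinity. -/
lemma exists_conjugate_normCoeff (r : ℕ) (f : CuspForm (Gamma0 N) (2 * r)) (σ : ℂ →+* ℂ) :
    ∃ c : ℕ → ℍ → ℂ, ∀ i < psiN N,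
      c i ∈ Submodule.span ℂ (monoSet ((2 * r : ℤ) * (psiN N - i : ℕ))) ∧
      qS (c i) = coeffMap σ (qS (normCoeff f (psiN N - i))) ∧ IsZeroAtImInfty (c i) := by
  have key : ∀ i : ℕ, ∃ c : ℍ → ℂ, i < psiN N →
      c ∈ Submodule.span ℂ (monoSet ((2 * r : ℤ) * (psiN N - i : ℕ))) ∧
      qS c = coeffMap σ (qS (normCoeff f (psiN N - i))) ∧ IsZeroAtImInfty c := by
    intro i
    by_cases hi : i < psiN N
    · obtain ⟨hnb, -, -, hc⟩ := span_monoSet_props (mem_span_monoSet _
        (ModularFormClass.modularForm (normForm f (psiN N - i) (by omega))))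
      obtain ⟨c, hc1, hc2⟩ := hc σ
      refine ⟨c, fun _ => ⟨hc1, hc2, ?_⟩⟩
      refine IsZeroAtImInfty.of_coeff_zero (span_monoSet_props hc1).1 ?_
      have h0 := congrArg (fun x => HahnSeries.coeff x (0 : ℤ)) hc2
      rw [ModularCurve.coeffMap_coeff, qS_coeff_zero_of_isZeroAtImInfty hnb
        (isZeroAtImInfty_normCoeff f (by omega)), map_zero] at h0
      rwa [qS, show (0 : ℤ) = ((0 : ℕ) : ℤ) from rfl, HahnSeries.ofPowerSeries_apply_coeff] at h0
    · exact ⟨0, fun h => absurd h hi⟩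
  choose c hc using key
  exact ⟨c, hc⟩

/-- A quotient of functions of weights `k + l` and `l` has weight `k`. -/
lemma slash_eq_of_mul {u v w : ℍ → ℂ} {k l : ℤ} (hwm : MDiff w) (hvm : MDiff v) (hv0 : v ≠ 0)
    (huw : u = w * v) {γ : SL(2, ℤ)} (hu : ∀ z, u (γ • z) = denom γ z ^ (k + l) * u z)
    (hv : ∀ z, v (γ • z) = denom γ z ^ l * v z) : w ∣[k] γ = w := by
  rw [slash_eq_iff_smul]
  have h0 : (fun z => w (γ • z) - denom γ z ^ k * w z) * v = 0 := by
    funext z
    have hd := denom_ne_zero γ z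
    have e3 := hu z
    simp only [huw, Pi.mul_apply, hv z, zpow_add₀ hd] at e3
    simp only [Pi.mul_apply, Pi.zero_apply, sub_mul]
    refine mul_right_cancel₀ (zpow_ne_zero l hd) ?_
    linear_combination e3
  have hm : MDiff fun z => w (γ • z) - denom γ z ^ k * w z :=
    (mdiff_compSL γ hwm).sub
      ((UpperHalfPlane.mdifferentiable_denom_zpow (γ : GL (Fin 2) ℝ) _).mul hwm)
  rcases (UpperHalfPlane.mul_eq_zero_iff hm hvm).mp h0 with h | h
  · exact fun z => sub_eq_zero.mp (congrFun h z)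
  · exact absurd h hv0

/-- The conjugate of a cusp form by a field endomorphism of `ℂ` is a cusp form. -/
theorem exists_conjugate (r : ℕ) (f : CuspForm (Gamma0 N) (2 * r)) (σ : ℂ →+* ℂ) :
    ∃ f' : CuspForm (Gamma0 N) (2 * r), qS ⇑f' = coeffMap σ (qS ⇑f) := by
  classical
  set n := psiN N with hn
  obtain ⟨c, hc⟩ := exists_conjugate_normCoeff r f σ
  have hcb : ∀ i < n, BddPer (c i) := fun i hi => (span_monoSet_props (hc i hi).1).1
  have hcw : ∀ i < n, ∀ (γ : SL(2, ℤ)) z,
      c i (γ • z) = denom γ z ^ ((2 * r : ℤ) * (n - i : ℕ)) * c i z :=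
    fun i hi => (span_monoSet_props (hc i hi).1).2.1
  obtain ⟨H, hH⟩ := exists_qS_mul_denSer r f
  set H' := H.map (Polynomial.mapRingHom σ)
  set uW : W N := Lvl.bW (Gamma0 N) H'
  set u : ℍ → ℂ := (uW : ℍ → ℂ) * Δ ^ r with hu
  set v : ℍ → ℂ := (Lvl.denG (Gamma0 N) : ℍ → ℂ) * E46 ^ r with hv
  have hum : MDiff u := uW.2.1.mul (bddPer_discriminant.pow r).1
  have hvm : MDiff v := (Lvl.denG (Gamma0 N)).2.1.mul (bddPer_E46.pow r).1
  have hv0 : v ≠ 0 := by
    intro h
    rcases (UpperHalfPlane.mul_eq_zero_iff (Lvl.denG (Gamma0 N)).2.1 (bddPer_E46.pow r).1).mp h with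
      h | h
    · exact Lvl.denG_ne_zero (Gamma0 N) (Subtype.ext h)
    · exact E46_ne_zero (eq_zero_of_pow_eq_zero h)
  -- the q-series of `u` and `v`
  set uP : perAlg := ⟨_, Lvl.W_le_perAlg (Gamma0 N) uW.2⟩ *
    ⟨_, (bddPer_discriminant.pow r).mem_perAlg⟩
  set vP : perAlg := ⟨_, Lvl.W_le_perAlg (Gamma0 N) (Lvl.denG (Gamma0 N)).2⟩ *
    ⟨_, (bddPer_E46.pow r).mem_perAlg⟩
  have huv : qL uP = coeffMap σ (qS ⇑f) * qL vP := by
    rw [map_mul, map_mul, qL_eq_qS (bddPer_discriminant.pow r), qL_eq_qS (bddPer_E46.pow r),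
      ← Lvl.qW_apply, ← Lvl.qW_apply, qS_pow bddPer_discriminant, qS_pow bddPer_E46]
    have h1 := congrArg (coeffMap σ) hH
    rw [Lvl.coeffMap_biQ, map_mul, coeffMap_coeffEmbC, coeffEmb_denSer] at h1
    rw [show Lvl.qW (Gamma0 N) uW = Lvl.biQ (Gamma0 N) H' from rfl, ← h1, ← qS_E46_div, div_pow]
    field_simp [qS_discriminant_ne_zero]
  have huPc : (uP : ℍ → ℂ) = u := rfl
  have hvPc : (vP : ℍ → ℂ) = v := rfl
  clear_value uP vP
  have hrel : u ^ n + ∑ i ∈ Finset.range n, c i * u ^ i * v ^ (n - i) = 0 := by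
    have hroot := congrArg (coeffMap σ) (qS_root r f)
    rw [map_add, map_pow, map_sum, map_zero] at hroot
    set cP : (i : ℕ) → perAlg := fun i =>
      if hi : i < n then ⟨c i, (hcb i hi).mem_perAlg⟩ else 0
    have hP : uP ^ n + ∑ i ∈ Finset.range n, cP i * uP ^ i * vP ^ (n - i) = 0 := by
      apply qL_injective
      rw [map_add, map_pow, map_sum, map_zero, huv, ← mul_zero (qL vP ^ n), ← hroot, mul_add,
        Finset.mul_sum]
      congr 1
      · rw [mul_pow]; ring
      · refine Finset.sum_congr rfl fun i hi => ?_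
        have hi' := Finset.mem_range.mp hi
        rw [map_mul, map_mul, map_pow, map_pow, map_mul, map_pow, huv]
        rw [show cP i = ⟨c i, (hcb i hi').mem_perAlg⟩ from dif_pos hi', qL_eq_qS (hcb i hi'),
          (hc i hi').2.1, mul_pow]
        simp only [← hn]
        have e : qL vP ^ n = qL vP ^ i * qL vP ^ (n - i) := by
          rw [← pow_add, Nat.add_sub_cancel' hi'.le]
        rw [e]
        ring
    have h := congrArg Subtype.val hP
    simp only [AddMemClass.coe_add, SubmonoidClass.coe_pow, AddSubmonoidClass.coe_finsetSum,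
      MulMemClass.coe_mul, ZeroMemClass.coe_zero] at h
    refine Eq.trans ?_ h
    rw [huPc, hvPc]
    refine congrArg₂ (· + ·) rfl (Finset.sum_congr rfl fun i hi => ?_)
    simp only [cP, dif_pos (Finset.mem_range.mp hi)]
  obtain ⟨w, hwm, huw, hwroot⟩ :=
    exists_mdiff_of_root hum hvm hv0 c (fun i hi => (hcb i hi).1) hrel
  have hwinv : ∀ γ ∈ Gamma0 N, w ∣[(2 * r : ℤ)] γ = w := by
    intro γ hγ
    refine slash_eq_of_mul (l := (10 * r : ℤ)) hwm hvm hv0 huw (fun z => ?_) fun z => ?_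
    · have hD : Δ (γ • z) = denom γ z ^ (12 : ℤ) * Δ z :=
        smul_eq_denom_zpow CuspForm.discriminant γ z
      rw [show (2 * r + 10 * r : ℤ) = 12 * r by ring]
      simp only [hu, Pi.mul_apply, Pi.pow_apply, hD, mul_pow, zpow_mul, zpow_natCast]
      rw [show (uW : ℍ → ℂ) (γ • z) = (uW : ℍ → ℂ) z from congrFun (uW.2.2.1 γ hγ) z]
      ring
    · simp only [hv, Pi.mul_apply, Pi.pow_apply, E46_smul, mul_pow, zpow_mul, zpow_natCast]
      rw [show (Lvl.denG (Gamma0 N) : ℍ → ℂ) (γ • z) = (Lvl.denG (Gamma0 N) : ℍ → ℂ) z from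
        congrFun ((Lvl.denG (Gamma0 N)).2.2.1 γ hγ) z]
      ring
  have hwzero : ∀ γ : SL(2, ℤ), IsZeroAtImInfty (w ∣[(2 * r : ℤ)] γ) := by
    intro γ
    refine isZeroAtImInfty_of_root (n := n) (c := c) ?_ (fun i hi => (hc i hi).2.2)
    funext z
    have h := congrFun hwroot (γ • z)
    simp only [Pi.add_apply, Pi.pow_apply, Finset.sum_apply, Pi.mul_apply, Pi.zero_apply,
      smul_eq_of_slash (k := (2 * r : ℤ)) (f := w)] at h ⊢
    refine (mul_eq_zero.mp ?_).resolve_left
      (zpow_ne_zero ((2 * r : ℤ) * n) (denom_ne_zero γ z))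
    rw [← h, mul_add, Finset.mul_sum]
    congr 1
    · rw [mul_pow, zpow_mul, zpow_natCast]
    · refine Finset.sum_congr rfl fun i hi => ?_
      have hi' := Finset.mem_range.mp hi
      rw [hcw i hi', mul_pow, zpow_mul _ _ ((n : ℕ) : ℤ), zpow_natCast,
        zpow_mul _ _ ((n - i : ℕ) : ℤ), zpow_natCast]
      conv_lhs => rw [← Nat.sub_add_cancel hi'.le, pow_add]
      ring
  let f' : CuspForm (Gamma0 N) (2 * r) :=
    { toFun := w
      slash_action_eq' := by
        rintro _ ⟨γ, hγ, rfl⟩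
        exact hwinv γ hγ
      holo' := hwm
      zero_at_cusps' := fun hc => by
        rw [Subgroup.IsArithmetic.isCusp_iff_isCusp_SL2Z] at hc
        rw [OnePoint.isZeroAt_iff_forall_SL2Z hc]
        exact fun γ _ => hwzero γ }
  refine ⟨f', ?_⟩
  have hmul : (⟨_, (bddPer_cuspForm f').mem_perAlg⟩ : perAlg) * vP = uP :=
    Subtype.ext (by rw [MulMemClass.coe_mul, huPc, hvPc]; exact huw.symm)
  have h := congrArg qL hmul
  rw [map_mul, huv, qL_eq_qS (bddPer_cuspForm f')] at h
  refine mul_right_cancel₀ (fun h0 => hv0 ?_) h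
  rw [← hvPc]
  exact congrArg Subtype.val (qL_injective (h0.trans (map_zero qL).symm))

/-- Rational cusp forms have bounded denominators. -/
theorem bddDen_of_rational (r : ℕ) (f : CuspForm (Gamma0 N) (2 * r)) (a : LaurentSeries ℚ)
    (ha : qS ⇑f = coeffEmb ℂ a) : BddDen a := by
  classical
  obtain ⟨H, hH⟩ := exists_qS_mul_denSer r f
  set n := psiN N
  rw [ha, ← map_mul] at hH
  have hden : a * denSer N r = Lvl.biQQ (Gamma0 N) (retP H) := by
    rw [Lvl.biQQ_retP, ← hH, retL_coeffEmb]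
  -- An integral series `v ≠ 0` with `v a` integral.
  obtain ⟨M1, hM1, hm1⟩ := (bddDen_biQQ N (retP H))
  obtain ⟨M2, hM2, hm2⟩ :=
    (bddDen_biQQ N (Polynomial.derivative (Lvl.phiGQ (Gamma0 N)))).mul
      (BddDen.of_mem (pow_mem xiQ_mem r))
  set v : LaurentSeries ℚ := (M1 : LaurentSeries ℚ) * ((M2 : LaurentSeries ℚ) * denSer N r)
  have : CharZero (LaurentSeries ℚ) :=
    charZero_of_injective_algebraMap (algebraMap ℚ (LaurentSeries ℚ)).injective
  have hv0 : v ≠ 0 :=
    mul_ne_zero (Nat.cast_ne_zero.mpr hM1) (mul_ne_zero (Nat.cast_ne_zero.mpr hM2)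
      (denSer_ne_zero r))
  have hv : v ∈ intRange := mul_mem (natCast_mem _ _) hm2
  have hva : v * a ∈ intRange := by
    rw [show v * a = (M2 : LaurentSeries ℚ) * ((M1 : LaurentSeries ℚ) * (a * denSer N r)) by
      simp only [v]; ring, hden]
    exact mul_mem (natCast_mem _ _) hm1
  -- `a` is a root of a monic polynomial whose coefficients have bounded denominators.
  set d : ℕ → LaurentSeries ℚ := fun i => retL (qS (normCoeff f (n - i))) with hd
  have hdroot : a ^ n + ∑ i ∈ Finset.range n, d i * a ^ i = 0 := by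
    have h := congrArg retL (qS_root r f)
    rw [ha, map_add, map_sum, map_zero, ← map_pow (coeffEmb ℂ), retL_coeffEmb] at h
    refine Eq.trans ?_ h
    congr 1
    refine Finset.sum_congr rfl fun i _ => ?_
    rw [← map_pow (coeffEmb ℂ), retL_mul_coeffEmb]
  have hbd : ∀ i < n, BddDen (d i) := fun i hi =>
    (span_monoSet_props (mem_span_monoSet _
      (ModularFormClass.modularForm (normForm f (n - i) (by omega))))).2.2.1
  choose! M hM0 hMd using hbd
  set D : ℕ := ∏ i ∈ Finset.range n, M i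
  have hD0 : D ≠ 0 := Finset.prod_ne_zero_iff.mpr fun i hi => hM0 i (Finset.mem_range.mp hi)
  refine ⟨D, hD0, ?_⟩
  -- Then `D a` is integral over integral series and almost integral, hence integral.
  set x : LaurentSeries ℚ := (D : LaurentSeries ℚ) * a
  set e : ℕ → LaurentSeries ℚ := fun i => (D : LaurentSeries ℚ) ^ (n - i) * d i
  have he : ∀ i < n, e i ∈ intRange := by
    intro i hi
    obtain ⟨K, hK⟩ : M i ∣ D := Finset.dvd_prod_of_mem _ (Finset.mem_range.mpr hi)
    change (D : LaurentSeries ℚ) ^ (n - i) * d i ∈ intRange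
    rw [show n - i = (n - i - 1) + 1 by omega, pow_succ, mul_assoc]
    refine mul_mem (pow_mem (natCast_mem _ _) _) ?_
    rw [show ((D : ℕ) : LaurentSeries ℚ) = (K : LaurentSeries ℚ) * (M i : LaurentSeries ℚ) by
      rw [hK]; push_cast; ring, mul_assoc]
    exact mul_mem (natCast_mem _ _) (hMd i hi)
  have heroot : x ^ n + ∑ i ∈ Finset.range n, e i * x ^ i = 0 := by
    rw [← mul_zero ((D : LaurentSeries ℚ) ^ n), ← hdroot, mul_add, Finset.mul_sum, mul_pow]
    congr 1
    refine Finset.sum_congr rfl fun i hi => ?_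
    simp only [e, x, mul_pow]
    conv_rhs => rw [← Nat.sub_add_cancel (Finset.mem_range.mp hi).le, pow_add]
    ring
  exact mem_intRange_of_almostIntegral (pow_ne_zero n hv0) fun m =>
    pow_mul_pow_mem_of_root e he heroot hv (by
      rw [mul_left_comm]; exact mul_mem (natCast_mem _ _) hva) m

end Fermat.MC
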