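import Fermat.Prelude.Def_CuspForm_IntegralStructure
import Fermat.Prelude.Def_CuspForm_IntegralLattice
import Fermat.Prelude.Thm_CuspForm_intLattice_fg
import Fermat.Prelude.Thm_CuspForm_mem_intLattice_of_mem_heckeAlgebra
import Fermat.Prelude.Thm_ModularForm_sturm_bound_Gamma0
import Fermat.Agent.MC.Conjugate
import Fermat.Agent.MC.AutC

/-!
# The integral structure on cusp forms for `Γ₀(N)` and finiteness of the Hecke algebra

`span_intLattice_eq_top` (S23) and `moduleFinite_heckeAlgebra` (S22), from `Conjugate`; the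
consumers are the Hecke algebras of `GR/ES`, `GR/RT` and `HT`.
-/

set_option autoImplicit false

noncomputable section

open UpperHalfPlane hiding I
open CongruenceSubgroup ModularFormClass
open ModularCurve (coeffEmb coeffMap)
open scoped Manifold MatrixGroups

namespace Fermat.MC

variable {N : ℕ} [NeZero N] {k : ℤ}

/-- The q-series of a cusp form, as a linear map. -/
def qC (N : ℕ) [NeZero N] (k : ℤ) : CuspForm (Gamma0 N) k →ₗ[ℂ] LaurentSeries ℂ where
  toFun f := qL (⟨⇑f, (bddPer_cuspForm f).mem_perAlg⟩ : perAlg)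
  map_add' f g := by
    rw [← map_add]
    rfl
  map_smul' c f := by
    rw [RingHom.id_apply]
    refine Eq.trans (congrArg qL (show (⟨⇑(c • f), (bddPer_cuspForm (c • f)).mem_perAlg⟩ : perAlg) =
      algebraMap ℂ perAlg c * ⟨⇑f, (bddPer_cuspForm f).mem_perAlg⟩ from
        Subtype.ext (funext fun z => rfl))) ?_
    rw [map_mul, AlgHom.commutes, ModularCurve.algebraMap_laurentSeries_eq_single]
    ext n
    rw [HahnSeries.coeff_single_zero_mul, HahnSeries.coeff_smul, smul_eq_mul]

/-- The linear map gives the series. -/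
lemma qC_apply (f : CuspForm (Gamma0 N) k) : qC N k f = qS ⇑f :=
  qL_eq_qS (bddPer_cuspForm f)

/-- The `n`-th coefficient as a linear functional. -/
def cfC (N : ℕ) [NeZero N] (k : ℤ) (n : ℕ) : CuspForm (Gamma0 N) k →ₗ[ℂ] ℂ where
  toFun f := (qC N k f).coeff n
  map_add' f g := by simp
  map_smul' c f := by simp

/-- The functional gives the coefficient. -/
lemma cfC_apply (n : ℕ) (f : CuspForm (Gamma0 N) k) : cfC N k n f = qCoeff (⇑f) n := by
  change (qC N k f).coeff n = _
  rw [qC_apply, qS, HahnSeries.ofPowerSeries_apply_coeff]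
  rfl

/-- The Sturm range. -/
def sturmB (N : ℕ) (k : ℤ) : ℕ := (k * (Gamma0 N).index).toNat / 12 + 1

/-- The Sturm bound: a form with zero coefficients in the range is zero. -/
lemma eq_zero_of_cfC {f : CuspForm (Gamma0 N) k} (h : ∀ n < sturmB N k, cfC N k n f = 0) :
    f = 0 := by
  have h0 : (ModularFormClass.modularForm f : ModularForm (Gamma0 N) k) = 0 := by
    refine ModularForm.sturm_bound_Gamma0 N _ fun n hn => ?_
    have := h n (by unfold sturmB; omega)
    rw [cfC_apply] at this
    exact this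
  apply DFunLike.coe_injective
  have h1 := congrArg (fun g : ModularForm (Gamma0 N) k => (g : ℍ → ℂ)) h0
  exact h1

/-- A cusp form is determined by its `q`-coefficients. -/
theorem eq_of_qCoeff {f g : CuspForm (Gamma0 N) k} (h : ∀ n, qCoeff f n = qCoeff g n) : f = g :=
  sub_eq_zero.mp (eq_zero_of_cfC fun n _ => by rw [map_sub, cfC_apply, cfC_apply, h, sub_self])

/-- Cusp forms form a finite dimensional space. -/
theorem finiteDimensional_cuspForm : FiniteDimensional ℂ (CuspForm (Gamma0 N) k) :=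
  FiniteDimensional.of_injective (LinearMap.pi fun i : Fin (sturmB N k) => cfC N k i)
    ((injective_iff_map_eq_zero _).mpr fun _ hf =>
      eq_zero_of_cfC fun n hn => congrFun hf ⟨n, hn⟩)

/-- Indices of the nonzero coefficients in the Sturm range. -/
def suppC (f : CuspForm (Gamma0 N) k) : Finset ℕ := by
  classical
  exact (Finset.range (sturmB N k)).filter fun n => cfC N k n f ≠ 0

/-- Membership in the support. -/
lemma mem_suppC {f : CuspForm (Gamma0 N) k} {n : ℕ} :
    n ∈ suppC f ↔ n < sturmB N k ∧ cfC N k n f ≠ 0 := by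
  classical
  simp [suppC]

/-- A form with empty support is zero. -/
lemma suppC_eq_empty {f : CuspForm (Gamma0 N) k} (h : suppC f = ∅) : f = 0 :=
  eq_zero_of_cfC fun n hn => by
    by_contra hne
    exact (Finset.notMem_empty n) (h ▸ mem_suppC.mpr ⟨hn, hne⟩)

omit [NeZero N] in
/-- A series fixed by all field automorphisms of `ℂ` is rational. -/
lemma exists_coeffEmb_of_fixed {r : ℕ} (f : CuspForm (Gamma0 N) (2 * r))
    (h : ∀ σ : ℂ ≃+* ℂ, coeffMap σ.toRingHom (qS ⇑f) = qS ⇑f) :
    ∃ a : LaurentSeries ℚ, qS ⇑f = coeffEmb ℂ a := by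
  refine ⟨retL (qS ⇑f), ?_⟩
  ext m
  obtain ⟨q, hq⟩ := mem_range_rat_of_forall_ringEquiv (x := (qS ⇑f).coeff m) fun σ => by
    have := congrArg (fun x => HahnSeries.coeff x m) (h σ)
    simp only [ModularCurve.coeffMap_coeff] at this
    exact this
  rw [ModularCurve.coeffEmb_coeff, retL_coeff, ← hq, retQ_algebraMap]

/-- Cusp forms with rational q-series. -/
def ratForms (N : ℕ) (k : ℤ) : Set (CuspForm (Gamma0 N) k) :=
  {f | ∃ a : LaurentSeries ℚ, qS ⇑f = coeffEmb ℂ a}

/-- The forms with rational coefficients span all forms of even weight. -/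
theorem mem_span_ratForms (r : ℕ) (f : CuspForm (Gamma0 N) (2 * r)) :
    f ∈ Submodule.span ℂ (ratForms N (2 * r)) := by
  classical
  induction hc : (suppC f).card using Nat.strong_induction_on generalizing f with
  | _ c ih =>
  by_cases hf : suppC f = ∅
  · rw [suppC_eq_empty hf]
    exact zero_mem _
  -- nonzero forms supported inside `suppC f`, of minimal support
  have hex : ∃ d, ∃ g : CuspForm (Gamma0 N) (2 * r), g ≠ 0 ∧ suppC g ⊆ suppC f ∧
      (suppC g).card = d := by
    refine ⟨_, f, ?_, subset_rfl, rfl⟩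
    rintro rfl
    exact hf (Finset.eq_empty_of_forall_notMem fun n hn => by simpa using (mem_suppC.mp hn).2)
  obtain ⟨g, hg0, hgs, hgc⟩ := Nat.find_spec hex
  obtain ⟨n, hn⟩ : (suppC g).Nonempty :=
    Finset.nonempty_iff_ne_empty.mpr fun h => hg0 (suppC_eq_empty h)
  set w : CuspForm (Gamma0 N) (2 * r) := (cfC N (2 * r) n g)⁻¹ • g with hw
  have hwn : cfC N (2 * r) n w = 1 := by
    rw [hw, map_smul, smul_eq_mul, inv_mul_cancel₀ (mem_suppC.mp hn).2]
  have hws : ∀ m, cfC N (2 * r) m g = 0 → cfC N (2 * r) m w = 0 := fun m hm => by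
    rw [hw, map_smul, hm, smul_zero]
  -- `w` is fixed by all field automorphisms
  have hwr : w ∈ ratForms N (2 * r) := by
    refine exists_coeffEmb_of_fixed w fun σ => ?_
    obtain ⟨w', hw'⟩ := exists_conjugate r w σ.toRingHom
    have hcf : ∀ m : ℕ, cfC N (2 * r) m w' = σ (cfC N (2 * r) m w) := fun m => by
      change (qC N _ w').coeff m = σ ((qC N _ w).coeff m)
      rw [qC_apply, qC_apply, hw', ModularCurve.coeffMap_coeff]
      rfl
    suffices w' - w = 0 by rw [← hw', sub_eq_zero.mp this]
    by_contra hne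
    have hlt : (suppC (w' - w)).card < (suppC g).card := by
      refine Finset.card_lt_card (Finset.ssubset_iff_of_subset ?_ |>.mpr ⟨n, hn, ?_⟩)
      · intro m hm
        refine mem_suppC.mpr ⟨(mem_suppC.mp hm).1, fun h0 => (mem_suppC.mp hm).2 ?_⟩
        rw [map_sub, hcf, hws m h0, map_zero, sub_zero]
      · intro hm
        exact (mem_suppC.mp hm).2 (by rw [map_sub, hcf, hwn, map_one, sub_self])
    refine Nat.find_min hex (hgc ▸ hlt) ⟨w' - w, hne, ?_, rfl⟩
    intro m hm
    refine hgs (mem_suppC.mpr ⟨(mem_suppC.mp hm).1, fun h0 => (mem_suppC.mp hm).2 ?_⟩)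
    rw [map_sub, hcf, hws m h0, map_zero, sub_zero]
  -- subtract
  set f₁ := f - cfC N (2 * r) n f • w with hf₁
  have hlt : (suppC f₁).card < c := by
    rw [← hc]
    refine Finset.card_lt_card (Finset.ssubset_iff_of_subset ?_ |>.mpr ⟨n, hgs hn, ?_⟩)
    · intro m hm
      refine mem_suppC.mpr ⟨(mem_suppC.mp hm).1, fun h0 => (mem_suppC.mp hm).2 ?_⟩
      have hg : cfC N (2 * r) m g = 0 := by
        by_contra hg
        exact (mem_suppC.mp (hgs (mem_suppC.mpr ⟨(mem_suppC.mp hm).1, hg⟩))).2 h0
      rw [hf₁, map_sub, map_smul, h0, hws m hg, smul_zero, sub_zero]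
    · intro hm
      exact (mem_suppC.mp hm).2
        (by rw [hf₁, map_sub, map_smul, hwn, smul_eq_mul, mul_one, sub_self])
  have h1 := ih _ hlt f₁ rfl
  rw [show f = f₁ + cfC N (2 * r) n f • w by rw [hf₁, sub_add_cancel]]
  exact add_mem h1 (Submodule.smul_mem _ _ (Submodule.subset_span hwr))

/-- A form with rational coefficients has bounded denominators. -/
lemma exists_nat_smul_integral {r : ℕ} {f : CuspForm (Gamma0 N) (2 * r)}
    (hf : f ∈ ratForms N (2 * r)) :
    ∃ M : ℕ, M ≠ 0 ∧ ∀ n : ℕ, ∃ m : ℤ, qCoeff (⇑((M : ℂ) • f)) n = (m : ℂ) := by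
  obtain ⟨a, ha⟩ := hf
  obtain ⟨M, hM, hMa⟩ := bddDen_of_rational r f a ha
  refine ⟨M, hM, fun n => ?_⟩
  obtain ⟨m, hm⟩ := mem_intRange.mp hMa n
  refine ⟨m, ?_⟩
  rw [← cfC_apply, map_smul]
  change (M : ℂ) * (qC N _ f).coeff n = _
  rw [qC_apply, ha, ModularCurve.coeffEmb_coeff]
  rw [show ((M : LaurentSeries ℚ) * a).coeff (n : ℤ) = (M : ℚ) * a.coeff (n : ℤ) by
    rw [← map_natCast (HahnSeries.C : ℚ →+* LaurentSeries ℚ), HahnSeries.C_mul_eq_smul]
    simp] at hm
  rw [← map_natCast (algebraMap ℚ ℂ) M, ← map_mul, hm, map_intCast]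

/-- There are no cusp forms of weight at most zero. -/
lemma eq_zero_of_nonpos (hk : k ≤ 0) (f : CuspForm (Gamma0 N) k) : f = 0 := by
  refine eq_zero_of_cfC fun n hn => ?_
  have h0 : (k * (Gamma0 N).index).toNat = 0 :=
    Int.toNat_of_nonpos (mul_nonpos_of_nonpos_of_nonneg hk (Int.natCast_nonneg _))
  obtain rfl : n = 0 := by simp [sturmB, h0] at hn; omega
  rw [cfC_apply]
  exact CuspFormClass.qExpansion_coeff_zero f one_pos
    (CongruenceSubgroup.one_mem_strictPeriods_Gamma0 N)

omit [NeZero N] in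
/-- There are no cusp forms of odd weight. -/
lemma eq_zero_of_odd (hk : Odd k) (f : CuspForm (Gamma0 N) k) : f = 0 := by
  apply DFunLike.coe_injective
  funext z
  have hmem : (-1 : SL(2, ℤ)) ∈ Gamma0 N := by simp [CongruenceSubgroup.Gamma0_mem]
  have h := congrFun (slash_Gamma0_eq f hmem) z
  rw [ModularForm.SL_slash_apply, ModularGroup.SL_neg_smul, one_smul] at h
  have hd : denom (-1 : SL(2, ℤ)) z = -1 := by simp [UpperHalfPlane.denom]
  rw [hd, zpow_neg, hk.neg_one_zpow] at h
  have : f z = 0 := by linear_combination -(1 / 2 : ℂ) * h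
  simpa using this

/-- Cusp forms have an integral structure. -/
theorem span_intLattice_eq_top (N : ℕ) [NeZero N] (k : ℤ) :
    CuspForm.HasIntegralStructure N k := by
  unfold CuspForm.HasIntegralStructure
  rw [eq_top_iff]
  intro f _
  by_cases h0 : k ≤ 0
  · rw [eq_zero_of_nonpos h0 f]; exact zero_mem _
  rcases Int.even_or_odd k with ⟨r, hr⟩ | hodd
  · lift r to ℕ using (by omega) with r
    obtain rfl : k = 2 * r := by omega
    refine Submodule.span_le.mpr ?_ (mem_span_ratForms r f)
    intro g hg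
    obtain ⟨M, hM, hMg⟩ := exists_nat_smul_integral hg
    have : g = (M : ℂ)⁻¹ • ((M : ℂ) • g) := by
      rw [smul_smul, inv_mul_cancel₀ (Nat.cast_ne_zero.mpr hM), one_smul]
    rw [SetLike.mem_coe, this]
    exact Submodule.smul_mem _ _ (Submodule.subset_span
      (Submodule.subset_span (R := ℤ) hMg))
  · rw [eq_zero_of_odd hodd f]; exact zero_mem _

/-- In weight two the forms with integral coefficients span. -/
theorem hasIntegralBasis (N : ℕ) [NeZero N] : CuspForm.HasIntegralBasis N := by
  have h := span_intLattice_eq_top N 2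
  unfold CuspForm.HasIntegralStructure at h
  unfold CuspForm.HasIntegralBasis
  rw [eq_top_iff, ← h, Submodule.span_le]
  intro f hf
  refine Submodule.span_induction ?_ (zero_mem _) (fun x y _ _ hx hy => add_mem hx hy)
    (fun c x _ hx => ?_) hf
  · intro g hg
    exact Submodule.subset_span fun n => by
      obtain ⟨m, hm⟩ := hg n
      exact Subring.mem_bot.mpr ⟨m, hm.symm⟩
  · rw [← Int.cast_smul_eq_zsmul ℂ]
    exact Submodule.smul_mem _ _ hx

variable (S : Set ℕ)

/-- The action of a Hecke operator on the integral lattice. -/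
def actLattice (hk : 1 ≤ k) :
    CuspForm.heckeAlgebra N k S →ₗ[ℤ]
      (CuspForm.intLattice N k →ₗ[ℤ] CuspForm.intLattice N k) where
  toFun t := ((t.1.restrictScalars ℤ)).restrict fun _ hf =>
    CuspForm.mem_intLattice_of_mem_heckeAlgebra hk t.2 hf
  map_add' a b := LinearMap.ext fun x => Subtype.ext rfl
  map_smul' c a := LinearMap.ext fun x => Subtype.ext (by
    simp)

/-- The Hecke algebra is finite over `ℤ`. -/
theorem moduleFinite_heckeAlgebra (N : ℕ) [NeZero N] (k : ℤ) (S : Set ℕ) :
    Module.Finite ℤ (CuspForm.heckeAlgebra N k S) := by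
  by_cases hk : 1 ≤ k
  · have : Module.Finite ℤ (CuspForm.intLattice N k) :=
      Module.Finite.iff_fg.mpr (CuspForm.intLattice_fg N k)
    have : Module.IsTorsionFree ℤ (CuspForm (Gamma0 N) k) :=
      Module.IsTorsionFree.trans_faithfulSMul ℤ ℂ _
    have : Module.Free ℤ (CuspForm.intLattice N k) :=
      Module.free_of_finite_type_torsion_free'
    refine Module.Finite.of_injective (actLattice S hk) fun a b hab => Subtype.ext ?_
    refine LinearMap.ext_on (span_intLattice_eq_top N k) fun x hx => ?_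
    exact congrArg Subtype.val (LinearMap.congr_fun hab ⟨x, hx⟩)
  · have : Subsingleton (CuspForm (Gamma0 N) k) :=
      ⟨fun f g => (eq_zero_of_nonpos (by omega) f).trans (eq_zero_of_nonpos (by omega) g).symm⟩
    have : Subsingleton (CuspForm.heckeAlgebra N k S) :=
      ⟨fun a b => Subtype.ext (LinearMap.ext fun x => Subsingleton.elim _ _)⟩
    exact Module.Finite.of_finite

end Fermat.MC
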