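import Fermat.Prelude.Def_ModularCurve_X0
import Mathlib.RingTheory.LaurentSeries
import Mathlib.FieldTheory.IsAlgClosed.AlgebraicClosure
import Mathlib.FieldTheory.PrimitiveElement
import Fermat.Agent.FF.Genus

/-!
# Places above a value from a complete family of Laurent expansions

Given all embeddings of a function field `F` over `K(x)` into a field of Laurent series in
which `x` becomes a series of positive order, every zero of `x` is the pullback of the order
valuation along one of them; with divisibility information on the orders this determines all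
the ramification indices.
-/

set_option autoImplicit false

noncomputable section

open AlgebraicCurve IntermediateField Polynomial Function
open Fermat.FF

namespace Fermat.MC

variable {C : Type*} [Field C]

/-- The power series inside the Laurent series. -/
def regSub (C : Type*) [Field C] : Subring (LaurentSeries C) :=
  (HahnSeries.ofPowerSeries ℤ C).range

/-- The power series are the series of nonnegative order. -/
lemma mem_regSub {x : LaurentSeries C} : x ∈ regSub C ↔ x = 0 ∨ 0 ≤ x.order := by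
  constructor
  · rintro ⟨f, rfl⟩
    rw [or_iff_not_imp_left]
    intro h0
    by_contra hlt
    exact HahnSeries.coeff_order_eq_zero.not.mpr h0
      (ModularCurve.ofPowerSeries_coeff_of_neg f (not_le.mp hlt))
  · rintro (rfl | h)
    · exact zero_mem _
    · obtain ⟨n, hn⟩ := Int.eq_ofNat_of_zero_le h
      exact ⟨PowerSeries.X ^ n * x.powerSeriesPart, by
        rw [map_mul, HahnSeries.ofPowerSeries_X_pow,
          LaurentSeries.ofPowerSeries_powerSeriesPart, hn, ← mul_assoc,
          HahnSeries.single_mul_single, one_mul, add_neg_cancel,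
          HahnSeries.single_zero_one, one_mul]⟩

variable {K F : Type*} [Field K] [Field F] [Algebra K F]

/-- The order of the expansion of `h`. -/
def ordT (τ : F →+* LaurentSeries C) (h : F) : ℤ := (τ h).order

section OrdT

variable (τ : F →+* LaurentSeries C)

/-- The order along an expansion is additive. -/
lemma ordT_mul {a b : F} (ha : a ≠ 0) (hb : b ≠ 0) : ordT τ (a * b) = ordT τ a + ordT τ b := by
  rw [ordT, map_mul, HahnSeries.order_mul ((map_ne_zero τ).mpr ha) ((map_ne_zero τ).mpr hb)]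
  rfl

/-- The order of `1` is zero. -/
lemma ordT_one : ordT τ 1 = 0 := by rw [ordT, map_one, HahnSeries.order_one]

/-- The order of an inverse. -/
lemma ordT_inv (a : F) : ordT τ a⁻¹ = -ordT τ a := by
  rcases eq_or_ne a 0 with rfl | ha
  · simp [ordT]
  · have h := ordT_mul τ ha (inv_ne_zero ha)
    rw [mul_inv_cancel₀ ha, ordT_one] at h
    omega

/-- The order of a power. -/
lemma ordT_pow {a : F} (ha : a ≠ 0) (n : ℕ) : ordT τ (a ^ n) = n * ordT τ a := by
  induction n with
  | zero => simp [ordT_one]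
  | succ n ih => rw [pow_succ, ordT_mul τ (pow_ne_zero n ha) ha, ih]; push_cast; ring

/-- Regularity along an expansion in terms of orders. -/
lemma mem_comap_regSub {h : F} :
    h ∈ (regSub C).comap τ ↔ h = 0 ∨ 0 ≤ ordT τ h := by
  rw [Subring.mem_comap, mem_regSub, map_eq_zero_iff τ τ.injective, ordT]

/-- The valuation subring pulled back along an expansion. -/
def pbSubring : ValuationSubring F where
  toSubring := (regSub C).comap τ
  mem_or_inv_mem' h := by
    simp only [Subring.mem_carrier, mem_comap_regSub, ordT_inv,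
      inv_eq_zero]
    omega

/-- Membership in the pulled back valuation ring. -/
lemma mem_pbSubring {h : F} : h ∈ pbSubring τ ↔ h = 0 ∨ 0 ≤ ordT τ h :=
  mem_comap_regSub τ

variable [IsAlgClosed K] [IsFunctionField K F]

/-- The order of an expansion is a positive multiple of the order at a place. -/
theorem exists_pullback {x : F} (hc : ∀ c : K, c ≠ 0 → ordT τ (algebraMap K F c) = 0)
    (hx : 0 < ordT τ x) :
    ∃ P : Place K F, 0 < P.ord x ∧ ∃ m : ℤ, 0 < m ∧
      ∀ h : F, h ≠ 0 → ordT τ h = m * P.ord h := by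
  have hx0 : x ≠ 0 := fun h => by simp [h, ordT] at hx
  have hK : ∀ c : K, algebraMap K F c ∈ pbSubring τ := fun c => by
    rw [mem_pbSubring]
    rcases eq_or_ne c 0 with rfl | h
    · exact Or.inl (map_zero _)
    · exact Or.inr (hc c h).ge
  have htop : pbSubring τ ≠ ⊤ := fun htop => by
    have h : x⁻¹ ∈ pbSubring τ := htop ▸ ValuationSubring.mem_top _
    rw [mem_pbSubring, ordT_inv] at h
    rcases h with h | h
    · exact inv_ne_zero hx0 h
    · omega
  -- The subring of nonnegative order is the ring of a place `P`.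
  set P := placeOfValuationSubring hK htop
  have hiff : ∀ h : F, h ≠ 0 → (0 ≤ P.ord h ↔ 0 ≤ ordT τ h) := fun h h0 => by
    have h1 := mem_iff P (f := h)
    rw [placeOfValuationSubring_toValuationSubring, mem_pbSubring] at h1
    simpa [h0] using h1.symm
  have hzero : ∀ h : F, h ≠ 0 → P.ord h = 0 → ordT τ h = 0 := fun h h0 he => by
    have h1 := (hiff h h0).mp he.ge
    have h2 := (hiff h⁻¹ (inv_ne_zero h0)).mp (by rw [P.ord_inv]; omega)
    rw [ordT_inv] at h2
    omega
  -- The multiple is the order of a uniformiser of `P`.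
  obtain ⟨t, ht0, ht⟩ := exists_ord_eq_one P
  have hnat : ∀ h : F, h ≠ 0 → 0 ≤ P.ord h → ordT τ h = ordT τ t * P.ord h := fun h h0 hh => by
    obtain ⟨a, ha⟩ := Int.eq_ofNat_of_zero_le hh
    have hta : (t ^ a)⁻¹ ≠ 0 := inv_ne_zero (pow_ne_zero a ht0)
    have h1 := hzero (h * (t ^ a)⁻¹) (mul_ne_zero h0 hta)
      (by rw [P.ord_mul h0 hta, P.ord_inv, ord_pow, ht, ha]; ring)
    rw [ordT_mul τ h0 hta, ordT_inv, ordT_pow τ ht0] at h1
    rw [ha, mul_comm]
    linarith
  have hmpos : 0 < ordT τ t := by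
    have h1 := (hiff t ht0).mp (by omega)
    by_contra hm
    have h2 := (hiff t⁻¹ (inv_ne_zero ht0)).mpr (by rw [ordT_inv]; omega)
    rw [P.ord_inv] at h2
    omega
  have hall : ∀ h : F, h ≠ 0 → ordT τ h = ordT τ t * P.ord h := fun h h0 => by
    rcases le_or_gt 0 (P.ord h) with hh | hh
    · exact hnat h h0 hh
    · have h1 := hnat h⁻¹ (inv_ne_zero h0) (by rw [P.ord_inv]; omega)
      rw [ordT_inv, P.ord_inv] at h1
      linarith
  refine ⟨P, ?_, _, hmpos, hall⟩
  rw [hall x hx0] at hx
  exact (pos_iff_pos_of_mul_pos hx).mp hmpos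

end OrdT

section Family

variable [IsAlgClosed K] [IsFunctionField K F] [CharZero K]

omit [IsAlgClosed K] [IsFunctionField K F] [CharZero K] in
/-- Expansions agreeing on constants and `x` agree on `K(x)`. -/
lemma eq_on_adjoin {x : F} {σ σ' : F →+* LaurentSeries C}
    (hc : ∀ c : K, σ (algebraMap K F c) = σ' (algebraMap K F c)) (hx : σ x = σ' x)
    (a : K⟮x⟯) : σ a = σ' a := by
  obtain ⟨r, s, hrs⟩ := (mem_adjoin_simple_iff K _).mp a.2
  have key : ∀ p : K[X], σ (aeval x p) = σ' (aeval x p) := fun p => by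
    rw [aeval_def, hom_eval₂, hom_eval₂, hx,
      show σ.comp (algebraMap K F) = σ'.comp (algebraMap K F) from RingHom.ext hc]
  rw [hrs, map_div₀, map_div₀, key, key]

variable {Q : Type*} [Fintype Q] {τ : Q → F →+* LaurentSeries C} {x : F}
  (hc : ∀ q (c : K), c ≠ 0 → ordT (τ q) (algebraMap K F c) = 0)
  (hK : ∀ q q' (c : K), τ q (algebraMap K F c) = τ q' (algebraMap K F c))
  (hX : ∀ q q', τ q x = τ q' x)
  {n : ℤ} (hn0 : 0 < n) (hn : ∀ q, ordT (τ q) x = n)
  (hinj : ∃ y : F, Injective fun q => τ q y)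
  (hcard : Fintype.card Q = Module.finrank K⟮x⟯ F)

omit [IsFunctionField K F] [CharZero K] [Fintype Q] in
include hc hn0 hn in
/-- A function of positive order is transcendental. -/
lemma transcendental_of_ordT (q : Q) : Transcendental K x := by
  refine transcendental_of_not_mem fun ⟨c, hcx⟩ => ?_
  have h := hn q
  rw [← hcx] at h
  rcases eq_or_ne c 0 with rfl | hc0
  · simp [ordT] at h; omega
  · rw [hc q c hc0] at h; omega

omit [CharZero K] [Fintype Q] in
include hc hn0 hn in
/-- The place pulled back along the expansion `q`. -/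
lemma exists_pullback_family (q : Q) :
    ∃ P : Place K F, 0 < P.ord x ∧ ∃ m : ℤ, 0 < m ∧
      ∀ h : F, h ≠ 0 → ordT (τ q) h = m * P.ord h :=
  exists_pullback (τ q) (hc q) (by rw [hn q]; exact hn0)

omit [IsFunctionField K F] [CharZero K] [IsAlgClosed K] in
/-- An element of `K(x)` regular at one zero of `x` is regular at every zero of `x`. -/
lemma ordGE_zero_of_mem_adjoin {P P' : Place K F} (hP : 0 < P.ord x) (hP' : 0 < P'.ord x)
    {c : F} (hc : c ∈ K⟮x⟯) (h : c = 0 ∨ 0 ≤ P'.ord c) : OrdGE P c 0 := by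
  rcases eq_or_ne c 0 with hc0 | hc0
  · rw [hc0]; exact ordGE_zero P 0
  refine ordGE_iff.mpr (Or.inr ?_)
  obtain ⟨r, u, hru⟩ := (mem_adjoin_simple_iff K _).mp hc
  have hr0 : aeval x r ≠ 0 := fun h0 => hc0 (by rw [hru, h0, zero_div])
  have hu0 : aeval x u ≠ 0 := fun h0 => hc0 (by rw [hru, h0, div_zero])
  have hr : r ≠ 0 := fun h0 => hr0 (by rw [h0, map_zero])
  have hu : u ≠ 0 := fun h0 => hu0 (by rw [h0, map_zero])
  have h' := h.resolve_left hc0
  rw [hru, ord_div _ hr0 hu0, ord_aeval hP' hr, ord_aeval hP' hu, ← sub_mul] at h'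
  rw [hru, ord_div _ hr0 hu0, ord_aeval hP hr, ord_aeval hP hu, ← sub_mul]
  exact mul_nonneg (nonneg_of_mul_nonneg_left h' hP') hP.le

include hc hK hX hn0 hn hinj hcard in
/-- Every zero of `x` is a pullback. -/
theorem exists_eq_pullback (P : Place K F) (hP : 0 < P.ord x) :
    ∃ (q : Q) (m : ℤ), 0 < m ∧ ∀ h : F, h ≠ 0 → ordT (τ q) h = m * P.ord h := by
  classical
  choose Φ hΦ m hm0 hm using exists_pullback_family hc hn0 hn
  by_contra hne
  push Not at hne
  have hS : P ∉ Finset.univ.image Φ := by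
    simp only [Finset.mem_image, Finset.mem_univ, true_and, not_exists]
    intro q hq
    obtain ⟨h, h0, h1⟩ := hne q (m q) (hm0 q)
    exact h1 (hq ▸ hm q h h0)
  obtain ⟨z, hz0, hzP, hzS⟩ := exists_pos_forall_neg P (Finset.univ.image Φ) hS
  have hqr : ∀ q, τ q z⁻¹ ∈ regSub C := fun q => by
    rw [mem_regSub]
    refine Or.inr ?_
    change 0 ≤ ordT (τ q) z⁻¹
    rw [hm q _ (inv_ne_zero hz0), Place.ord_inv]
    have := hzS (Φ q) (Finset.mem_image_of_mem Φ (Finset.mem_univ q))
    exact mul_nonneg (hm0 q).le (by omega)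
  set h := z⁻¹ with hh
  have hh0 : h ≠ 0 := inv_ne_zero hz0
  have hhP : P.ord h < 0 := by rw [hh, P.ord_inv]; omega
  -- the embeddings
  have hQ : Nonempty Q := by
    refine Fintype.card_pos_iff.mp ?_
    have hx : Transcendental K x := transcendental_of_ord_ne_zero (v := P) hP.ne'
    have := finiteDimensional_adjoin hx
    rw [hcard]
    exact Module.finrank_pos
  obtain ⟨q₀⟩ := hQ
  have hx : Transcendental K x := transcendental_of_ordT hc hn0 hn q₀
  have := finiteDimensional_adjoin hx
  have := separable_of_charZero hx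
  let : Algebra K⟮x⟯ (LaurentSeries C) :=
    ((τ q₀).comp (algebraMap K⟮x⟯ F)).toAlgebra
  let f : Q → F →ₐ[K⟮x⟯] LaurentSeries C := fun q =>
    { τ q with commutes' := fun a => eq_on_adjoin (hK q q₀) (hX q q₀) a }
  let Ω := AlgebraicClosure (LaurentSeries C)
  let g : Q → F →ₐ[K⟮x⟯] Ω := fun q => (IsScalarTower.toAlgHom K⟮x⟯ _ Ω).comp (f q)
  have hg : Injective g := by
    obtain ⟨y, hy⟩ := hinj
    intro q q' hqq
    apply hy
    exact (algebraMap (LaurentSeries C) Ω).injective (DFunLike.congr_fun hqq y)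
  have hgb : Bijective g := (Fintype.bijective_iff_injective_and_card g).mpr
    ⟨hg, by rw [hcard, AlgHom.card]⟩
  set p := minpoly K⟮x⟯ h with hp
  have hint : IsIntegral K⟮x⟯ h := IsIntegral.of_finite _ _
  let ψ : PowerSeries C →+* Ω :=
    (algebraMap (LaurentSeries C) Ω).comp (HahnSeries.ofPowerSeries ℤ C)
  have hlift : p.map (algebraMap K⟮x⟯ Ω) ∈ lifts ψ := by
    rw [(IsAlgClosed.splits (p.map (algebraMap K⟮x⟯ Ω))).eq_prod_roots_of_monic
      ((minpoly.monic hint).map _)]
    refine multiset_prod_mem _ fun r hr => ?_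
    obtain ⟨a, ha, rfl⟩ := Multiset.mem_map.mp hr
    have hroot : a ∈ p.rootSet Ω := by
      rw [rootSet_def, Finset.mem_coe, Multiset.mem_toFinset]
      exact ha
    rw [hp, ← Algebra.IsAlgebraic.range_eval_eq_rootSet_minpoly (F := K⟮x⟯) (K := F) Ω h] at hroot
    obtain ⟨φ, rfl⟩ := hroot
    obtain ⟨q, rfl⟩ := hgb.2 φ
    obtain ⟨s, hs⟩ := hqr q
    refine ⟨X - Polynomial.C s, ?_⟩
    rw [Polynomial.coe_mapRingHom, Polynomial.map_sub, map_X, map_C]
    congr 2
    exact congrArg (algebraMap (LaurentSeries C) Ω) hs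
  have hcoeff : ∀ i, OrdGE P ((p.coeff i : K⟮x⟯) : F) 0 := fun i => by
    obtain ⟨s, hs⟩ := (lifts_iff_coeff_lifts _).mp hlift i
    rw [coeff_map, IsScalarTower.algebraMap_apply K⟮x⟯ (LaurentSeries C) Ω] at hs
    have hreg : τ q₀ (p.coeff i : F) ∈ regSub C :=
      ⟨s, (algebraMap (LaurentSeries C) Ω).injective hs⟩
    refine ordGE_zero_of_mem_adjoin hP (hΦ q₀) (p.coeff i).2 ?_
    rcases eq_or_ne ((p.coeff i : K⟮x⟯) : F) 0 with hc0 | hc0
    · exact Or.inl hc0
    refine Or.inr (nonneg_of_mul_nonneg_right ?_ (hm0 q₀))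
    rw [← hm q₀ _ hc0]
    exact (mem_regSub.mp hreg).resolve_left ((map_ne_zero (τ q₀)).mpr hc0)
  have hsum : h ^ p.natDegree =
      -∑ i ∈ Finset.range p.natDegree, ((p.coeff i : K⟮x⟯) : F) * h ^ i := by
    have h1 := minpoly.aeval K⟮x⟯ h
    rw [(minpoly.monic hint).as_sum, map_add, map_pow, aeval_X, map_sum] at h1
    rw [eq_neg_iff_add_eq_zero]
    refine Eq.trans ?_ h1
    congr 1
    refine Finset.sum_congr rfl fun i _ => ?_
    rw [map_mul, map_pow, aeval_X, aeval_C]
    rfl
  have hge : OrdGE P (h ^ p.natDegree) (((p.natDegree : ℤ) - 1) * P.ord h) := by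
    rw [hsum]
    refine OrdGE.neg (OrdGE.sum fun i hi => ?_)
    refine ((hcoeff i).mul ((ordGE_ord P h).pow i)).mono ?_
    have : (i : ℤ) ≤ (p.natDegree : ℤ) - 1 := by have := Finset.mem_range.mp hi; omega
    nlinarith
  have := hge.le_ord (pow_ne_zero _ hh0)
  rw [ord_pow] at this
  nlinarith

include hc hK hX hn0 hn hinj hcard in
/-- The ramification above the value: one place for each class of expansions. -/
theorem card_zeros {O : Type*} [DecidableEq O] (π : Q → O)
    (hπ : ∀ q q', π q = π q' → ∀ h : F, h ≠ 0 → ordT (τ q) h = ordT (τ q') h)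
    (hdiv : ∀ q (h : F), h ≠ 0 →
      n ∣ (Nat.card {q' // π q' = π q} : ℤ) * ordT (τ q) h) :
    ∃ T : Finset (Place K F), (∀ P, P ∈ T ↔ 0 < P.ord x) ∧
      T.card = (Finset.univ.image π).card ∧ ∑ P ∈ T, P.ord x = Fintype.card Q := by
  classical
  choose Φ hΦ m hm0 hm using exists_pullback_family hc hn0 hn
  have huniq : ∀ q (P : Place K F) (m' : ℤ), 0 < m' →
      (∀ h : F, h ≠ 0 → ordT (τ q) h = m' * P.ord h) → Φ q = P := fun q P m' hm' h' => by
    refine place_eq_of_le fun f hf => ?_
    rw [mem_iff] at hf ⊢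
    refine hf.imp_right fun h1 => ?_
    rcases eq_or_ne f 0 with rfl | hf0
    · simp
    have h2 : 0 ≤ m' * P.ord f := by rw [← h' f hf0, hm q f hf0]; exact mul_nonneg (hm0 q).le h1
    exact nonneg_of_mul_nonneg_right h2 hm'
  set T := Finset.univ.image Φ with hT
  have hTiff : ∀ P, P ∈ T ↔ 0 < P.ord x := fun P => by
    refine ⟨fun hP => ?_, fun hP => ?_⟩
    · obtain ⟨q, -, rfl⟩ := Finset.mem_image.mp hP; exact hΦ q
    · obtain ⟨q, m', hm', h'⟩ := exists_eq_pullback hc hK hX hn0 hn hinj hcard P hP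
      exact Finset.mem_image.mpr ⟨q, Finset.mem_univ q, huniq q P m' hm' h'⟩
  have hfib : ∀ q q', π q = π q' → Φ q = Φ q' := fun q q' hqq =>
    huniq q (Φ q') (m q') (hm0 q') fun h h0 => by rw [hπ q q' hqq h h0, hm q' h h0]
  have hle : ∀ q, (Φ q).ord x ≤ (Finset.univ.filter fun q' => π q' = π q).card := fun q => by
    have hx0 : x ≠ 0 := fun h => by simpa [h] using hΦ q
    have he := hm q x hx0
    rw [hn q] at he
    obtain ⟨t, ht0, ht⟩ := exists_ord_eq_one (Φ q)
    have hd := hdiv q t ht0
    rw [hm q t ht0, ht, mul_one, he, mul_comm (m q), Nat.card_eq_fintype_card,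
      Fintype.card_subtype] at hd
    have hd' := Int.dvd_of_mul_dvd_mul_right (hm0 q).ne' hd
    refine Int.le_of_dvd ?_ hd'
    have : 0 < (Finset.univ.filter fun q' => π q' = π q).card :=
      Finset.card_pos.mpr ⟨q, by simp⟩
    exact_mod_cast this
  have hx : ∀ q : Q, Transcendental K x := fun q => transcendental_of_ordT hc hn0 hn q
  -- the degree
  have hdeg : ∑ P ∈ T, P.ord x = Fintype.card Q := by
    rcases isEmpty_or_nonempty Q with hQ | hQ
    · simp [hT, Finset.univ_eq_empty]
    obtain ⟨q⟩ := hQ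
    have h := degree_zeroDiv (hx q)
    rw [degree_eq_sum, Finsupp.sum, ← hcard] at h
    rw [← h]
    refine (Finset.sum_congr ?_ fun P hP => ?_).trans rfl
    · ext P
      rw [hTiff, Finsupp.mem_support_iff, zeroDiv_apply]
      omega
    · rw [Finsupp.mem_support_iff, zeroDiv_apply] at hP
      rw [zeroDiv_apply]
      omega
  refine ⟨T, hTiff, ?_, hdeg⟩
  -- each place comes from one class
  have hsum : ∑ P ∈ T, ((Finset.univ.filter fun q' => Φ q' = P).card : ℤ) = Fintype.card Q := by
    rw [← Nat.cast_sum, hT, ← Finset.card_eq_sum_card_image Φ, Finset.card_univ]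
  have hsub : ∀ q, (Finset.univ.filter fun q' => π q' = π q) ⊆
      Finset.univ.filter fun q' => Φ q' = Φ q := fun q q' h => by
    simp only [Finset.mem_filter, Finset.mem_univ, true_and] at h ⊢
    exact hfib q' q h
  have hPle : ∀ P ∈ T, P.ord x ≤ (Finset.univ.filter fun q' => Φ q' = P).card := fun P hP => by
    obtain ⟨q, -, rfl⟩ := Finset.mem_image.mp hP
    exact (hle q).trans (by exact_mod_cast Finset.card_le_card (hsub q))
  have heq := (Finset.sum_eq_sum_iff_of_le hPle).mp (hdeg.trans hsum.symm)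
  have hπΦ : ∀ q q', Φ q = Φ q' → π q = π q' := fun q q' hqq => by
    have h1 := heq (Φ q') (Finset.mem_image_of_mem Φ (Finset.mem_univ q'))
    have h2 := hle q'
    rw [h1] at h2
    have h3 := Finset.eq_of_subset_of_card_le (hsub q') (by exact_mod_cast h2)
    have hmem : q ∈ Finset.univ.filter fun r => π r = π q' := by rw [h3]; simp [hqq]
    simpa using hmem
  refine Finset.card_bij (fun P hP => π ((Finset.mem_image.mp hP).choose)) ?_ ?_ ?_
  · intro P hP; exact Finset.mem_image_of_mem π (Finset.mem_univ _)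
  · intro P hP P' hP' h
    rw [← (Finset.mem_image.mp hP).choose_spec.2, ← (Finset.mem_image.mp hP').choose_spec.2]
    exact hfib _ _ h
  · intro o ho
    obtain ⟨q, -, rfl⟩ := Finset.mem_image.mp ho
    refine ⟨Φ q, Finset.mem_image_of_mem Φ (Finset.mem_univ q), ?_⟩
    exact hπΦ _ _ (Finset.mem_image.mp
      (Finset.mem_image_of_mem Φ (Finset.mem_univ q))).choose_spec.2

end Family

end Fermat.MC
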