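import Fermat.Agent.MC.Gamma0

/-!
# Level one: `W 1 = ℂ[j]`, and modular forms as polynomials in `E₄, E₆`

`exists_poly_of_mem_W_one` and `mem_span_monoSet`; `Interp` uses the first to descend to `ℂ[j]`,
`Weight` the second for the rationality of level one forms.
-/

set_option autoImplicit false

noncomputable section

open Filter Topology Function Asymptotics
open UpperHalfPlane hiding I
open ModularForm (E₄ E₆)
open scoped Manifold MatrixGroups Polynomial ModularForm

local notation "Δ" => ModularForm.discriminant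

namespace Fermat.MC

/-- The transformation law of a level one form. -/
lemma smul_eq_denom_zpow {k : ℤ} {F : Type*} [FunLike F ℍ ℂ] [SlashInvariantFormClass F 𝒮ℒ k]
    (f : F) (γ : SL(2, ℤ)) (z : ℍ) : f (γ • z) = denom γ z ^ k * f z :=
  SlashInvariantForm.slash_action_eqn'' f (MonoidHom.mem_range.mpr ⟨γ, rfl⟩) z

/-- The Möbius formula for `SL(2, ℤ)`. -/
theorem coe_sl_smul (γ : SL(2, ℤ)) (z : ℍ) :
    ((γ • z : ℍ) : ℂ) = ((γ 0 0 : ℂ) * z + γ 0 1) / ((γ 1 0 : ℂ) * z + γ 1 1) := by
  rw [coe_specialLinearGroup_apply]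
  simp

/-- Slash invariance as a transformation law. -/
lemma slash_eq_iff_smul {k : ℤ} {f : ℍ → ℂ} {γ : SL(2, ℤ)} :
    f ∣[k] γ = f ↔ ∀ z, f (γ • z) = denom γ z ^ k * f z := by
  rw [funext_iff]
  refine forall_congr' fun z => ?_
  rw [ModularForm.SL_slash_apply, zpow_neg, ← div_eq_mul_inv,
    div_eq_iff (zpow_ne_zero _ (denom_ne_zero γ z)), mul_comm]

/-- A level one modular form from its basic properties. -/
def levelOneForm (k : ℤ) (f : ℍ → ℂ) (h1 : MDiff f)
    (h2 : ∀ (γ : SL(2, ℤ)) z, f (γ • z) = denom γ z ^ k * f z) (h3 : IsBoundedAtImInfty f) :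
    ModularForm 𝒮ℒ k where
  toFun := f
  slash_action_eq' := by
    rintro _ ⟨γ, rfl⟩
    exact slash_eq_iff_smul.mpr (h2 γ)
  holo' := h1
  bdd_at_cusps' hc := by
    rw [OnePoint.isBoundedAt_iff_forall_SL2Z hc]
    intro γ _
    rw [slash_eq_iff_smul.mpr (h2 γ)]
    exact h3

/-- A level one cusp form from its basic properties. -/
def levelOneCuspForm (k : ℤ) (f : ℍ → ℂ) (h1 : MDiff f)
    (h2 : ∀ (γ : SL(2, ℤ)) z, f (γ • z) = denom γ z ^ k * f z) (h3 : IsZeroAtImInfty f) :
    CuspForm 𝒮ℒ k where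
  toFun := f
  slash_action_eq' := by
    rintro _ ⟨γ, rfl⟩
    exact slash_eq_iff_smul.mpr (h2 γ)
  holo' := h1
  zero_at_cusps' hc := by
    rw [OnePoint.isZeroAt_iff_forall_SL2Z hc]
    intro γ _
    rw [slash_eq_iff_smul.mpr (h2 γ)]
    exact h3

/-- The form is the given function. -/
@[simp] lemma coe_levelOneForm (k : ℤ) (f : ℍ → ℂ) (h1 h2 h3) :
    ⇑(levelOneForm k f h1 h2 h3) = f := rfl

/-- The cusp form is the given function. -/
@[simp] lemma coe_levelOneCuspForm (k : ℤ) (f : ℍ → ℂ) (h1 h2 h3) :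
    ⇑(levelOneCuspForm k f h1 h2 h3) = f := rfl

/-- Weakly holomorphic level one modular functions are polynomials in `j`. -/
theorem exists_poly_of_invariant {f : ℍ → ℂ} (hf : MDiff f)
    (hinv : ∀ (γ : SL(2, ℤ)) z, f (γ • z) = f z) :
    ∀ M : ℕ, IsBoundedAtImInfty (f * Δ ^ M) →
      ∃ p : ℂ[X], p.natDegree ≤ M ∧ f = Polynomial.aeval jA p := by
  intro M
  induction M generalizing f with
  | zero =>
    intro h
    rw [pow_zero, mul_one] at h
    obtain ⟨c, hc⟩ := ModularFormClass.levelOne_weight_zero_const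
      (levelOneForm 0 f hf (fun γ z => by rw [zpow_zero, one_mul]; exact hinv γ z) h)
    refine ⟨Polynomial.C c, by simp, ?_⟩
    rw [Polynomial.aeval_C]
    exact hc
  | succ M ih =>
    intro h
    -- Subtract the multiple of `j ^ (M + 1)` with the same value at infinity and induct.
    set g := f * Δ ^ (M + 1) with hg
    set c := valueAtInfty g with hc
    set f' := f - c • jA ^ (M + 1) with hf'
    have hf'm : MDiff f' := hf.sub ((mdiff_jA.pow (M + 1)).const_smul c)
    have hf'inv : ∀ (γ : SL(2, ℤ)) z, f' (γ • z) = f' z := fun γ z => by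
      simp only [f', Pi.sub_apply, Pi.smul_apply, Pi.pow_apply, hinv, jA_smul]
    have hbd : IsBoundedAtImInfty (f' * Δ ^ M) := by
      have heq : f' * Δ ^ (M + 1) = g - c • (⇑E₄ ^ 3) ^ (M + 1) := by
        rw [← jA_mul_discriminant, hf', hg, mul_pow]
        funext z; simp; ring
      have hgper : Periodic (g ∘ ofComplex) 1 :=
        (ext_add_one f (fun z => hinv _ z)).mul (bddPer_discriminant.pow (M + 1)).2.1
      have hgb : BddPer g := ⟨hf.mul (bddPer_discriminant.pow _).1, hgper, h⟩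
      have hwt : ∀ (γ : SL(2, ℤ)) z, (f' * Δ ^ (M + 1)) (γ • z) =
          denom γ z ^ (12 * (M + 1 : ℤ)) * (f' * Δ ^ (M + 1)) z := by
        intro γ z
        have hD : Δ (γ • z) = denom γ z ^ (12 : ℤ) * Δ z :=
          smul_eq_denom_zpow CuspForm.discriminant γ z
        simp only [Pi.mul_apply, Pi.pow_apply, hf'inv, hD]
        rw [show (12 * (M + 1 : ℤ)) = (12 : ℤ) * ((M + 1 : ℕ) : ℤ) by push_cast; ring, zpow_mul,
          zpow_natCast]
        ring
      -- `f' Δ ^ (M + 1)` is then a cusp form, so divisible by `Δ`.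
      have hzero : IsZeroAtImInfty (f' * Δ ^ (M + 1)) := by
        rw [heq]
        have t1 : Tendsto g atImInfty (𝓝 c) := hgb.tendsto_valueAtInfty
        have t2 : Tendsto (fun z => c • (E₄ z ^ 3) ^ (M + 1)) atImInfty (𝓝 c) := by
          simpa using ((tendsto_E₄.pow 3).pow (M + 1)).const_smul c
        have := t1.sub t2
        rw [sub_self] at this
        exact this
      have hm : MDiff (f' * Δ ^ (M + 1)) := hf'm.mul (bddPer_discriminant.pow _).1
      have hO := (levelOneCuspForm _ _ hm hwt hzero).exp_decay_isBigO_discriminant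
      obtain ⟨C, hC⟩ := hO.bound
      rw [IsBoundedAtImInfty, BoundedAtFilter, isBigO_iff]
      refine ⟨C, ?_⟩
      filter_upwards [hC] with τ hτ
      simp only [coe_levelOneCuspForm, Pi.mul_apply, Pi.pow_apply, pow_succ, norm_mul] at hτ ⊢
      have hpos : 0 < ‖Δ τ‖ := norm_pos_iff.mpr (ModularForm.discriminant_ne_zero τ)
      simp only [Pi.one_apply, norm_one, mul_one]
      rw [← mul_assoc] at hτ
      exact le_of_mul_le_mul_right hτ hpos
    obtain ⟨p, hp1, hp2⟩ := ih hf'm hf'inv hbd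
    refine ⟨p + Polynomial.C c * Polynomial.X ^ (M + 1), ?_, ?_⟩
    · refine Polynomial.natDegree_add_le_of_degree_le (hp1.trans M.le_succ) ?_
      exact Polynomial.natDegree_C_mul_X_pow_le _ _
    · rw [map_add, ← hp2, map_mul, Polynomial.aeval_C, map_pow, Polynomial.aeval_X, hf',
        Algebra.smul_def, sub_add_cancel]

/-- Level one functions are polynomials in `j`. -/
theorem exists_poly_of_mem_W_one {f : ℍ → ℂ} (hf : f ∈ W 1) :
    ∃ p : ℂ[X], f = Polynomial.aeval jA p := by
  have hinv : ∀ (γ : SL(2, ℤ)) z, f (γ • z) = f z := fun γ z =>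
    congrFun (hf.2.1 γ (by simp [Gamma0_one])) z
  have hg : ExpGrowth f := by
    have h := hf.2.2 1
    rwa [show compSL 1 f = f from funext fun z => by simp [compSL]] at h
  obtain ⟨M, hM⟩ := exists_isBoundedAtImInfty_mul_discriminant_pow hg
  obtain ⟨p, -, hp⟩ := exists_poly_of_invariant hf.1 hinv M hM
  exact ⟨p, hp⟩

/-- The monomials `E₄^a E₆^b` of weight `k`. -/
def monoSet (k : ℤ) : Set (ℍ → ℂ) :=
  {g | ∃ a b : ℕ, 4 * (a : ℤ) + 6 * b = k ∧ g = (⇑E₄) ^ a * (⇑E₆) ^ b}

/-- `Δ` times a monomial as a combination of monomials. -/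
lemma discriminant_mul_mono (a b : ℕ) :
    Δ * ((⇑E₄) ^ a * (⇑E₆) ^ b) = (1 / 1728 : ℂ) • ((⇑E₄) ^ (a + 3) * (⇑E₆) ^ b) -
      (1 / 1728 : ℂ) • ((⇑E₄) ^ a * (⇑E₆) ^ (b + 2)) := by
  funext z
  simp only [Pi.mul_apply, Pi.sub_apply, Pi.smul_apply, Pi.pow_apply, smul_eq_mul,
    ModularForm.discriminant_eq_E₄_cube_sub_E₆_sq]
  ring

/-- Every level one modular form is a polynomial in `E₄` and `E₆`. -/
theorem mem_span_monoSet (k : ℤ) (f : ModularForm 𝒮ℒ k) :
    (⇑f : ℍ → ℂ) ∈ Submodule.span ℂ (monoSet k) := by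
  rcases lt_or_ge k 0 with hk | hk
  · rw [ModularFormClass.levelOne_neg_weight_eq_zero hk f]; exact zero_mem _
  lift k to ℕ using hk
  induction k using Nat.strong_induction_on with | h k ih => ?_
  rcases Nat.even_or_odd k with hk2 | hk2
  swap
  · rw [ModularForm.levelOne_odd_weight_eq_zero (mod_cast hk2) f]
    exact zero_mem _
  rcases eq_or_ne k 2 with rfl | hk22
  · rw [rank_zero_iff_forall_zero.mp ModularForm.levelOne_weight_two_rank_zero f]
    exact zero_mem _
  rcases eq_or_ne k 0 with rfl | hk0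
  · obtain ⟨c, hc⟩ := ModularFormClass.levelOne_weight_zero_const (F := ModularForm 𝒮ℒ 0) f
    have : (⇑f : ℍ → ℂ) = c • ((⇑E₄) ^ 0 * (⇑E₆) ^ 0) := by
      funext z; simp [hc]
    rw [this]
    exact Submodule.smul_mem _ _ (Submodule.subset_span ⟨0, 0, by simp, rfl⟩)
  -- Subtract a multiple of a monomial to get a cusp form.
  obtain ⟨a, b, hab⟩ : ∃ a b : ℕ, 4 * a + 6 * b = k := by
    obtain ⟨m, rfl⟩ := hk2
    rcases Nat.even_or_odd m with ⟨t, rfl⟩ | ⟨t, rfl⟩
    · exact ⟨t, 0, by omega⟩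
    · exact ⟨t - 1, 1, by omega⟩
  have hkab : (a : ℤ) * 4 + (b : ℤ) * 6 = (k : ℤ) := by omega
  set μ : ModularForm 𝒮ℒ (k : ℤ) := ModularForm.mcast hkab ((E₄.pow a).mul (E₆.pow b)) with hμ
  have hμc : (⇑μ : ℍ → ℂ) = (⇑E₄) ^ a * (⇑E₆) ^ b := by
    simp [μ, ModularForm.coe_mcast, ModularForm.coe_pow]
  have hμ0 : (qExpansion 1 μ).coeff 0 = 1 := by
    have h := ModularForm.qExpansion_mul_coe one_pos one_mem_strictPeriods_SL (E₄.pow a) (E₆.pow b)
    simp only [ModularForm.coe_pow] at h
    rw [hμc, h]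
    have p4 := ModularForm.qExpansion_pow one_pos one_mem_strictPeriods_SL E₄ a
    have p6 := ModularForm.qExpansion_pow one_pos one_mem_strictPeriods_SL E₆ b
    simp only [ModularForm.coe_pow] at p4 p6
    rw [p4, p6, qExpansion_E₄, qExpansion_E₆]
    rw [PowerSeries.coeff_zero_eq_constantCoeff_apply, map_mul, map_pow, map_pow,
      ← PowerSeries.coeff_zero_eq_constantCoeff_apply,
      ← PowerSeries.coeff_zero_eq_constantCoeff_apply, PowerSeries.coeff_map,
      PowerSeries.coeff_map]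
    simp [ModularCurve.eisenstein4, eisenstein6, PowerSeries.coeff_mk,
      -PowerSeries.coeff_zero_eq_constantCoeff]
  set c := (qExpansion 1 f).coeff 0
  have hcusp : (qExpansion 1 (f - c • μ)).coeff 0 = 0 := by
    rw [← FunLike.coe_smul, ModularForm.qExpansion_sub one_pos one_mem_strictPeriods_SL f (c • μ),
      FunLike.coe_smul, ModularForm.qExpansion_smul one_pos one_mem_strictPeriods_SL,
      map_sub, PowerSeries.coeff_smul, hμ0]
    simp [c]
  -- A cusp form is `Δ` times a form of weight `k - 12`, in the span by induction.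
  have hmem : (⇑(f - c • μ) : ℍ → ℂ) ∈ Submodule.span ℂ (monoSet k) := by
    set φ := ModularForm.toCuspForm (f - c • μ) hcusp
    have hφ : (⇑(f - c • μ) : ℍ → ℂ) = Δ * (CuspForm.discriminantEquiv φ : ℍ → ℂ) := by
      rw [ModularForm.discriminant_mul_discriminantEquiv]
      rfl
    rw [hφ]
    rcases lt_or_ge k 12 with h12 | h12
    · rw [ModularFormClass.levelOne_neg_weight_eq_zero (by omega) (CuspForm.discriminantEquiv φ)]
      simp
    · have := ih (k - 12) (by omega) (ModularForm.mcast (by omega) (CuspForm.discriminantEquiv φ))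
      rw [ModularForm.coe_mcast] at this
      refine Submodule.span_induction (p := fun g _ => Δ * g ∈ Submodule.span ℂ (monoSet k))
        ?_ ?_ ?_ ?_ this
      · rintro g ⟨a', b', hab', rfl⟩
        rw [discriminant_mul_mono]
        refine sub_mem (Submodule.smul_mem _ _ (Submodule.subset_span ⟨a' + 3, b', ?_, rfl⟩))
          (Submodule.smul_mem _ _ (Submodule.subset_span ⟨a', b' + 2, ?_, rfl⟩))
        · push_cast at hab' ⊢; omega
        · push_cast at hab' ⊢; omega
      · simp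
      · intro x y _ _ hx hy; rw [mul_add]; exact add_mem hx hy
      · intro t x _ hx; rw [mul_smul_comm]; exact Submodule.smul_mem _ _ hx
  have : (⇑f : ℍ → ℂ) = ⇑(f - c • μ) + c • ((⇑E₄) ^ a * (⇑E₆) ^ b) := by
    rw [← hμc, FunLike.coe_sub, FunLike.coe_smul, sub_add_cancel]
  rw [this]
  exact add_mem hmem (Submodule.smul_mem _ _ (Submodule.subset_span ⟨a, b, by omega, rfl⟩))

end Fermat.MC
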