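import Mathlib.NumberTheory.ModularForms.Derivative
import Mathlib.Analysis.Calculus.MeanValue
import Fermat.Agent.MC.LevelOne

/-!
# The derivative of `j`, its fibres' multiplicities, and orders at fixed points

`analyticOrderAt_jA`: `j - j z` vanishes to the orders of `E₄² E₆`, and `order_compSL` gives the
action of a stabiliser on them; `Expansions` turns this into local parameters.
-/

set_option autoImplicit false

noncomputable section

open Filter Topology Complex Function
open UpperHalfPlane hiding I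
open ModularForm (E₄ E₆)
open scoped Manifold MatrixGroups Real

local notation "Δ" => ModularForm.discriminant

namespace Fermat.MC

/-- The normalised derivative in the variable `q`. -/
theorem normalizedDeriv_eq {F : ℍ → ℂ} (hF : BddPer F) (τ : ℍ) :
    Derivative.normalizedDerivOfComplex F τ =
      Periodic.qParam 1 τ * deriv (cuspFunction 1 F) (Periodic.qParam 1 τ) := by
  set U := cuspFunction 1 F with hU
  have hper : Periodic (F ∘ ofComplex) ((1 : ℝ) : ℂ) := by exact_mod_cast hF.2.1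
  have hdiff : DifferentiableAt ℂ U (Periodic.qParam 1 τ) :=
    Periodic.differentiableAt_cuspFunction one_ne_zero hper
      (UpperHalfPlane.mdifferentiableAt_iff.mp (hF.1 τ))
  have hq : HasDerivAt (fun w : ℂ => Periodic.qParam 1 w)
      (2 * π * I * Periodic.qParam 1 τ) (τ : ℂ) := by
    have h := ((hasDerivAt_id (τ : ℂ)).const_mul (2 * π * I)).cexp
    have he : (fun w : ℂ => Periodic.qParam 1 w) = fun w => cexp (2 * π * I * id w) := by
      funext w; simp [Periodic.qParam]
    rw [he]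
    refine h.congr_deriv ?_
    simp [Periodic.qParam]
    ring
  have hev : F ∘ ofComplex = fun w => U (Periodic.qParam 1 w) :=
    funext fun w => (Periodic.eq_cuspFunction one_ne_zero hper w).symm
  rw [Derivative.normalizedDerivOfComplex, hev,
    show (fun w => U (Periodic.qParam 1 w)) = U ∘ (fun w => Periodic.qParam 1 w) from rfl,
    (hdiff.hasDerivAt.comp (τ : ℂ) hq).deriv]
  field_simp

/-- The normalised derivative of a bounded periodic function tends to zero. -/
lemma tendsto_D_atImInfty {F : ℍ → ℂ} (hF : BddPer F) :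
    Tendsto (Derivative.normalizedDerivOfComplex F) atImInfty (𝓝 0) := by
  set U := cuspFunction 1 F with hU
  have hq0 := qParam_tendsto_atImInfty (h := 1) one_pos
  have h1 : Tendsto (fun τ : ℍ => Periodic.qParam 1 τ * deriv U (Periodic.qParam 1 τ))
      atImInfty (𝓝 (0 * deriv U 0)) :=
    hq0.mul (hF.analyticAt.deriv.continuousAt.tendsto.comp hq0)
  rw [zero_mul] at h1
  exact h1.congr fun τ => (normalizedDeriv_eq hF τ).symm

/-- The Serre derivative of a weight twelve level one form is a multiple of `E₄² E₆`. -/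
lemma exists_serre_twelve {F : ℍ → ℂ} (hF : BddPer F)
    (hw : ∀ (γ : SL(2, ℤ)) z, F (γ • z) = denom γ z ^ (12 : ℤ) * F z) :
    ∃ c : ℂ, ∀ z, Derivative.normalizedDerivOfComplex F z - EisensteinSeries.E2 z * F z =
      c * (E₄ z ^ 2 * E₆ z) := by
  set G := Derivative.serreDerivative ((12 : ℤ) : ℂ) F with hG
  have hGm : MDiff G := Derivative.serreDerivative_mdifferentiable _ hF.1
  have hGw : ∀ (γ : SL(2, ℤ)) z, G (γ • z) = denom γ z ^ (14 : ℤ) * G z := fun γ =>
    slash_eq_iff_smul.mp (Derivative.serreDerivative_slash_invariant (k := 12) hF.1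
      (slash_eq_iff_smul.mpr (hw γ)))
  have hGb : IsBoundedAtImInfty G := by
    have h2 : IsBoundedAtImInfty fun z => EisensteinSeries.E2 z * F z :=
      EisensteinSeries.isBoundedAtImInfty_E2.mul hF.2.2
    have h3 : IsBoundedAtImInfty (Derivative.normalizedDerivOfComplex F) :=
      (tendsto_D_atImInfty hF).isBigO_one ℝ
    refine (h3.sub h2).congr' (Eventually.of_forall fun z => ?_) EventuallyEq.rfl
    simp [hG]
  have hmem := mem_span_monoSet 14 (levelOneForm 14 G hGm hGw hGb)
  have hle : Submodule.span ℂ (monoSet 14) ≤ Submodule.span ℂ {(⇑E₄) ^ 2 * (⇑E₆) ^ 1} := by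
    refine Submodule.span_mono ?_
    rintro g ⟨a, b, hab, rfl⟩
    obtain ⟨rfl, rfl⟩ : a = 2 ∧ b = 1 := by omega
    rfl
  obtain ⟨c, hc⟩ := Submodule.mem_span_singleton.mp (hle hmem)
  refine ⟨c, fun z => ?_⟩
  have h := congrFun hc z
  simp only [Pi.smul_apply, Pi.mul_apply, Pi.pow_apply, pow_one, smul_eq_mul] at h
  rw [h]
  change _ = G z
  simp [hG]

/-- `j` vanishes exactly where `E₄` does. -/
lemma jA_eq_zero_iff {z : ℍ} : jA z = 0 ↔ E₄ z = 0 := by
  simp [jA, ModularForm.discriminant_ne_zero]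

/-- `j - 1728 = E₆² / Δ`. -/
lemma jA_sub_eq (z : ℍ) : jA z - 1728 = E₆ z ^ 2 / Δ z := by
  have h := ModularForm.discriminant_eq_E₄_cube_sub_E₆_sq z
  have hD := ModularForm.discriminant_ne_zero z
  rw [jA]
  field_simp
  linear_combination -1728 * h

/-- `j = 1728` exactly where `E₆` vanishes. -/
lemma jA_eq_1728_iff {z : ℍ} : jA z = 1728 ↔ E₆ z = 0 := by
  rw [← sub_eq_zero, jA_sub_eq]
  simp [ModularForm.discriminant_ne_zero]

/-- `E₄` and `E₆` have no common zero. -/
lemma not_E₄_E₆_zero {z : ℍ} (h4 : E₄ z = 0) : E₆ z ≠ 0 := fun h6 => by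
  have h := jA_eq_1728_iff.mpr h6
  rw [jA_eq_zero_iff.mpr h4] at h
  norm_num at h

/-- `j` is not constant. -/
lemma jA_not_const (a : ℂ) : jA ≠ fun _ => a := by
  intro h
  have h1 : (⟨jA, jA_mem_perAlg⟩ : perAlg) = algebraMap ℂ perAlg a := Subtype.ext h
  have h2 := congrArg qL h1
  rw [qL_jA, AlgHom.commutes, ModularCurve.algebraMap_laurentSeries_eq_single] at h2
  have h3 := congrArg (fun x => HahnSeries.coeff x (-1 : ℤ)) h2
  simp at h3

/-- The derivative of `j`. -/
theorem exists_deriv_jA :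
    ∃ c : ℂ, c ≠ 0 ∧ ∀ z : ℍ, deriv (ext jA) z = c * (E₄ z ^ 2 * E₆ z) / Δ z := by
  have hw4 : ∀ (γ : SL(2, ℤ)) z, ((⇑E₄) ^ 3 : ℍ → ℂ) (γ • z) =
      denom γ z ^ (12 : ℤ) * ((⇑E₄) ^ 3 : ℍ → ℂ) z := fun γ z => by
    simp only [Pi.pow_apply, smul_eq_denom_zpow E₄ γ z, mul_pow]
    rw [← zpow_natCast, ← zpow_mul]
    norm_num
  -- The Serre derivatives of `E₄ ^ 3` and `Δ` are multiples of `E₄ ^ 2 E₆`.
  obtain ⟨c₁, hc₁⟩ := exists_serre_twelve (bddPer_E₄.pow 3) hw4
  obtain ⟨c₂, hc₂⟩ := exists_serre_twelve bddPer_discriminant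
    (fun γ z => smul_eq_denom_zpow CuspForm.discriminant γ z)
  -- That of `Δ` vanishes at `∞`, so it is `0`.
  have hc₂0 : c₂ = 0 := by
    have h1 : Tendsto (fun z => Derivative.normalizedDerivOfComplex Δ z -
        EisensteinSeries.E2 z * Δ z) atImInfty (𝓝 0) := by
      have hz : Tendsto (fun z => EisensteinSeries.E2 z * Δ z) atImInfty (𝓝 0) :=
        EisensteinSeries.isBoundedAtImInfty_E2.mul_zeroAtFilter
          ModularForm.discriminant_isZeroAtImInfty
      simpa using (tendsto_D_atImInfty bddPer_discriminant).sub hz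
    have h2 : Tendsto (fun z => c₂ * (E₄ z ^ 2 * E₆ z)) atImInfty (𝓝 (c₂ * (1 ^ 2 * 1))) :=
      ((tendsto_E₄.pow 2).mul tendsto_E₆).const_mul c₂
    simpa using tendsto_nhds_unique h2 (h1.congr hc₂)
  -- By the product rule `D j * Δ = c₁ E₄ ^ 2 E₆`.
  have hformula : ∀ z : ℍ, Derivative.normalizedDerivOfComplex jA z * Δ z =
      c₁ * (E₄ z ^ 2 * E₆ z) := by
    intro z
    have h1 := hc₁ z
    have h2 := hc₂ z
    rw [← jA_mul_discriminant, Derivative.normalizedDerivOfComplex_mul _ _ mdiff_jA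
      bddPer_discriminant.1] at h1
    simp only [Pi.add_apply, Pi.mul_apply] at h1
    rw [hc₂0, zero_mul] at h2
    linear_combination h1 - jA z * h2
  have h2pi : (2 * π * I : ℂ) ≠ 0 := by simp [Real.pi_ne_zero]
  have hderiv : ∀ z : ℍ, deriv (ext jA) z = (2 * π * I * c₁) * (E₄ z ^ 2 * E₆ z) / Δ z := by
    intro z
    have h := hformula z
    rw [Derivative.normalizedDerivOfComplex] at h
    rw [eq_div_iff (ModularForm.discriminant_ne_zero z), ext, mul_assoc, ← h]
    field_simp
  -- If `c₁` were `0` then `j` would be constant.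
  refine ⟨2 * π * I * c₁, mul_ne_zero h2pi fun h0 => jA_not_const (jA UpperHalfPlane.I) ?_, hderiv⟩
  funext z
  have hpre : IsPreconnected upperHalfPlaneSet :=
    (convex_halfSpace_im_gt 0).isPreconnected
  have h := isOpen_upperHalfPlaneSet.is_const_of_deriv_eq_zero hpre
    (UpperHalfPlane.mdifferentiable_iff.mp mdiff_jA) (fun w hw => by
      have := hderiv ⟨w, hw⟩
      rw [h0, mul_zero, zero_mul, zero_div] at this
      exact this) z.im_pos UpperHalfPlane.I.im_pos
  simpa only [ext, Function.comp_apply, ofComplex_apply] using h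

/-- Every complex number is a value of `j`. -/
theorem exists_jA_eq (a : ℂ) : ∃ z : ℍ, jA z = a := by
  by_contra hne
  push Not at hne
  set f : ℍ → ℂ := fun z => (jA z - a)⁻¹ with hf
  have hfm : MDiff f := mdiff_of_analyticAt_ext fun z =>
    ((analyticAt_ext mdiff_jA z).sub analyticAt_const).inv
      (by simpa [ext, ofComplex_apply] using sub_ne_zero.mpr (hne z))
  have hfb : IsBoundedAtImInfty (f * Δ ^ 0) := by
    rw [pow_zero, mul_one]
    have ht : Tendsto (fun z => ‖jA z‖) atImInfty atTop := by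
      refine (isTheta_jA.tendsto_norm_atTop_iff).mpr ?_
      simp only [Function.comp_def, Real.norm_eq_abs, abs_of_pos (Real.exp_pos _)]
      exact Real.tendsto_exp_atTop.comp
        ((tendsto_comap (f := UpperHalfPlane.im)).const_mul_atTop (by positivity))
    have h0 : Tendsto f atImInfty (𝓝 0) := by
      refine tendsto_zero_iff_norm_tendsto_zero.mpr ?_
      simp only [hf, norm_inv]
      refine tendsto_inv_atTop_zero.comp ?_
      refine tendsto_atTop_mono (fun z => ?_) (tendsto_atTop_add_const_right _ (-‖a‖) ht)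
      have := norm_sub_norm_le (jA z) a
      linarith
    exact h0.isBigO_one ℝ
  obtain ⟨p, hp, hpf⟩ := exists_poly_of_invariant hfm (fun γ z => congrArg (fun x => (x - a)⁻¹)
    (jA_smul γ z)) 0 hfb
  rw [Polynomial.eq_C_of_natDegree_le_zero hp, Polynomial.aeval_C] at hpf
  refine jA_not_const (a + (p.coeff 0)⁻¹) (funext fun z => ?_)
  have h : (jA z - a)⁻¹ = p.coeff 0 := congrFun hpf z
  rw [← h, inv_inv]
  ring

/-- The multiplicity with which `j` takes its value at `z`. -/
def multJ (z : ℍ) : ℕ := if jA z = 0 then 3 else if jA z = 1728 then 2 else 1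

/-- The multiplicity is positive. -/
lemma multJ_pos (z : ℍ) : 0 < multJ z := by
  unfold multJ; split_ifs <;> norm_num

/-- A nonzero function has finite order at each point. -/
lemma analyticOrderAt_ext_ne_top {f : ℍ → ℂ} (hf : MDiff f) (h : f ≠ 0) (z : ℍ) :
    analyticOrderAt (ext f) z ≠ ⊤ := by
  rw [ne_eq, analyticOrderAt_eq_top]
  exact fun h0 => h (eq_zero_of_ext_eventuallyEq hf h0)

/-- The orders of `j - j z` and of `E₄² E₆` at `z`. -/
theorem analyticOrderAt_jA (z : ℍ) :
    analyticOrderAt (fun w => ext jA w - jA z) z = multJ z ∧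
      analyticOrderAt (ext ((⇑E₄) ^ 2 * ⇑E₆)) z = (multJ z - 1 : ℕ) := by
  obtain ⟨c, hc, hd⟩ := exists_deriv_jA
  have hj := analyticAt_ext mdiff_jA z
  have h4 := analyticAt_ext bddPer_E₄.1 z
  have h6 := analyticAt_ext bddPer_E₆.1 z
  have hD := analyticAt_ext bddPer_discriminant.1 z
  set u : ℂ → ℂ := fun w => c / ext Δ w
  have hu : AnalyticAt ℂ u z := analyticAt_const.div hD
    (by rw [ext_coe]; exact ModularForm.discriminant_ne_zero z)
  have hu0 : analyticOrderAt u z = 0 := hu.analyticOrderAt_eq_zero.mpr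
    (div_ne_zero hc (by rw [ext_coe]; exact ModularForm.discriminant_ne_zero z))
  set v : ℂ → ℂ := fun w => 1 / ext Δ w
  have hv : AnalyticAt ℂ v z := analyticAt_const.div hD
    (by rw [ext_coe]; exact ModularForm.discriminant_ne_zero z)
  have hv0 : analyticOrderAt v z = 0 := hv.analyticOrderAt_eq_zero.mpr
    (div_ne_zero one_ne_zero (by rw [ext_coe]; exact ModularForm.discriminant_ne_zero z))
  set g := ext ((⇑E₄) ^ 2 * ⇑E₆)
  have hg : g = ext ⇑E₄ ^ 2 * ext ⇑E₆ := rfl
  have hg' : AnalyticAt ℂ g z := hg ▸ (h4.pow 2).mul h6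
  have hgo : analyticOrderAt g z =
      2 • analyticOrderAt (ext ⇑E₄) z + analyticOrderAt (ext ⇑E₆) z := by
    rw [hg, analyticOrderAt_mul (h4.pow 2) h6, analyticOrderAt_pow h4]
  -- `dj` is a unit times `E₄² E₆`, so its order is one less than that of `j - j z`.
  have hder : deriv (ext jA) =ᶠ[𝓝 (z : ℂ)] u * g := by
    filter_upwards [isOpen_upperHalfPlaneSet.mem_nhds z.im_pos] with w hw
    have := hd ⟨w, hw⟩
    rw [show ((⟨w, hw⟩ : ℍ) : ℂ) = w from rfl] at this
    rw [this, Pi.mul_apply, hg]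
    simp only [u, ext, comp_apply, ofComplex_apply_of_im_pos hw, Pi.mul_apply, Pi.pow_apply]
    ring
  have hsucc : analyticOrderAt g z + 1 = analyticOrderAt (fun w => ext jA w - jA z) z := by
    have h := hj.analyticOrderAt_deriv_add_one
    rw [analyticOrderAt_congr hder, analyticOrderAt_mul hu hg', hu0, zero_add] at h
    simpa [ext_coe] using h
  suffices analyticOrderAt g z = (multJ z - 1 : ℕ) by
    refine ⟨?_, this⟩
    rw [← hsucc, this]
    obtain ⟨m, hm⟩ : ∃ m, multJ z = m + 1 := ⟨multJ z - 1, by have := multJ_pos z; omega⟩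
    simp [hm]
  -- Compare both orders at a zero of `E₄`, at a zero of `E₆`, and elsewhere.
  by_cases h40 : E₄ z = 0
  · have h6o : analyticOrderAt (ext ⇑E₆) z = 0 :=
      h6.analyticOrderAt_eq_zero.mpr (by rw [ext_coe]; exact not_E₄_E₆_zero h40)
    have hz : jA z = 0 := jA_eq_zero_iff.mpr h40
    have hjo : analyticOrderAt (fun w => ext jA w - jA z) z =
        3 • analyticOrderAt (ext ⇑E₄) z := by
      rw [analyticOrderAt_congr (g := v * ext ⇑E₄ ^ 3), analyticOrderAt_mul hv (h4.pow 3), hv0,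
        zero_add, analyticOrderAt_pow h4]
      filter_upwards [isOpen_upperHalfPlaneSet.mem_nhds z.im_pos] with w hw
      simp only [hz, sub_zero]
      simp only [v, ext, comp_apply, Pi.mul_apply, Pi.pow_apply, jA]
      ring
    obtain ⟨r, hr⟩ := ENat.ne_top_iff_exists.mp
      (analyticOrderAt_ext_ne_top bddPer_E₄.1 (fun h => EisensteinSeries.E_ne_zero _ ⟨2, rfl⟩
        (DFunLike.coe_injective h)) z)
    rw [hgo, h6o, ← hr] at hsucc ⊢
    rw [hjo, ← hr] at hsucc
    simp only [nsmul_eq_mul] at hsucc ⊢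
    norm_cast at hsucc ⊢
    rw [multJ, if_pos hz]
    omega
  · have h4o : analyticOrderAt (ext ⇑E₄) z = 0 :=
      h4.analyticOrderAt_eq_zero.mpr (by rw [ext_coe]; exact h40)
    have hz0 : jA z ≠ 0 := fun h => h40 (jA_eq_zero_iff.mp h)
    by_cases h60 : E₆ z = 0
    · have hz : jA z = 1728 := jA_eq_1728_iff.mpr h60
      have hjo : analyticOrderAt (fun w => ext jA w - jA z) z =
          2 • analyticOrderAt (ext ⇑E₆) z := by
        rw [analyticOrderAt_congr (g := v * ext ⇑E₆ ^ 2), analyticOrderAt_mul hv (h6.pow 2), hv0,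
          zero_add, analyticOrderAt_pow h6]
        filter_upwards [isOpen_upperHalfPlaneSet.mem_nhds z.im_pos] with w hw
        simp only [hz, v, ext, comp_apply, Pi.mul_apply, Pi.pow_apply, jA_sub_eq]
        ring
      obtain ⟨r, hr⟩ := ENat.ne_top_iff_exists.mp
        (analyticOrderAt_ext_ne_top bddPer_E₆.1 (fun h => EisensteinSeries.E_ne_zero _ ⟨3, rfl⟩
          (DFunLike.coe_injective h)) z)
      rw [hgo, h4o, ← hr] at hsucc ⊢
      rw [hjo, ← hr] at hsucc
      simp only [nsmul_eq_mul] at hsucc ⊢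
      norm_cast at hsucc ⊢
      rw [multJ, if_neg hz0, if_pos hz]
      omega
    · have h6o : analyticOrderAt (ext ⇑E₆) z = 0 :=
        h6.analyticOrderAt_eq_zero.mpr (by rw [ext_coe]; exact h60)
      rw [hgo, h4o, h6o, multJ, if_neg hz0, if_neg fun h => h60 (jA_eq_1728_iff.mp h)]
      simp

/-- Difference of two Möbius images. -/
lemma coe_smul_sub (γ : SL(2, ℤ)) (w z : ℍ) :
    ((γ • w : ℍ) : ℂ) - (γ • z : ℍ) = ((w : ℂ) - z) / (denom γ w * denom γ z) := by
  have hw := denom_ne_zero γ w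
  have hz := denom_ne_zero γ z
  have hdet : (γ 0 0 : ℂ) * γ 1 1 - γ 0 1 * γ 1 0 = 1 := by
    have := γ.det_coe
    rw [Matrix.det_fin_two] at this
    exact_mod_cast this
  simp only [ModularGroup.denom_apply] at hw hz
  simp only [coe_specialLinearGroup_apply, ModularGroup.denom_apply]
  simp only [eq_intCast, algebraMap_int_eq, ofReal_intCast] at hw hz ⊢
  rw [div_sub_div _ _ hw hz]
  congr 1
  linear_combination ((w : ℂ) - z) * hdet

/-- Composition with a Möbius map preserves the order, and at a fixed point the derivative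
is a root of unity of that order. -/
theorem order_compSL {f : ℍ → ℂ} (hf : MDiff f) (γ : SL(2, ℤ)) (z₀ : ℍ) :
    analyticOrderAt (ext (compSL γ f)) z₀ = analyticOrderAt (ext f) (γ • z₀ : ℍ) ∧
      (γ • z₀ = z₀ → compSL γ f = f → ∀ k : ℕ, analyticOrderAt (ext f) z₀ = k →
        ((denom γ z₀ ^ 2) ^ k : ℂ) = 1) := by
  set d := denom γ z₀ with hd
  have hd0 : d ≠ 0 := denom_ne_zero γ z₀
  have hF := analyticAt_ext hf (γ • z₀)
  rcases eq_or_ne (analyticOrderAt (ext f) (γ • z₀ : ℍ)) ⊤ with htop | htop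
  · have hf0 : f = 0 := eq_zero_of_ext_eventuallyEq hf (analyticOrderAt_eq_top.mp htop)
    refine ⟨?_, fun hfix _ k hk => ?_⟩
    · rw [htop, analyticOrderAt_eq_top]
      exact Eventually.of_forall fun w => by simp [hf0, compSL, ext]
    · rw [hfix, hk] at htop
      exact absurd htop (ENat.natCast_ne_top k)
  obtain ⟨k, hk⟩ := ENat.ne_top_iff_exists.mp htop
  obtain ⟨u, hu, hu0, heq⟩ := (hF.analyticOrderAt_eq_natCast).mp hk.symm
  -- Substitute `γ` into the factorisation `(w - γ z₀) ^ k • u w`.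
  set φ : ℂ → ℂ := fun w => ((γ • ofComplex w : ℍ) : ℂ)
  have hφ : AnalyticAt ℂ φ z₀ := by
    have hm : MDiff fun w : ℍ => ((γ • w : ℍ) : ℂ) :=
      mdifferentiable_coe.comp
        (UpperHalfPlane.mdifferentiable_smul (g := (γ : GL (Fin 2) ℝ)) (by simp))
    exact analyticAt_ext hm z₀
  have hφ0 : φ z₀ = (γ • z₀ : ℍ) := by simp [φ, ofComplex_apply]
  set den : ℂ → ℂ := fun w => (γ 1 0 : ℂ) * w + γ 1 1
  have hden : den z₀ = d := by simp [den, hd, ModularGroup.denom_apply]
  have hden' : AnalyticAt ℂ den z₀ := by fun_prop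
  set U : ℂ → ℂ := fun w => ((den w * d) ^ k)⁻¹ * u (φ w)
  have hU : AnalyticAt ℂ U z₀ := by
    refine ((hden'.mul analyticAt_const).pow k).inv ?_ |>.mul ?_
    · simp only [Pi.mul_apply, Pi.pow_apply, hden]
      exact pow_ne_zero _ (mul_ne_zero hd0 hd0)
    · exact AnalyticAt.fun_comp (hφ0 ▸ hu) hφ
  have hU0 : U z₀ = ((d * d) ^ k)⁻¹ * u (γ • z₀ : ℍ) := by simp [U, hden, hφ0]
  have hev : ext (compSL γ f) =ᶠ[𝓝 (z₀ : ℂ)] fun w => (w - z₀) ^ k • U w := by
    have h1 : ∀ᶠ w in 𝓝 (z₀ : ℂ), ext f (φ w) = (φ w - (γ • z₀ : ℍ)) ^ k • u (φ w) := by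
      have := hφ.continuousAt.tendsto
      rw [hφ0] at this
      exact this.eventually heq
    filter_upwards [h1, isOpen_upperHalfPlaneSet.mem_nhds z₀.im_pos] with w hw hwim
    have he : ext (compSL γ f) w = ext f (φ w) := by
      simp [φ, ext, compSL, ofComplex_apply]
    rw [he, hw]
    simp only [φ, ofComplex_apply_of_im_pos hwim, coe_smul_sub, U, smul_eq_mul]
    have hdw : denom γ (w : ℂ) = den w := ModularGroup.denom_apply γ ⟨w, hwim⟩
    rw [hdw, ← hd, div_pow]
    ring
  have hUne : U z₀ ≠ 0 := by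
    rw [hU0]
    exact mul_ne_zero (inv_ne_zero (pow_ne_zero _ (mul_ne_zero hd0 hd0))) hu0
  refine ⟨?_, fun hfix hinv k' hk' => ?_⟩
  · rw [← hk, ((hU.congr (EventuallyEq.refl _ _)))
      |> fun h => (analyticAt_ext (mdiff_compSL γ hf) z₀).analyticOrderAt_eq_natCast.mpr
        ⟨U, h, hUne, hev⟩]
  · obtain rfl : k = k' := by
      rw [hfix] at hk; exact_mod_cast hk.trans hk'
    rw [hinv] at hev
    rw [hfix] at heq hu hu0 hU0
    -- At a fixed point the leading coefficients of the two factorisations agree.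
    have hlim : U z₀ = u z₀ := by
      have hne : ∀ᶠ w in 𝓝[≠] (z₀ : ℂ), U w = u w := by
        filter_upwards [hev.filter_mono nhdsWithin_le_nhds, heq.filter_mono nhdsWithin_le_nhds,
          self_mem_nhdsWithin] with w h1 h2 hw
        exact smul_right_injective ℂ (pow_ne_zero k (sub_ne_zero.mpr hw)) (h1.symm.trans h2)
      exact tendsto_nhds_unique
        ((hU.continuousAt.tendsto.mono_left nhdsWithin_le_nhds).congr' hne)
        (hu.continuousAt.tendsto.mono_left nhdsWithin_le_nhds)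
    rw [hU0, mul_eq_right₀ hu0, inv_eq_one, ← sq] at hlim
    exact hlim

end Fermat.MC
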