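import Mathlib.Analysis.Complex.UpperHalfPlane.Manifold
import Mathlib.Analysis.Complex.UpperHalfPlane.FunctionsBoundedAtInfty
import Mathlib.Analysis.Analytic.Order
import Mathlib.Analysis.Analytic.Constructions
import Mathlib.Analysis.Complex.CauchyIntegral
import Mathlib.Geometry.Manifold.MFDeriv.SpecificFunctions
import Mathlib.Analysis.Calculus.FDeriv.Analytic

/-!
# Holomorphic functions on the upper half plane: divisibility and root bounds

The extension to `ℂ` is `ext`, and `norm_root_lt` bounds the roots of a monic polynomial.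
-/

set_option autoImplicit false

noncomputable section

open Filter Topology
open UpperHalfPlane hiding I
open scoped Manifold

namespace Fermat.MC

/-- The extension of a function on `ℍ` used to talk about local expansions. -/
abbrev ext (f : ℍ → ℂ) : ℂ → ℂ := f ∘ ofComplex

/-- Holomorphic functions are analytic in the complex coordinate. -/
lemma analyticAt_ext {f : ℍ → ℂ} (hf : MDiff f) (z : ℍ) : AnalyticAt ℂ (ext f) z :=
  (UpperHalfPlane.mdifferentiable_iff.mp hf).analyticAt (isOpen_upperHalfPlaneSet.mem_nhds z.im_pos)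

/-- Analytic in the complex coordinate means holomorphic. -/
lemma mdiff_of_analyticAt_ext {f : ℍ → ℂ} (h : ∀ z : ℍ, AnalyticAt ℂ (ext f) z) : MDiff f :=
  UpperHalfPlane.mdifferentiable_iff.mpr fun w hw =>
    (h ⟨w, hw⟩).differentiableAt.differentiableWithinAt

/-- The extension restricts to the function. -/
lemma ext_coe (f : ℍ → ℂ) (z : ℍ) : ext f (z : ℂ) = f z := by
  simp [ext, ofComplex_apply]

/-- The identity theorem on `ℍ`. -/
lemma eq_zero_of_ext_eventuallyEq {f : ℍ → ℂ} (hf : MDiff f) {z : ℍ}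
    (h : ext f =ᶠ[𝓝 (z : ℂ)] 0) : f = 0 := by
  refine eq_zero_of_frequently hf (τ := z) ?_
  have hev : ∀ᶠ w in 𝓝 z, f w = 0 := by
    rw [← isOpenEmbedding_coe.map_nhds_eq, eventuallyEq_iff_all_subsets] at h
    have := h Set.univ
    rw [eventually_map] at this
    filter_upwards [this] with w hw
    simpa [ext, ofComplex_apply] using hw trivial
  have : NeBot (𝓝[≠] z) := by
    rw [← mem_closure_iff_nhdsWithin_neBot]
    exact dense_compl_singleton z |>.closure_eq ▸ Set.mem_univ z
  exact (hev.filter_mono nhdsWithin_le_nhds).frequently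

/-- Zeros of a nonzero function are isolated. -/
lemma ext_ne_zero_punctured {v : ℍ → ℂ} (hv : MDiff v) (hv0 : v ≠ 0) (z : ℍ) :
    ∀ᶠ w in 𝓝[≠] (z : ℂ), ext v w ≠ 0 := by
  refine (analyticAt_ext hv z).eventually_eq_zero_or_eventually_ne_zero.resolve_left fun h => hv0 ?_
  exact eq_zero_of_ext_eventuallyEq hv h

/-- If `u` is locally an analytic multiple of `v`, then it is a holomorphic multiple of `v`. -/
theorem exists_mdiff_div {u v : ℍ → ℂ} (hu : MDiff u) (hv : MDiff v) (hv0 : v ≠ 0)
    (hloc : ∀ z : ℍ, ∃ g : ℂ → ℂ, AnalyticAt ℂ g z ∧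
      ∀ᶠ w in 𝓝[≠] (z : ℂ), ext u w = g w * ext v w) :
    ∃ h : ℍ → ℂ, MDiff h ∧ u = h * v := by
  set q : ℂ → ℂ := fun w => ext u w / ext v w with hq
  refine ⟨fun z => limUnder (𝓝[≠] (z : ℂ)) q, ?_⟩
  -- The quotient has a limit at each point, the value of the local multiplier `g`.
  have key : ∀ z : ℍ, ∃ g : ℂ → ℂ, AnalyticAt ℂ g z ∧
      limUnder (𝓝[≠] (z : ℂ)) q = g z ∧
      (∀ᶠ w in 𝓝[≠] (z : ℂ), ext u w = g w * ext v w) := by
    intro z
    obtain ⟨g, hg, hgu⟩ := hloc z
    refine ⟨g, hg, Tendsto.limUnder_eq ?_, hgu⟩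
    refine (hg.continuousAt.tendsto.mono_left nhdsWithin_le_nhds).congr' ?_
    filter_upwards [hgu, ext_ne_zero_punctured hv hv0 z] with w h1 h2
    simp only [q, h1]
    field_simp
  -- Near each point the limit function coincides with `g`, hence is analytic.
  have hnear : ∀ z : ℍ, ∀ g : ℂ → ℂ, AnalyticAt ℂ g z →
      limUnder (𝓝[≠] (z : ℂ)) q = g z → (∀ᶠ w in 𝓝[≠] (z : ℂ), ext u w = g w * ext v w) →
      ext (fun z => limUnder (𝓝[≠] (z : ℂ)) q) =ᶠ[𝓝 (z : ℂ)] g := by
    intro z g hg hlim hgu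
    have h1 : ∀ᶠ w in 𝓝[≠] (z : ℂ),
        ext (fun z => limUnder (𝓝[≠] (z : ℂ)) q) w = g w := by
      filter_upwards [hgu, ext_ne_zero_punctured hv hv0 z,
        nhdsWithin_le_nhds (isOpen_upperHalfPlaneSet.mem_nhds z.im_pos)] with w hw1 hw2 hw3
      have hw3' : 0 < w.im := hw3
      simp only [ext, Function.comp_apply, ofComplex_apply_of_im_pos hw3']
      have hc : ContinuousAt q w :=
        ((analyticAt_ext hu ⟨w, hw3⟩).div (analyticAt_ext hv ⟨w, hw3⟩) hw2).continuousAt
      rw [(hc.tendsto.mono_left nhdsWithin_le_nhds).limUnder_eq]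
      simp only [q, hw1]
      field_simp
    rw [EventuallyEq, ← nhdsNE_sup_pure (z : ℂ), eventually_sup, eventually_pure]
    refine ⟨h1, ?_⟩
    simp [ext, ofComplex_apply, hlim]
  -- The identity `u = h v` extends to the point by continuity.
  refine ⟨mdiff_of_analyticAt_ext fun z => ?_, ?_⟩
  · obtain ⟨g, hg, hlim, hgu⟩ := key z
    exact hg.congr (hnear z g hg hlim hgu).symm
  · funext z
    obtain ⟨g, hg, hlim, hgu⟩ := key z
    have heq : ∀ᶠ w in 𝓝 (z : ℂ), ext u w = g w * ext v w := by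
      refine ((analyticAt_ext hu z).continuousAt.eventuallyEq_nhds_iff_eventuallyEq_nhdsNE
        (hg.mul (analyticAt_ext hv z)).continuousAt).mp ?_
      exact hgu
    have := heq.self_of_nhds
    simp only [ext_coe] at this
    simp [Pi.mul_apply, hlim, this]

/-- A ratio of holomorphic functions satisfying a monic equation with holomorphic
coefficients is holomorphic. -/
theorem exists_mdiff_of_root {n : ℕ} {u v : ℍ → ℂ} (hu : MDiff u) (hv : MDiff v) (hv0 : v ≠ 0)
    (c : ℕ → ℍ → ℂ) (hc : ∀ i < n, MDiff (c i))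
    (h : u ^ n + ∑ i ∈ Finset.range n, c i * u ^ i * v ^ (n - i) = 0) :
    ∃ w : ℍ → ℂ, MDiff w ∧ u = w * v ∧ w ^ n + ∑ i ∈ Finset.range n, c i * w ^ i = 0 := by
  have hfun : ∀ x : ℂ, ext u x ^ n +
      ∑ i ∈ Finset.range n, ext (c i) x * ext u x ^ i * ext v x ^ (n - i) = 0 := by
    intro x
    simpa [ext, Finset.sum_apply] using congrFun h (ofComplex x)
  -- It suffices that `u / v` is holomorphic at each point.
  obtain ⟨w, hw, huw⟩ : ∃ w : ℍ → ℂ, MDiff w ∧ u = w * v := by
    refine exists_mdiff_div hu hv hv0 fun z => ?_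
    by_cases hu0 : u = 0
    · exact ⟨0, analyticAt_const, Eventually.of_forall fun w => by simp [hu0, ext]⟩
    have hut : analyticOrderAt (ext u) z ≠ ⊤ := fun h =>
      hu0 (eq_zero_of_ext_eventuallyEq hu (analyticOrderAt_eq_top.mp h))
    have hvt : analyticOrderAt (ext v) z ≠ ⊤ := fun h =>
      hv0 (eq_zero_of_ext_eventuallyEq hv (analyticOrderAt_eq_top.mp h))
    obtain ⟨u1, hu1, hu10, hue⟩ := (analyticAt_ext hu z).analyticOrderAt_ne_top.mp hut
    obtain ⟨v1, hv1, hv10, hve⟩ := (analyticAt_ext hv z).analyticOrderAt_ne_top.mp hvt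
    generalize analyticOrderNatAt (ext u) (z : ℂ) = a at hue
    generalize analyticOrderNatAt (ext v) (z : ℂ) = m at hve
    by_cases ham : m ≤ a
    · refine ⟨fun x => (x - z) ^ (a - m) * u1 x / v1 x,
        ((((analyticAt_id.sub analyticAt_const).pow _).mul hu1).div hv1 hv10), ?_⟩
      filter_upwards [nhdsWithin_le_nhds hue, nhdsWithin_le_nhds hve,
        nhdsWithin_le_nhds (hv1.continuousAt.eventually_ne hv10)] with x h1 h2 h3
      simp only [smul_eq_mul] at h1 h2
      rw [h1, h2]
      field_simp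
      rw [mul_assoc, ← pow_add, Nat.sub_add_cancel ham, mul_comm]
    -- A pole would make the leading coefficient of `u` vanish by the equation.
    · exfalso
      push Not at ham
      apply hu10
      set F : ℂ → ℂ := fun x => u1 x ^ n +
        ∑ i ∈ Finset.range n, ext (c i) x * u1 x ^ i * v1 x ^ (n - i) *
          (x - z) ^ ((m - a) * (n - i)) with hF
      have hFc : ContinuousAt F z := by
        refine (hu1.continuousAt.pow n).add (tendsto_finsetSum _ fun i hi => ?_)
        exact (((analyticAt_ext (hc i (Finset.mem_range.mp hi)) z).continuousAt.mul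
          (hu1.continuousAt.pow i)).mul (hv1.continuousAt.pow _)).mul
          ((continuousAt_id.sub continuousAt_const).pow _)
      have hF0 : ∀ᶠ x in 𝓝[≠] (z : ℂ), F x = 0 := by
        filter_upwards [nhdsWithin_le_nhds hue, nhdsWithin_le_nhds hve,
          self_mem_nhdsWithin] with x h1 h2 h3
        simp only [smul_eq_mul] at h1 h2
        have hx : (x - z) ^ (a * n) ≠ 0 := pow_ne_zero _ (sub_ne_zero.mpr h3)
        refine (mul_eq_zero.mp ?_).resolve_left hx
        rw [← hfun x]
        simp only [F, mul_add, Finset.mul_sum, h1, h2, mul_pow, ← pow_mul]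
        refine congrArg _ (Finset.sum_congr rfl fun i hi => ?_)
        have hi' := Finset.mem_range.mp hi
        have : a * n + (m - a) * (n - i) = a * i + m * (n - i) := by
          zify [ham.le, hi'.le]; ring
        calc _ = ext (c i) x * u1 x ^ i * v1 x ^ (n - i) *
              ((x - z) ^ (a * n) * (x - z) ^ ((m - a) * (n - i))) := by ring
          _ = _ := by rw [← pow_add, this, pow_add]; ring
      have hzero : F z = 0 :=
        tendsto_nhds_unique (hFc.tendsto.mono_left nhdsWithin_le_nhds)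
          (tendsto_const_nhds.congr' (hF0.mono fun x hx => hx.symm))
      have hsum : F z = u1 z ^ n := by
        simp only [F]
        rw [Finset.sum_eq_zero, add_zero]
        intro i hi
        rw [sub_self, zero_pow (by
          have := Finset.mem_range.mp hi; exact Nat.mul_ne_zero (by omega) (by omega)), mul_zero]
      rw [hsum] at hzero
      exact eq_zero_of_pow_eq_zero hzero
  refine ⟨w, hw, huw, ?_⟩
  -- Clear the powers of `v` in the equation.
  have hfac : v ^ n * (w ^ n + ∑ i ∈ Finset.range n, c i * w ^ i) = 0 := by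
    rw [← h, huw, mul_add, Finset.mul_sum]
    congr 1
    · rw [mul_pow]; ring
    · refine Finset.sum_congr rfl fun i hi => ?_
      rw [mul_pow]
      conv_lhs => rw [← Nat.add_sub_cancel' (Finset.mem_range.mp hi).le, pow_add]
      ring
  have hr : MDiff (w ^ n + ∑ i ∈ Finset.range n, c i * w ^ i) :=
    (hw.pow n).add (MDifferentiable.sum fun i hi => (hc i (Finset.mem_range.mp hi)).mul (hw.pow i))
  rcases (UpperHalfPlane.mul_eq_zero_iff (hv.pow n) hr).mp hfac with h0 | h0
  · exact absurd (eq_zero_of_pow_eq_zero h0) hv0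
  · exact h0

/-- Bound for the roots of monic polynomials. -/
theorem norm_root_lt {n : ℕ} {x : ℂ} {c : ℕ → ℂ} {R : ℝ} (hR : 0 < R)
    (h : x ^ n + ∑ i ∈ Finset.range n, c i * x ^ i = 0)
    (hc : ∑ i ∈ Finset.range n, ‖c i‖ / R ^ (n - i) < 1) : ‖x‖ < R := by
  by_contra hx
  push Not at hx
  have hxpos : 0 < ‖x‖ := hR.trans_le hx
  have h1 : ‖x‖ ^ n ≤ ∑ i ∈ Finset.range n, ‖c i‖ * ‖x‖ ^ i := by
    calc ‖x‖ ^ n = ‖∑ i ∈ Finset.range n, c i * x ^ i‖ := by
          rw [← norm_pow, eq_neg_of_add_eq_zero_left h, norm_neg]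
      _ ≤ ∑ i ∈ Finset.range n, ‖c i * x ^ i‖ := norm_sum_le _ _
      _ = _ := by simp
  have h2 : ∑ i ∈ Finset.range n, ‖c i‖ * ‖x‖ ^ i ≤
      (∑ i ∈ Finset.range n, ‖c i‖ / R ^ (n - i)) * ‖x‖ ^ n := by
    rw [Finset.sum_mul]
    refine Finset.sum_le_sum fun i hi => ?_
    have hin := (Finset.mem_range.mp hi).le
    rw [div_mul_eq_mul_div, le_div_iff₀ (by positivity)]
    calc ‖c i‖ * ‖x‖ ^ i * R ^ (n - i) ≤ ‖c i‖ * ‖x‖ ^ i * ‖x‖ ^ (n - i) := by gcongr
      _ = _ := by rw [mul_assoc, ← pow_add, Nat.add_sub_cancel' hin]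
  have : 0 < ‖x‖ ^ n := by positivity
  nlinarith

/-- A pointwise root of a monic polynomial with coefficients tending to zero tends to zero. -/
theorem isZeroAtImInfty_of_root {n : ℕ} {w : ℍ → ℂ} {c : ℕ → ℍ → ℂ}
    (h : w ^ n + ∑ i ∈ Finset.range n, c i * w ^ i = 0)
    (hc : ∀ i < n, IsZeroAtImInfty (c i)) : IsZeroAtImInfty w := by
  rw [IsZeroAtImInfty, ZeroAtFilter, Metric.tendsto_nhds]
  intro ε hε
  have hsum : Tendsto (fun τ => ∑ i ∈ Finset.range n, ‖c i τ‖ / ε ^ (n - i)) atImInfty (𝓝 0) := by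
    have : Tendsto (fun τ => ∑ i ∈ Finset.range n, ‖c i τ‖ / ε ^ (n - i)) atImInfty
        (𝓝 (∑ i ∈ Finset.range n, (0 : ℝ))) := by
      refine tendsto_finsetSum _ fun i hi => ?_
      simpa using ((hc i (Finset.mem_range.mp hi)).norm).div_const (ε ^ (n - i))
    simpa using this
  filter_upwards [hsum.eventually (gt_mem_nhds zero_lt_one)] with τ hτ
  rw [dist_zero_right]
  refine norm_root_lt hε ?_ hτ
  simpa [Finset.sum_apply] using congrFun h τ

end Fermat.MC
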