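import Mathlib.NumberTheory.ModularForms.QExpansion
import Mathlib.NumberTheory.ModularForms.Discriminant
import Fermat.Prelude.Def_ModularCurve_LaurentCoeff
import Fermat.Agent.MC.Hol

/-!
# Periodic holomorphic functions of exponential growth and their Laurent q-expansions

`qL` expands a periodic function of exponential growth at `i∞`, injectively (`qL_injective`); `Jinv`
computes that of `j`, and all q-expansions of modular functions here are values of it.
-/

set_option autoImplicit false

noncomputable section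

open Filter Topology Asymptotics Function
open UpperHalfPlane hiding I
open scoped Manifold Real MatrixGroups

local notation "Δ" => ModularForm.discriminant

namespace Fermat.MC

/-- `f` grows at most exponentially at `i∞`. -/
def ExpGrowth (f : ℍ → ℂ) : Prop :=
  ∃ M : ℕ, f =O[atImInfty] fun τ : ℍ => Real.exp (2 * π * M * τ.im)

/-- A larger exponent also bounds. -/
lemma isBigO_exp_mono {f : ℍ → ℂ} {M M' : ℕ} (h : M ≤ M')
    (hf : f =O[atImInfty] fun τ : ℍ => Real.exp (2 * π * M * τ.im)) :
    f =O[atImInfty] fun τ : ℍ => Real.exp (2 * π * M' * τ.im) := by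
  refine hf.trans (IsBigO.of_bound 1 (Eventually.of_forall fun τ => ?_))
  rw [Real.norm_of_nonneg (Real.exp_pos _).le, Real.norm_of_nonneg (Real.exp_pos _).le, one_mul]
  have := τ.im_pos
  gcongr

/-- Bounded functions have exponential growth. -/
lemma ExpGrowth.of_isBoundedAtImInfty {f : ℍ → ℂ} (h : IsBoundedAtImInfty f) : ExpGrowth f :=
  ⟨0, h.trans (IsBigO.of_bound 1 (Eventually.of_forall fun τ => by simp))⟩

/-- Exponential growth is closed under sums. -/
lemma ExpGrowth.add {f g : ℍ → ℂ} (hf : ExpGrowth f) (hg : ExpGrowth g) : ExpGrowth (f + g) := by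
  obtain ⟨M, hM⟩ := hf
  obtain ⟨K, hK⟩ := hg
  exact ⟨max M K, (isBigO_exp_mono (le_max_left M K) hM).add
    (isBigO_exp_mono (le_max_right M K) hK)⟩

/-- Exponential growth is closed under products. -/
lemma ExpGrowth.mul {f g : ℍ → ℂ} (hf : ExpGrowth f) (hg : ExpGrowth g) : ExpGrowth (f * g) := by
  obtain ⟨M, hM⟩ := hf
  obtain ⟨K, hK⟩ := hg
  refine ⟨M + K, (hM.mul hK).congr_right fun τ => ?_⟩
  rw [← Real.exp_add]
  push_cast
  ring_nf

/-- Constants have exponential growth. -/
lemma ExpGrowth.const (c : ℂ) : ExpGrowth (fun _ => c) :=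
  .of_isBoundedAtImInfty (Filter.const_boundedAtFilter _ c)

/-- Exponential growth is closed under division by `Δ`. -/
lemma ExpGrowth.div_discriminant {f : ℍ → ℂ} (hf : ExpGrowth f) :
    ExpGrowth fun z => f z / Δ z := by
  obtain ⟨M, hM⟩ := hf
  refine ⟨M + 1, ?_⟩
  have h1 : (fun τ => (Δ τ)⁻¹) =O[atImInfty] fun τ : ℍ => Real.exp (2 * Real.pi * τ.im) := by
    have h := ModularForm.exp_isBigO_discriminant.inv_rev
      (Eventually.of_forall fun τ hτ => absurd hτ (Real.exp_pos _).ne')
    refine h.congr_right fun τ => ?_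
    rw [← Real.exp_neg]; ring_nf
  simp_rw [div_eq_mul_inv]
  refine (hM.mul h1).congr_right fun τ => ?_
  rw [← Real.exp_add]; push_cast; ring_nf

/-- Exponential growth is closed under finite products. -/
lemma ExpGrowth.prod {ι : Type*} {s : Finset ι} {f : ι → ℍ → ℂ}
    (h : ∀ i ∈ s, ExpGrowth (f i)) : ExpGrowth (∏ i ∈ s, f i) :=
  Finset.prod_induction _ _ (fun _ _ => ExpGrowth.mul) (ExpGrowth.const 1) h

/-- The algebra of `1`-periodic holomorphic functions of exponential growth at `i∞`. -/
def perAlg : Subalgebra ℂ (ℍ → ℂ) where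
  carrier := {f | MDiff f ∧ Periodic (ext f) 1 ∧ ExpGrowth f}
  mul_mem' := fun ⟨h1, h2, h3⟩ ⟨k1, k2, k3⟩ => ⟨h1.mul k1, h2.mul k2, h3.mul k3⟩
  add_mem' := fun ⟨h1, h2, h3⟩ ⟨k1, k2, k3⟩ => ⟨h1.add k1, h2.add k2, h3.add k3⟩
  algebraMap_mem' c :=
    ⟨mdifferentiable_const, fun _ => rfl, ExpGrowth.const c⟩

/-- A `1`-periodic holomorphic function, bounded at `i∞`. -/
def BddPer (f : ℍ → ℂ) : Prop := MDiff f ∧ Periodic (ext f) 1 ∧ IsBoundedAtImInfty f

/-- The cusp function is analytic at zero. -/
lemma BddPer.analyticAt {f : ℍ → ℂ} (h : BddPer f) : AnalyticAt ℂ (cuspFunction 1 f) 0 :=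
  analyticAt_cuspFunction_zero one_pos (by exact_mod_cast h.2.1) h.1 h.2.2

/-- A bounded periodic function tends to its value at infinity. -/
lemma BddPer.tendsto_valueAtInfty {f : ℍ → ℂ} (hf : BddPer f) :
    Tendsto f atImInfty (𝓝 (valueAtInfty f)) := by
  have h := exp_decay_sub_atImInfty one_pos (by exact_mod_cast hf.2.1) hf.1 hf.2.2
  have he : Tendsto (fun τ : ℍ => Real.exp (-2 * π * τ.im / 1)) atImInfty (𝓝 0) := by
    refine Real.tendsto_exp_atBot.comp ?_
    simp only [div_one]
    exact (tendsto_comap (f := UpperHalfPlane.im)).const_mul_atTop_of_neg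
      (by have := Real.pi_pos; linarith)
  simpa only [sub_add_cancel, zero_add] using (h.trans_tendsto he).add_const (valueAtInfty f)

/-- A bounded periodic function tends to its constant term. -/
lemma tendsto_cusp_atImInfty {f : ℍ → ℂ} (hf : BddPer f) :
    Tendsto f atImInfty (𝓝 ((qExpansion 1 f).coeff 0)) := by
  rw [qExpansion_coeff_zero one_pos hf.analyticAt (by exact_mod_cast hf.2.1)]
  exact hf.tendsto_valueAtInfty

/-- Bounded periodic functions lie in the algebra. -/
lemma BddPer.mem_perAlg {f : ℍ → ℂ} (h : BddPer f) : f ∈ perAlg :=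
  ⟨h.1, h.2.1, .of_isBoundedAtImInfty h.2.2⟩

/-- Modular forms with period one are periodic and bounded. -/
lemma bddPer_of_modularFormClass {k : ℤ} {Γ : Subgroup (GL (Fin 2) ℝ)} {F : Type*}
    [FunLike F ℍ ℂ] [ModularFormClass F Γ k] (f : F) (h1 : (1 : ℝ) ∈ Γ.strictPeriods) :
    BddPer (⇑f) :=
  haveI : Fact (IsCusp OnePoint.infty Γ) := ⟨Γ.isCusp_of_mem_strictPeriods one_pos h1⟩
  ⟨ModularFormClass.holo f,
    by exact_mod_cast SlashInvariantFormClass.periodic_comp_ofComplex f h1,
    ModularFormClass.bdd_at_infty f⟩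

/-- `Δ` is periodic and bounded. -/
lemma bddPer_discriminant : BddPer Δ :=
  bddPer_of_modularFormClass CuspForm.discriminant one_mem_strictPeriods_SL

/-- Bounded periodic functions are closed under products. -/
lemma BddPer.mul {f g : ℍ → ℂ} (h : BddPer f) (k : BddPer g) : BddPer (f * g) :=
  ⟨h.1.mul k.1, h.2.1.mul k.2.1, h.2.2.mul k.2.2⟩

/-- Bounded periodic functions are closed under sums. -/
lemma BddPer.add {f g : ℍ → ℂ} (h : BddPer f) (k : BddPer g) : BddPer (f + g) :=
  ⟨h.1.add k.1, h.2.1.add k.2.1, h.2.2.add k.2.2⟩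

/-- Constants are periodic and bounded. -/
lemma BddPer.const (c : ℂ) : BddPer (fun _ => c) :=
  ⟨mdifferentiable_const, fun _ => rfl, Filter.const_boundedAtFilter _ c⟩

/-- Bounded periodic functions are closed under powers. -/
lemma BddPer.pow {f : ℍ → ℂ} (h : BddPer f) (n : ℕ) : BddPer (f ^ n) := by
  induction n with
  | zero => exact pow_zero f ▸ BddPer.const 1
  | succ n ih => exact pow_succ f n ▸ ih.mul h

/-- A power of `Δ` makes a function of exponential growth bounded. -/
lemma exists_isBoundedAtImInfty_mul_discriminant_pow {f : ℍ → ℂ} (hf : ExpGrowth f) :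
    ∃ M : ℕ, IsBoundedAtImInfty (f * Δ ^ M) := by
  obtain ⟨M, hM⟩ := hf
  refine ⟨M, ?_⟩
  have h1 : Δ =O[atImInfty] fun τ : ℍ => Real.exp (-2 * π * τ.im) := by
    have := CuspFormClass.exp_decay_atImInfty (h := 1) CuspForm.discriminant one_pos
      one_mem_strictPeriods_SL
    simpa using this
  refine (hM.mul (h1.pow M)).trans (IsBigO.of_bound 1 (Eventually.of_forall fun τ => ?_))
  rw [← Real.exp_nat_mul, ← Real.exp_add]
  simp
  ring_nf
  simp

/-- The product is then periodic and bounded. -/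
lemma bddPer_mul_discriminant_pow {f : ℍ → ℂ} (hf : f ∈ perAlg) {M : ℕ}
    (hM : IsBoundedAtImInfty (f * Δ ^ M)) : BddPer (f * Δ ^ M) :=
  ⟨hf.1.mul (bddPer_discriminant.pow M).1, hf.2.1.mul (bddPer_discriminant.pow M).2.1, hM⟩

/-- The q-series of a bounded periodic function, as a Laurent series. -/
def qS (f : ℍ → ℂ) : LaurentSeries ℂ := HahnSeries.ofPowerSeries ℤ ℂ (qExpansion 1 f)

/-- The series is multiplicative. -/
lemma qS_mul {f g : ℍ → ℂ} (hf : BddPer f) (hg : BddPer g) : qS (f * g) = qS f * qS g := by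
  rw [qS, qExpansion_mul hf.analyticAt hg.analyticAt, map_mul, qS, qS]

/-- The series is additive. -/
lemma qS_add {f g : ℍ → ℂ} (hf : BddPer f) (hg : BddPer g) : qS (f + g) = qS f + qS g := by
  rw [qS, qExpansion_add hf.analyticAt hg.analyticAt, map_add, qS, qS]

/-- The series of a constant. -/
lemma qS_const (c : ℂ) : qS (fun _ => c) = algebraMap ℂ (LaurentSeries ℂ) c := by
  have h : qExpansion 1 (c • (1 : ℍ → ℂ)) = c • qExpansion 1 (1 : ℍ → ℂ) :=
    qExpansion_smul (f := (1 : ℍ → ℂ)) (BddPer.const 1).analyticAt c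
  rw [qExpansion_one] at h
  have h' : (c • (1 : ℍ → ℂ)) = fun _ => c := by ext; simp
  rw [h'] at h
  rw [qS, h, ModularCurve.algebraMap_laurentSeries_eq_single, PowerSeries.smul_eq_C_mul, mul_one,
    HahnSeries.ofPowerSeries_C]
  rfl

/-- The series of a power. -/
lemma qS_pow {f : ℍ → ℂ} (hf : BddPer f) (n : ℕ) : qS (f ^ n) = qS f ^ n := by
  induction n with
  | zero => rw [pow_zero, pow_zero]; exact (qS_const 1).trans (map_one _)
  | succ n ih => rw [pow_succ, pow_succ, qS_mul (hf.pow n) hf, ih]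

/-- The series determines the function. -/
lemma qS_eq_zero_iff {f : ℍ → ℂ} (hf : BddPer f) : qS f = 0 ↔ f = 0 := by
  rw [qS, ← map_zero (HahnSeries.ofPowerSeries ℤ ℂ),
    (HahnSeries.ofPowerSeries_injective).eq_iff]
  exact qExpansion_eq_zero_iff one_pos (by exact_mod_cast hf.2.1) hf.1 hf.2.2

/-- The series of `Δ` is nonzero. -/
lemma qS_discriminant_ne_zero : qS Δ ≠ 0 := fun h =>
  ModularForm.discriminant_ne_zero UpperHalfPlane.I
    (congrFun ((qS_eq_zero_iff bddPer_discriminant).mp h) UpperHalfPlane.I)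

/-- A choice of exponent making `f * Δ ^ M` bounded at `i∞`. -/
def growthExp (f : perAlg) : ℕ :=
  (exists_isBoundedAtImInfty_mul_discriminant_pow f.2.2.2).choose

/-- The chosen exponent works. -/
lemma growthExp_spec (f : perAlg) : IsBoundedAtImInfty ((f : ℍ → ℂ) * Δ ^ growthExp f) :=
  (exists_isBoundedAtImInfty_mul_discriminant_pow f.2.2.2).choose_spec

/-- The Laurent q-expansion, as a function. -/
def qLFun (f : perAlg) : LaurentSeries ℂ :=
  qS ((f : ℍ → ℂ) * Δ ^ growthExp f) / qS Δ ^ growthExp f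

/-- The expansion does not depend on the exponent. -/
lemma qLFun_eq (f : perAlg) {M : ℕ} (hM : IsBoundedAtImInfty ((f : ℍ → ℂ) * Δ ^ M)) :
    qLFun f = qS ((f : ℍ → ℂ) * Δ ^ M) / qS Δ ^ M := by
  rw [qLFun, div_eq_div_iff (pow_ne_zero _ qS_discriminant_ne_zero)
    (pow_ne_zero _ qS_discriminant_ne_zero), ← qS_pow bddPer_discriminant,
    ← qS_pow bddPer_discriminant,
    ← qS_mul (bddPer_mul_discriminant_pow f.2 (growthExp_spec f)) (bddPer_discriminant.pow _),
    ← qS_mul (bddPer_mul_discriminant_pow f.2 hM) (bddPer_discriminant.pow _)]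
  congr 1
  ring

/-- Larger exponents work too. -/
lemma isBounded_mul_pow_add {f : ℍ → ℂ} {M : ℕ} (hM : IsBoundedAtImInfty (f * Δ ^ M)) (K : ℕ) :
    IsBoundedAtImInfty (f * Δ ^ (M + K)) := by
  rw [pow_add, ← mul_assoc]
  exact hM.mul (bddPer_discriminant.pow K).2.2

/-- The Laurent q-expansion of periodic holomorphic functions of exponential growth. -/
def qL : perAlg →ₐ[ℂ] LaurentSeries ℂ where
  toFun := qLFun
  -- constants need no power of `Δ`
  map_one' := by
    have h : IsBoundedAtImInfty (((1 : perAlg) : ℍ → ℂ) * Δ ^ 0) := by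
      simp only [pow_zero, mul_one]
      exact (BddPer.const 1).2.2
    rw [qLFun_eq 1 h]
    simp only [pow_zero, mul_one, div_one]
    exact (qS_const 1).trans (map_one _)
  -- products and sums are compared at the sum of the exponents
  map_mul' f g := by
    have hf := growthExp_spec f
    have hg := growthExp_spec g
    have e : ((f * g : perAlg) : ℍ → ℂ) * Δ ^ (growthExp f + growthExp g) =
        ((f : ℍ → ℂ) * Δ ^ growthExp f) * ((g : ℍ → ℂ) * Δ ^ growthExp g) := by
      simp only [MulMemClass.coe_mul]; ring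
    have h : IsBoundedAtImInfty
        (((f * g : perAlg) : ℍ → ℂ) * Δ ^ (growthExp f + growthExp g)) := by
      rw [e]; exact hf.mul hg
    rw [qLFun_eq _ h, e, qS_mul (bddPer_mul_discriminant_pow f.2 hf)
      (bddPer_mul_discriminant_pow g.2 hg), pow_add, qLFun, qLFun, div_mul_div_comm]
  map_zero' := by
    have h0 : IsBoundedAtImInfty (((0 : perAlg) : ℍ → ℂ) * Δ ^ 0) := by
      simp only [pow_zero, mul_one]
      exact (BddPer.const 0).2.2
    rw [qLFun_eq 0 h0]
    simp only [pow_zero, mul_one, div_one]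
    exact (qS_const 0).trans (map_zero _)
  map_add' f g := by
    have hf := isBounded_mul_pow_add (growthExp_spec f) (growthExp g)
    have hg := isBounded_mul_pow_add (growthExp_spec g) (growthExp f)
    rw [add_comm (growthExp g)] at hg
    have e : ((f + g : perAlg) : ℍ → ℂ) * Δ ^ (growthExp f + growthExp g) =
        (f : ℍ → ℂ) * Δ ^ (growthExp f + growthExp g) +
          (g : ℍ → ℂ) * Δ ^ (growthExp f + growthExp g) := by
      simp only [AddMemClass.coe_add]; ring
    have h : IsBoundedAtImInfty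
        (((f + g : perAlg) : ℍ → ℂ) * Δ ^ (growthExp f + growthExp g)) := by
      rw [e]; exact hf.add hg
    rw [qLFun_eq _ h, qLFun_eq f hf, qLFun_eq g hg, e,
      qS_add (bddPer_mul_discriminant_pow f.2 hf) (bddPer_mul_discriminant_pow g.2 hg), add_div]
  commutes' c := by
    have h : IsBoundedAtImInfty (((algebraMap ℂ perAlg c : perAlg) : ℍ → ℂ) * Δ ^ 0) := by
      simp only [pow_zero, mul_one]
      exact (BddPer.const c).2.2
    rw [qLFun_eq _ h]
    simp only [pow_zero, mul_one, div_one]
    exact qS_const c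

/-- The expansion computed with any exponent. -/
lemma qL_apply (f : perAlg) {M : ℕ} (hM : IsBoundedAtImInfty ((f : ℍ → ℂ) * Δ ^ M)) :
    qL f = qS ((f : ℍ → ℂ) * Δ ^ M) / qS Δ ^ M := qLFun_eq f hM

/-- On bounded functions the two expansions agree. -/
lemma qL_eq_qS {f : ℍ → ℂ} (hf : BddPer f) : qL ⟨f, hf.mem_perAlg⟩ = qS f := by
  rw [qL_apply (M := 0) _ (by simpa using hf.2.2)]
  simp

/-- The expansion determines the function. -/
theorem qL_injective : Injective qL := by
  refine (injective_iff_map_eq_zero qL).mpr fun f hf => ?_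
  rw [qL_apply f (growthExp_spec f), div_eq_zero_iff,
    qS_eq_zero_iff (bddPer_mul_discriminant_pow f.2 (growthExp_spec f))] at hf
  rcases hf with hf | hf
  · ext z
    simpa [ModularForm.discriminant_ne_zero] using congrFun hf z
  · exact absurd (eq_zero_of_pow_eq_zero hf) qS_discriminant_ne_zero

end Fermat.MC
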