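import Mathlib.Analysis.Analytic.Order
import Mathlib.Analysis.Calculus.IteratedDeriv.Lemmas
import Mathlib.Analysis.Complex.CauchyIntegral
import Mathlib.Analysis.Calculus.FDeriv.Analytic
import Mathlib.RingTheory.PowerSeries.Basic
import Mathlib.RingTheory.PowerSeries.Order

/-!
# Taylor series of analytic germs as formal power series

The series is `taylorPS`, with order the analytic order by `order_taylorPS`.
-/

set_option autoImplicit false

noncomputable section

open Filter Topology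

namespace Fermat.MC

/-- The Taylor series of `f` at `z₀`. -/
def taylorPS (f : ℂ → ℂ) (z₀ : ℂ) : PowerSeries ℂ :=
  .mk fun m => (↑m.factorial)⁻¹ * iteratedDeriv m f z₀

/-- The coefficients of the Taylor series. -/
lemma coeff_taylorPS (f : ℂ → ℂ) (z₀ : ℂ) (m : ℕ) :
    (taylorPS f z₀).coeff m = (↑m.factorial)⁻¹ * iteratedDeriv m f z₀ := by
  simp [taylorPS]

/-- The series depends only on the germ. -/
lemma taylorPS_congr {f g : ℂ → ℂ} {z₀ : ℂ} (h : f =ᶠ[𝓝 z₀] g) :
    taylorPS f z₀ = taylorPS g z₀ := by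
  ext m
  simp only [coeff_taylorPS, h.iteratedDeriv_eq m]

/-- The constant term is the value. -/
lemma taylorPS_coeff_zero (f : ℂ → ℂ) (z₀ : ℂ) : (taylorPS f z₀).coeff 0 = f z₀ := by
  simp [coeff_taylorPS]

/-- The series of a constant. -/
lemma taylorPS_const (c z₀ : ℂ) : taylorPS (fun _ => c) z₀ = PowerSeries.C c := by
  ext m
  simp only [coeff_taylorPS, iteratedDeriv_const, PowerSeries.coeff_C]
  split <;> simp_all

/-- The series of a sum. -/
lemma taylorPS_add {f g : ℂ → ℂ} {z₀ : ℂ} (hf : AnalyticAt ℂ f z₀) (hg : AnalyticAt ℂ g z₀) :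
    taylorPS (f + g) z₀ = taylorPS f z₀ + taylorPS g z₀ := by
  ext m
  simp [coeff_taylorPS, iteratedDeriv_add hf.contDiffAt hg.contDiffAt, mul_add]

/-- The series of a product. -/
lemma taylorPS_mul {f g : ℂ → ℂ} {z₀ : ℂ} (hf : AnalyticAt ℂ f z₀) (hg : AnalyticAt ℂ g z₀) :
    taylorPS (f * g) z₀ = taylorPS f z₀ * taylorPS g z₀ := by
  ext m
  simp only [coeff_taylorPS, iteratedDeriv_mul hf.contDiffAt hg.contDiffAt, Finset.mul_sum,
    PowerSeries.coeff_mul, Finset.Nat.sum_antidiagonal_eq_sum_range_succ_mk, Nat.succ_eq_add_one]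
  refine Finset.sum_congr rfl fun i hi => ?_
  rw [Nat.cast_choose _ (by grind)]
  field_simp [Nat.factorial_ne_zero]

/-- The series of a finite product. -/
lemma taylorPS_prod {ι : Type*} {s : Finset ι} {f : ι → ℂ → ℂ} {z₀ : ℂ}
    (hf : ∀ i ∈ s, AnalyticAt ℂ (f i) z₀) :
    taylorPS (∏ i ∈ s, f i) z₀ = ∏ i ∈ s, taylorPS (f i) z₀ := by
  classical
  induction s using Finset.induction_on with
  | empty => simp only [Finset.prod_empty]; exact (taylorPS_const 1 z₀).trans (map_one _)
  | insert i t hi ih =>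
    rw [Finset.prod_insert hi, Finset.prod_insert hi,
      taylorPS_mul (hf i (Finset.mem_insert_self i t))
        (Finset.analyticAt_prod _ fun j hj => hf j (Finset.mem_insert_of_mem hj)),
      ih fun j hj => hf j (Finset.mem_insert_of_mem hj)]

/-- The series of a power. -/
lemma taylorPS_pow {f : ℂ → ℂ} {z₀ : ℂ} (hf : AnalyticAt ℂ f z₀) (n : ℕ) :
    taylorPS (f ^ n) z₀ = taylorPS f z₀ ^ n := by
  simpa using taylorPS_prod (s := Finset.range n) (f := fun _ => f) fun _ _ => hf

/-- The series of the identity. -/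
lemma taylorPS_id_zero : taylorPS id 0 = PowerSeries.X := by
  ext m
  simp only [coeff_taylorPS, PowerSeries.coeff_X, iteratedDeriv_id]
  rcases m with _ | _ | m <;> simp

/-- Bounds on the order of the series and of the function agree. -/
lemma natCast_le_order_taylorPS_iff {f : ℂ → ℂ} {z₀ : ℂ} (hf : AnalyticAt ℂ f z₀) (n : ℕ) :
    (n : ℕ∞) ≤ (taylorPS f z₀).order ↔ (n : ℕ∞) ≤ analyticOrderAt f z₀ := by
  rw [natCast_le_analyticOrderAt_iff_iteratedDeriv_eq_zero hf]
  refine ⟨fun h i hi => ?_, fun h => PowerSeries.nat_le_order _ _ fun i hi => ?_⟩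
  · have := PowerSeries.coeff_of_lt_order i (lt_of_lt_of_le (by exact_mod_cast hi) h)
    simpa [coeff_taylorPS, Nat.factorial_ne_zero] using this
  · simp [coeff_taylorPS, h i hi]

/-- The order of the series is the analytic order. -/
lemma order_taylorPS {f : ℂ → ℂ} {z₀ : ℂ} (hf : AnalyticAt ℂ f z₀) :
    (taylorPS f z₀).order = analyticOrderAt f z₀ :=
  ENat.eq_of_forall_natCast_le_iff (natCast_le_order_taylorPS_iff hf)

/-- The series vanishes iff the germ does. -/
lemma taylorPS_eq_zero_iff {f : ℂ → ℂ} {z₀ : ℂ} (hf : AnalyticAt ℂ f z₀) :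
    taylorPS f z₀ = 0 ↔ f =ᶠ[𝓝 z₀] 0 := by
  rw [← PowerSeries.order_eq_top, order_taylorPS hf, analyticOrderAt_eq_top]
  rfl

end Fermat.MC
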