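import Mathlib.NumberTheory.ModularForms.LevelOne.GradedRing
import Mathlib.NumberTheory.ModularForms.EisensteinSeries.QExpansion
import Mathlib.Analysis.Complex.LocallyUniformLimit
import Fermat.Prelude.Def_ModularCurve_X0
import Fermat.Agent.MC.Growth
import Fermat.Agent.MC.Taylor

/-!
# The analytic `j`-invariant and its q-expansion

`qL_jA`: the expansion of the analytic `j` is the formal series of the Prelude; with `jA_smul` this
makes `j` the coordinate on every level (`Gamma0`).
-/

set_option autoImplicit false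

noncomputable section

open Filter Topology Function
open UpperHalfPlane hiding I
open ModularForm (E₄ E₆)
open scoped Manifold MatrixGroups PowerSeries.WithPiTopology

local notation "Δ" => ModularForm.discriminant

namespace Fermat.MC

/-- An integral power series as a complex Laurent series. -/
def intPS : PowerSeries ℤ →+* LaurentSeries ℂ :=
  RingHom.comp (β := PowerSeries ℂ) (HahnSeries.ofPowerSeries ℤ ℂ)
    (PowerSeries.map (Int.castRingHom ℂ))

/-- The expansion is the Taylor series of the cusp function. -/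
lemma qExpansion_eq_taylorPS (f : ℍ → ℂ) :
    qExpansion 1 f = taylorPS (cuspFunction 1 f) 0 := rfl

/-- The finite partial products of the eta product. -/
def etaPartial (s : Finset ℕ) : ℂ → ℂ := ∏ i ∈ s, fun q => 1 - q ^ (i + 1)

/-- The factors are analytic. -/
lemma analyticAt_etaFactor (i : ℕ) (x : ℂ) :
    AnalyticAt ℂ (fun q : ℂ => 1 - q ^ (i + 1)) x := by fun_prop

/-- The Taylor series of a partial product. -/
lemma taylorPS_etaPartial (s : Finset ℕ) :
    taylorPS (etaPartial s) 0 =
      PowerSeries.map (Int.castRingHom ℂ) (∏ i ∈ s, (1 - PowerSeries.X ^ (i + 1))) := by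
  rw [etaPartial, taylorPS_prod fun i _ => analyticAt_etaFactor i 0, map_prod]
  refine Finset.prod_congr rfl fun i _ => ?_
  have : (fun q : ℂ => 1 - q ^ (i + 1)) = (fun _ => (1 : ℂ)) + (fun _ => (-1 : ℂ)) *
      id ^ (i + 1) := by
    ext q; simp; ring
  rw [this, taylorPS_add analyticAt_const (analyticAt_const.mul (analyticAt_id.pow _)),
    taylorPS_mul analyticAt_const (analyticAt_id.pow _), taylorPS_pow analyticAt_id,
    taylorPS_id_zero, taylorPS_const, taylorPS_const]
  simp [sub_eq_add_neg]

/-- The partial products of `∏ (1 - q ^ n)` converge with all derivatives in the unit disc. -/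
lemma tendsto_iteratedDeriv_etaPartial (m : ℕ) :
    TendstoLocallyUniformlyOn (fun s => iteratedDeriv m (etaPartial s))
      (iteratedDeriv m fun q => ∏' n : ℕ, (1 - q ^ (n + 1))) atTop (Metric.ball 0 1) := by
  induction m with
  | zero =>
    simp only [iteratedDeriv_zero]
    have h := ModularForm.multipliableLocallyUniformlyOn_one_sub_pow.hasProdLocallyUniformlyOn
    rw [hasProdLocallyUniformlyOn_iff_tendstoLocallyUniformlyOn] at h
    refine h.congr fun s q _ => ?_
    simp [etaPartial, Finset.prod_apply]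
  | succ m ih =>
    simp only [iteratedDeriv_succ]
    refine ih.deriv (Eventually.of_forall fun s => ?_) Metric.isOpen_ball
    intro x _
    have : AnalyticAt ℂ (etaPartial s) x :=
      Finset.analyticAt_prod _ fun i _ => analyticAt_etaFactor i x
    rw [iteratedDeriv_eq_iterate]
    exact (AnalyticAt.iterated_deriv this m).differentiableAt.differentiableWithinAt

/-- The Taylor series of the product is the formal Euler product. -/
lemma taylorPS_etaProd :
    taylorPS (fun q => ∏' n : ℕ, (1 - q ^ (n + 1))) 0 =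
      PowerSeries.map (Int.castRingHom ℂ) ModularCurve.etaProd := by
  ext m
  have h1 : Tendsto (fun s => (taylorPS (etaPartial s) 0).coeff m) atTop
      (𝓝 ((taylorPS (fun q => ∏' n : ℕ, (1 - q ^ (n + 1))) 0).coeff m)) := by
    simp only [coeff_taylorPS]
    exact ((tendsto_iteratedDeriv_etaPartial m).tendsto_at
      (Metric.mem_ball_self one_pos)).const_mul _
  have h2 : Tendsto (fun s => (taylorPS (etaPartial s) 0).coeff m) atTop
      (𝓝 ((PowerSeries.map (Int.castRingHom ℂ) ModularCurve.etaProd).coeff m)) := by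
    have hp := (PowerSeries.WithPiTopology.multipliable_one_sub_X_pow ℤ).hasProd
    have hc := ((PowerSeries.WithPiTopology.continuous_coeff ℤ m).tendsto _).comp hp
    simp only [taylorPS_etaPartial, PowerSeries.coeff_map]
    exact ((continuous_of_discreteTopology (f := fun n : ℤ =>
      (Int.castRingHom ℂ) n)).tendsto _).comp hc
  exact tendsto_nhds_unique h1 h2

/-- The expansion of `Δ`. -/
lemma qExpansion_discriminant :
    qExpansion 1 Δ = PowerSeries.X *
      PowerSeries.map (Int.castRingHom ℂ) ModularCurve.dedekindEtaUnit := by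
  rw [qExpansion_eq_taylorPS]
  have hball : Metric.ball (0 : ℂ) 1 ∈ 𝓝 (0 : ℂ) := Metric.ball_mem_nhds 0 one_pos
  have hP : AnalyticAt ℂ (fun q => ∏' n : ℕ, (1 - q ^ (n + 1))) (0 : ℂ) :=
    ModularForm.differentiableOn_tprod_one_sub_pow.analyticAt hball
  have h : cuspFunction 1 Δ =ᶠ[𝓝 0] id * (fun q => ∏' n : ℕ, (1 - q ^ (n + 1))) ^ 24 := by
    filter_upwards [hball] with q hq
    rw [ModularForm.discriminant_cuspFunction_eqOn hq]
    simp [(ModularForm.multipliable_one_sub_pow (by simpa using hq)).tprod_pow]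
  rw [taylorPS_congr h, taylorPS_mul analyticAt_id (hP.pow 24), taylorPS_pow hP, taylorPS_id_zero,
    taylorPS_etaProd, ModularCurve.dedekindEtaUnit, map_pow]

/-- The series of `Δ`. -/
lemma qS_discriminant :
    qS Δ = HahnSeries.single (1 : ℤ) 1 * intPS ModularCurve.dedekindEtaUnit := by
  rw [qS, qExpansion_discriminant, map_mul, HahnSeries.ofPowerSeries_X]
  rfl

/-- The expansion of `E₄` has integer coefficients. -/
lemma qExpansion_E₄ :
    qExpansion 1 E₄ = PowerSeries.map (Int.castRingHom ℂ) ModularCurve.eisenstein4 := by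
  ext m
  rw [EisensteinSeries.E_qExpansion_coeff (by norm_num) ⟨2, rfl⟩,
    show bernoulli 4 = -1 / 30 by decide +kernel, PowerSeries.coeff_map,
    ModularCurve.eisenstein4, PowerSeries.coeff_mk]
  split_ifs with h
  · simp
  · simp [ArithmeticFunction.sigma_apply]
    norm_num

/-- The q-expansion of `E₆` with integer coefficients. -/
def eisenstein6 : PowerSeries ℤ :=
  PowerSeries.mk fun n => if n = 0 then 1 else -504 * ∑ d ∈ n.divisors, (d : ℤ) ^ 5

/-- The expansion of `E₆` has integer coefficients. -/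
lemma qExpansion_E₆ :
    qExpansion 1 E₆ = PowerSeries.map (Int.castRingHom ℂ) eisenstein6 := by
  ext m
  rw [EisensteinSeries.E_qExpansion_coeff (by norm_num) ⟨3, rfl⟩,
    show bernoulli 6 = 1 / 42 by decide +kernel, PowerSeries.coeff_map,
    eisenstein6, PowerSeries.coeff_mk]
  split_ifs with h
  · simp
  · simp [ArithmeticFunction.sigma_apply]
    norm_num

/-- The series of `E₄`. -/
lemma qS_E₄ : qS E₄ = intPS ModularCurve.eisenstein4 := by
  rw [qS, qExpansion_E₄]; rfl

/-- The series of `E₆`. -/
lemma qS_E₆ : qS E₆ = intPS eisenstein6 := by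
  rw [qS, qExpansion_E₆]; rfl

/-- `E₄` is periodic and bounded. -/
lemma bddPer_E₄ : BddPer E₄ := bddPer_of_modularFormClass E₄ one_mem_strictPeriods_SL
/-- `E₆` is periodic and bounded. -/
lemma bddPer_E₆ : BddPer E₆ := bddPer_of_modularFormClass E₆ one_mem_strictPeriods_SL

/-- `E₄` tends to one. -/
lemma tendsto_E₄ : Tendsto (⇑E₄) atImInfty (𝓝 1) := by
  have h := tendsto_cusp_atImInfty bddPer_E₄
  rwa [EisensteinSeries.E_qExpansion_coeff_zero (by norm_num) ⟨2, rfl⟩] at h

/-- `E₆` tends to one. -/
lemma tendsto_E₆ : Tendsto (⇑E₆) atImInfty (𝓝 1) := by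
  have h := tendsto_cusp_atImInfty bddPer_E₆
  rwa [EisensteinSeries.E_qExpansion_coeff_zero (by norm_num) ⟨3, rfl⟩] at h

/-- The analytic `j`-invariant. -/
def jA : ℍ → ℂ := fun z => E₄ z ^ 3 / Δ z

/-- `j Δ = E₄³`. -/
lemma jA_mul_discriminant : jA * Δ = (⇑E₄) ^ 3 := by
  funext z
  simp [jA, ModularForm.discriminant_ne_zero]

/-- `j` is holomorphic. -/
lemma mdiff_jA : MDiff jA := by
  refine mdiff_of_analyticAt_ext fun z => ?_
  refine ((analyticAt_ext (ModularFormClass.holo E₄) z).pow 3).div
    (analyticAt_ext bddPer_discriminant.1 z) ?_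
  simpa [ext, ofComplex_apply] using ModularForm.discriminant_ne_zero z

/-- `j` has period one. -/
lemma periodic_jA : Periodic (ext jA) 1 := fun w => by
  simp only [ext, comp_apply, jA]
  rw [show E₄ (ofComplex (w + 1)) = E₄ (ofComplex w) from bddPer_E₄.2.1 w,
    show Δ (ofComplex (w + 1)) = Δ (ofComplex w) from bddPer_discriminant.2.1 w]

/-- `j Δ` is bounded at `∞`. -/
lemma jA_mul_discriminant_bounded : IsBoundedAtImInfty (jA * Δ ^ 1) := by
  rw [pow_one, jA_mul_discriminant]
  exact (bddPer_E₄.pow 3).2.2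

/-- `j` has exponential growth. -/
lemma expGrowth_jA : ExpGrowth jA := by
  have h := (ExpGrowth.of_isBoundedAtImInfty (bddPer_E₄.pow 3).2.2).div_discriminant
  rwa [show (fun τ => ((⇑E₄) ^ 3 : ℍ → ℂ) τ / Δ τ) = jA from funext fun τ => by simp [jA]] at h

/-- `j` is periodic of exponential growth. -/
lemma jA_mem_perAlg : jA ∈ perAlg := ⟨mdiff_jA, periodic_jA, expGrowth_jA⟩

/-- The formal series of `j` as `q⁻¹` times a power series. -/
lemma coeffEmb_jq :
    ModularCurve.coeffEmb ℂ ModularCurve.jq =
      HahnSeries.single (-1 : ℤ) 1 * intPS ModularCurve.jNum := by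
  rw [ModularCurve.jq, map_mul, ModularCurve.coeffEmb, ModularCurve.coeffMap_single, map_one]
  congr 1
  ext k
  rw [ModularCurve.coeffMap_coeff]
  rcases le_or_gt 0 k with hk | hk
  · lift k to ℕ using hk
    simp [intPS, ModularCurve.jNumQ, HahnSeries.ofPowerSeries_apply_coeff, PowerSeries.coeff_map]
  · simp [intPS, ModularCurve.ofPowerSeries_coeff_of_neg _ hk]

/-- The expansion of `j` is the formal series. -/
theorem qL_jA : qL ⟨jA, jA_mem_perAlg⟩ = ModularCurve.coeffEmb ℂ ModularCurve.jq := by
  rw [qL_apply (M := 1) _ jA_mul_discriminant_bounded, coeffEmb_jq]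
  simp only [pow_one]
  rw [jA_mul_discriminant, qS_pow bddPer_E₄, qS_E₄, ← map_pow, qS_discriminant,
    div_eq_iff (by rw [← qS_discriminant]; exact qS_discriminant_ne_zero)]
  rw [ModularCurve.jNum, show HahnSeries.single (-1 : ℤ) (1 : ℂ) *
      intPS (ModularCurve.eisenstein4 ^ 3 * ModularCurve.dedekindEtaUnitInv) *
      (HahnSeries.single (1 : ℤ) 1 * intPS ModularCurve.dedekindEtaUnit) =
      (HahnSeries.single (-1 : ℤ) (1 : ℂ) * HahnSeries.single (1 : ℤ) 1) *
        intPS (ModularCurve.eisenstein4 ^ 3 *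
          (ModularCurve.dedekindEtaUnit * ModularCurve.dedekindEtaUnitInv)) by
    simp only [map_mul, map_pow]; ring]
  rw [ModularCurve.dedekindEtaUnit_mul_inv]
  simp

/-- `j` is invariant under the modular group. -/
lemma jA_smul (γ : SL(2, ℤ)) (z : ℍ) : jA (γ • z) = jA z := by
  have h4 : E₄ (γ • z) = denom γ z ^ (4 : ℤ) * E₄ z :=
    SlashInvariantForm.slash_action_eqn'' E₄ (MonoidHom.mem_range.mpr ⟨γ, rfl⟩) z
  have hD : Δ (γ • z) = denom γ z ^ (12 : ℤ) * Δ z :=
    SlashInvariantForm.slash_action_eqn'' CuspForm.discriminant (MonoidHom.mem_range.mpr ⟨γ, rfl⟩) z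
  have hd : denom γ z ≠ 0 := denom_ne_zero γ z
  simp only [jA, h4, hD, mul_pow]
  rw [← zpow_natCast (denom γ z ^ (4 : ℤ)) 3, ← zpow_mul]
  norm_num
  field_simp [ModularForm.discriminant_ne_zero]

end Fermat.MC
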