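import Mathlib.NumberTheory.ModularForms.CongruenceSubgroups
import Fermat.Agent.MC.Jinv

/-!
# The algebras of weakly holomorphic modular functions of a level, and the function `j (N τ)`

`W N` is the algebra of level `Γ₀(N)`; `jN_mem_W` and `mem_Gamma0_of_compSL_jN_eq` show that `j (N
τ)` belongs to it and has stabiliser exactly `Γ₀(N)`.
-/

set_option autoImplicit false

noncomputable section

open Filter Topology Function Asymptotics
open UpperHalfPlane hiding I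
open CongruenceSubgroup
open scoped Manifold MatrixGroups Real

local notation "Δ" => ModularForm.discriminant

namespace Fermat.MC

/-- Translate of a function on `ℍ` by an element of `SL(2, ℤ)`. -/
def compSL (γ : SL(2, ℤ)) (f : ℍ → ℂ) : ℍ → ℂ := fun z => f (γ • z)

/-- The value of a translate. -/
lemma compSL_apply (γ : SL(2, ℤ)) (f : ℍ → ℂ) (z : ℍ) : compSL γ f z = f (γ • z) := rfl

/-- Translation is a right action. -/
lemma compSL_mul (γ δ : SL(2, ℤ)) (f : ℍ → ℂ) : compSL (γ * δ) f = compSL δ (compSL γ f) := by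
  funext z; simp [compSL, mul_smul]

/-- Translates of holomorphic functions are holomorphic. -/
lemma mdiff_compSL (γ : SL(2, ℤ)) {f : ℍ → ℂ} (hf : MDiff f) : MDiff (compSL γ f) :=
  hf.comp (UpperHalfPlane.mdifferentiable_smul (g := (γ : GL (Fin 2) ℝ)) (by simp))

/-- Invariance under `T` gives period one. -/
lemma ext_add_one (f : ℍ → ℂ) (h : ∀ z : ℍ, f (ModularGroup.T • z) = f z) : Periodic (ext f) 1 := by
  intro w
  by_cases hw : 0 < w.im
  · have hw' : 0 < (w + 1).im := by simpa using hw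
    simp only [ext, comp_apply, ofComplex_apply_of_im_pos hw, ofComplex_apply_of_im_pos hw']
    rw [← h ⟨w, hw⟩]
    congr 1
    apply UpperHalfPlane.ext
    change w + 1 = ((ModularGroup.T • (⟨w, hw⟩ : ℍ) : ℍ) : ℂ)
    rw [modular_T_smul]
    simp [add_comm]
  · push Not at hw
    have hw' : (w + 1).im ≤ 0 := by simpa using hw
    simp [ext, ofComplex_apply_of_im_nonpos hw, ofComplex_apply_of_im_nonpos hw']

namespace Lvl

/-- A level: a subgroup of finite index containing the translation `T`. -/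
class LevelBase (G : Subgroup SL(2, ℤ)) : Prop where
  /-- The level has finite index. -/
  finiteIndex : G.FiniteIndex
  /-- The level contains the translation. -/
  T_mem : ModularGroup.T ∈ G

/-- Weakly holomorphic modular functions on `G`. -/
def W (G : Subgroup SL(2, ℤ)) : Subalgebra ℂ (ℍ → ℂ) where
  carrier := {f | MDiff f ∧ (∀ γ ∈ G, compSL γ f = f) ∧ ∀ γ, ExpGrowth (compSL γ f)}
  mul_mem' := fun ⟨h1, h2, h3⟩ ⟨k1, k2, k3⟩ =>
    ⟨h1.mul k1, fun γ hγ => congrArg₂ (· * ·) (h2 γ hγ) (k2 γ hγ), fun γ => (h3 γ).mul (k3 γ)⟩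
  add_mem' := fun ⟨h1, h2, h3⟩ ⟨k1, k2, k3⟩ =>
    ⟨h1.add k1, fun γ hγ => congrArg₂ (· + ·) (h2 γ hγ) (k2 γ hγ), fun γ => (h3 γ).add (k3 γ)⟩
  algebraMap_mem' c :=
    ⟨mdifferentiable_const, fun _ _ => rfl, fun _ => ExpGrowth.const c⟩

/-- Smaller levels have more functions. -/
lemma W_anti {G G' : Subgroup SL(2, ℤ)} (h : G' ≤ G) : W G ≤ W G' :=
  fun _ hf => ⟨hf.1, fun γ hγ => hf.2.1 γ (h hγ), hf.2.2⟩

/-- Modular functions are periodic of exponential growth. -/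
lemma W_le_perAlg (G : Subgroup SL(2, ℤ)) [LevelBase G] : W G ≤ perAlg := fun f hf =>
  ⟨hf.1, ext_add_one f fun z => congrFun (hf.2.1 _ LevelBase.T_mem) z, by
    have h := hf.2.2 1
    rwa [show compSL 1 f = f from funext fun z => by simp [compSL]] at h⟩

/-- The q-expansion on `W G`. -/
def qW (G : Subgroup SL(2, ℤ)) [LevelBase G] : W G →ₐ[ℂ] LaurentSeries ℂ :=
  qL.comp (Subalgebra.inclusion (W_le_perAlg G))

/-- A modular function is determined by its expansion. -/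
lemma qW_injective (G : Subgroup SL(2, ℤ)) [LevelBase G] : Injective (qW G) :=
  qL_injective.comp (Subalgebra.inclusion_injective (W_le_perAlg G))

/-- The expansion is that of periodic functions. -/
lemma qW_apply {G : Subgroup SL(2, ℤ)} [LevelBase G] (f : W G) :
    qW G f = qL ⟨f, W_le_perAlg G f.2⟩ := rfl

end Lvl

/-- Weakly holomorphic modular functions on `Γ₀(N)`. -/
abbrev W (N : ℕ) : Subalgebra ℂ (ℍ → ℂ) := Lvl.W (Gamma0 N)

/-- `T` lies in `Γ₀(N)`. -/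
lemma T_mem_Gamma0 (N : ℕ) : ModularGroup.T ∈ Gamma0 N := by
  rw [Gamma0_mem]; simp [ModularGroup.coe_T]

/-- `Γ₀(N)` is a level. -/
instance Lvl.levelBase_Gamma0 (N : ℕ) [NeZero N] : Lvl.LevelBase (Gamma0 N) :=
  ⟨inferInstance, T_mem_Gamma0 N⟩

/-- `Γ₀(1)` is the whole modular group. -/
lemma Gamma0_one : Gamma0 1 = ⊤ := by
  ext γ; simp [Gamma0_mem, eq_iff_true_of_subsingleton]

/-- Criterion for membership at level one. -/
lemma mem_W_one {f : ℍ → ℂ} (h1 : MDiff f) (h2 : ∀ (γ : SL(2, ℤ)) z, f (γ • z) = f z)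
    (h3 : ExpGrowth f) : f ∈ W 1 :=
  ⟨h1, fun γ _ => funext (h2 γ), fun γ => by rwa [show compSL γ f = f from funext (h2 γ)]⟩

/-- `j` has every level. -/
lemma Lvl.jA_mem_W (G : Subgroup SL(2, ℤ)) : jA ∈ Lvl.W G :=
  Lvl.W_anti (G := Gamma0 1) (by rw [Gamma0_one]; exact le_top)
    (mem_W_one mdiff_jA jA_smul expGrowth_jA)

/-- The affine map `z ↦ (g z + b) / d`. -/
def affH (g : {x : ℝ // 0 < x}) (b : ℝ) (z : ℍ) : ℍ := b +ᵥ g • z

/-- The affine map in coordinates. -/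
lemma coe_affH (g : {x : ℝ // 0 < x}) (b : ℝ) (z : ℍ) :
    (affH g b z : ℂ) = (g : ℝ) * (z : ℂ) + b := by
  simp [affH, add_comm]

/-- The imaginary part of the affine map. -/
lemma im_affH (g : {x : ℝ // 0 < x}) (b : ℝ) (z : ℍ) : (affH g b z).im = g * z.im := by
  simp [affH]

/-- Affine maps fix the cusp `∞`. -/
lemma tendsto_affH (g : {x : ℝ // 0 < x}) (b : ℝ) :
    Tendsto (affH g b) atImInfty atImInfty := by
  rw [atImInfty, tendsto_comap_iff]
  refine (Tendsto.const_mul_atTop g.2 (tendsto_comap (f := UpperHalfPlane.im))).congr fun z => ?_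
  simp [im_affH]

/-- Exponential growth is preserved by affine substitutions. -/
lemma ExpGrowth.comp_affH {f : ℍ → ℂ} (hf : ExpGrowth f) (g : {x : ℝ // 0 < x}) (b : ℝ) :
    ExpGrowth (f ∘ affH g b) := by
  obtain ⟨M, hM⟩ := hf
  refine ⟨M * ⌈(g : ℝ)⌉₊, (hM.comp_tendsto (tendsto_affH g b)).trans
    (IsBigO.of_bound 1 (Eventually.of_forall fun z => ?_))⟩
  simp only [Function.comp_apply, im_affH, Real.norm_eq_abs, Real.abs_exp, one_mul]
  apply Real.exp_le_exp.mpr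
  have : (g : ℝ) ≤ ⌈(g : ℝ)⌉₊ := Nat.le_ceil _
  push_cast
  calc 2 * π * M * ((g : ℝ) * z.im) = (2 * π * M * z.im) * g := by ring
    _ ≤ (2 * π * M * z.im) * ⌈(g : ℝ)⌉₊ :=
        mul_le_mul_of_nonneg_left this (by have := z.im_pos; positivity)
    _ = _ := by ring

/-- Holomorphy is preserved by affine substitutions. -/
lemma mdiff_comp_affH {f : ℍ → ℂ} (hf : MDiff f) (g : {x : ℝ // 0 < x}) (b : ℝ) :
    MDiff (f ∘ affH g b) := by
  refine mdiff_of_analyticAt_ext fun z => ?_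
  have h : ext (f ∘ affH g b) =ᶠ[𝓝 (z : ℂ)] fun w => ext f ((g : ℝ) * w + b) := by
    filter_upwards [isOpen_upperHalfPlaneSet.mem_nhds z.im_pos] with w hw
    have hw1 : 0 < w.im := hw
    simp only [ext, comp_apply, ofComplex_apply_of_im_pos hw1]
    have hw' : 0 < (((g : ℝ) : ℂ) * w + (b : ℂ)).im := by simpa using mul_pos g.2 hw1
    rw [ofComplex_apply_of_im_pos hw']
    congr 1
    apply UpperHalfPlane.ext
    simp [coe_affH]
  refine AnalyticAt.congr (f := fun w => ext f ((g : ℝ) * w + b)) ?_ h.symm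
  have h1 : AnalyticAt ℂ (ext f) (((g : ℝ) : ℂ) * (z : ℂ) + b) := by
    have := analyticAt_ext hf (affH g b z)
    rwa [coe_affH] at this
  exact h1.comp (f := fun w : ℂ => ((g : ℝ) : ℂ) * w + b) (by fun_prop)

variable (N : ℕ) [NeZero N]

/-- `N`, as a positive real number. -/
def posN : {x : ℝ // 0 < x} := ⟨N, by exact_mod_cast NeZero.pos N⟩

/-- `j (N z)`. -/
def jN : ℍ → ℂ := jA ∘ affH (posN N) 0

/-- `diag (N, 1)` times a matrix of `SL(2, ℤ)` is one of `SL(2, ℤ)` times a triangular matrix of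
determinant `N`. -/
lemma exists_decomp (γ : SL(2, ℤ)) : ∃ (δ : SL(2, ℤ)) (g b d : ℤ), 0 < g ∧ 0 < d ∧ g * d = N ∧
    (N : ℤ) * γ 0 0 = δ 0 0 * g ∧ (N : ℤ) * γ 0 1 = δ 0 0 * b + δ 0 1 * d ∧
    γ 1 0 = δ 1 0 * g ∧ γ 1 1 = δ 1 0 * b + δ 1 1 * d := by
  set a := (N : ℤ) * γ 0 0 with ha
  set c := γ 1 0 with hc
  have hdet : γ 0 0 * γ 1 1 - γ 0 1 * c = 1 := by
    have := γ.det_coe; rwa [Matrix.det_fin_two] at this
  have hN : (0 : ℤ) < N := by exact_mod_cast NeZero.pos N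
  -- `g` is the gcd of the first column of the product
  have hne : a ≠ 0 ∨ c ≠ 0 := by
    by_contra! h
    have h0 : γ 0 0 = 0 := (mul_eq_zero.mp h.1).resolve_left hN.ne'
    rw [h0, h.2] at hdet; simp at hdet
  set g : ℤ := (Int.gcd a c : ℤ) with hg
  have hgpos : 0 < g := by
    have h : Int.gcd a c ≠ 0 := by simpa [Int.gcd_eq_zero_iff, imp_iff_not_or] using hne
    rw [hg]; exact_mod_cast Nat.pos_of_ne_zero h
  obtain ⟨p, hp⟩ : g ∣ a := Int.gcd_dvd_left a c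
  obtain ⟨r, hr⟩ : g ∣ c := Int.gcd_dvd_right a c
  set x := Int.gcdA a c
  set y := Int.gcdB a c
  -- Bézout gives the matrix `δ`, and `b` and `d` follow by applying its inverse
  have hbez : p * x + r * y = 1 := by
    have h : g = a * x + c * y := Int.gcd_eq_gcd_ab a c
    refine mul_left_cancel₀ hgpos.ne' ?_
    linear_combination -(x * hp) - (y * hr) - h
  refine ⟨⟨!![p, -y; r, x], by rw [Matrix.det_fin_two_of]; linarith⟩, g,
    x * ((N : ℤ) * γ 0 1) + y * γ 1 1, -r * ((N : ℤ) * γ 0 1) + p * γ 1 1, hgpos, ?_, ?_, ?_, ?_,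
    ?_, ?_⟩
  · have h : g * (-r * ((N : ℤ) * γ 0 1) + p * γ 1 1) = N := by
      linear_combination (N : ℤ) * hdet + ((N : ℤ) * γ 0 1) * hr - γ 1 1 * hp + γ 1 1 * ha
    by_contra! hd
    nlinarith
  · linear_combination (N : ℤ) * hdet + ((N : ℤ) * γ 0 1) * hr - γ 1 1 * hp + γ 1 1 * ha
  · simp [hp]; ring
  · simp; linear_combination -((N : ℤ) * γ 0 1) * hbez
  · simp [hr]; ring
  · simp; linear_combination -(γ 1 1) * hbez

/-- The corresponding identity for the action on the upper half plane. -/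
lemma affH_posN_smul (γ δ : SL(2, ℤ)) {g b d : ℤ} (hg : 0 < g) (hd : 0 < d)
    (h1 : (N : ℤ) * γ 0 0 = δ 0 0 * g) (h2 : (N : ℤ) * γ 0 1 = δ 0 0 * b + δ 0 1 * d)
    (h3 : γ 1 0 = δ 1 0 * g) (h4 : γ 1 1 = δ 1 0 * b + δ 1 1 * d) (z : ℍ) :
    affH (posN N) 0 (γ • z) =
      δ • affH ⟨(g : ℝ) / d, div_pos (by exact_mod_cast hg) (by exact_mod_cast hd)⟩ (b / d) z := by
  apply UpperHalfPlane.ext
  simp only [coe_affH, coe_specialLinearGroup_apply, algebraMap_int_eq, eq_intCast, posN]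
  push_cast
  have hd' : (d : ℂ) ≠ 0 := by exact_mod_cast hd.ne'
  have e1 : (N : ℂ) * (γ 0 0 : ℤ) = (δ 0 0 : ℤ) * g := by exact_mod_cast h1
  have e2 : (N : ℂ) * (γ 0 1 : ℤ) = (δ 0 0 : ℤ) * b + (δ 0 1 : ℤ) * d := by exact_mod_cast h2
  have e3 : ((γ 1 0 : ℤ) : ℂ) = (δ 1 0 : ℤ) * g := by exact_mod_cast h3
  have e4 : ((γ 1 1 : ℤ) : ℂ) = (δ 1 0 : ℤ) * b + (δ 1 1 : ℤ) * d := by exact_mod_cast h4
  rw [add_zero, mul_div_assoc']
  rw [show (N : ℂ) * ((γ 0 0 : ℤ) * (z : ℂ) + (γ 0 1 : ℤ)) =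
      ((N : ℂ) * (γ 0 0 : ℤ)) * z + (N : ℂ) * (γ 0 1 : ℤ) by ring, e1, e2, e3, e4]
  field_simp
  ring_nf

/-- `j (N z)` is invariant under `Γ₀(N)`. -/
lemma jN_smul {γ : SL(2, ℤ)} (hγ : γ ∈ Gamma0 N) (z : ℍ) : jN N (γ • z) = jN N z := by
  rw [Gamma0_mem, ZMod.intCast_zmod_eq_zero_iff_dvd] at hγ
  obtain ⟨c, hc⟩ := hγ
  have hdet : γ 0 0 * γ 1 1 - γ 0 1 * γ 1 0 = 1 := by
    have := γ.det_coe; rwa [Matrix.det_fin_two] at this
  let δ : SL(2, ℤ) := ⟨!![γ 0 0, (N : ℤ) * γ 0 1; c, γ 1 1], by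
    rw [Matrix.det_fin_two_of]; linear_combination hdet + γ 0 1 * hc⟩
  have hN : (0 : ℤ) < N := by exact_mod_cast NeZero.pos N
  simp only [jN, comp_apply]
  rw [affH_posN_smul N γ δ (g := N) (b := 0) (d := 1) hN one_pos (by simp [δ]; ring)
    (by simp [δ]) (by simp [δ, hc]; ring) (by simp [δ]), jA_smul]
  simp [posN]

/-- Every translate of `j (N z)` is `j ((g z + b) / d)` with `g d = N`, and `g = N` only from
`Γ₀(N)`. -/
lemma exists_affH_compSL_jN (γ : SL(2, ℤ)) :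
    ∃ g b d : ℤ, ∃ hg : 0 < g, ∃ hd : 0 < d, g * d = N ∧ compSL γ (jN N) =
      jA ∘ affH ⟨(g : ℝ) / d, div_pos (by exact_mod_cast hg) (by exact_mod_cast hd)⟩ (b / d) ∧
      (g = N → γ ∈ Gamma0 N) := by
  obtain ⟨δ, g, b, d, hg, hd, hgd, h1, h2, h3, h4⟩ := exists_decomp N γ
  refine ⟨g, b, d, hg, hd, hgd, funext fun z => ?_, fun h => ?_⟩
  · simp only [compSL, jN, comp_apply]
    rw [affH_posN_smul N γ δ hg hd h1 h2 h3 h4, jA_smul]
  · rw [Gamma0_mem, h3, h]; simp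

/-- `j (N z)` is a modular function of level `N`. -/
lemma jN_mem_W : jN N ∈ W N := by
  refine ⟨mdiff_comp_affH mdiff_jA _ _, fun γ hγ => funext fun z => jN_smul N hγ z, fun γ => ?_⟩
  obtain ⟨g, b, d, hg, hd, -, h, -⟩ := exists_affH_compSL_jN N γ
  rw [h]
  exact expGrowth_jA.comp_affH _ _

/-- `|j|` grows like `exp (2 π Im τ)` at `∞`. -/
lemma isTheta_jA : jA =Θ[atImInfty] fun τ : ℍ => Real.exp (2 * π * τ.im) := by
  have hE : Tendsto (⇑ModularForm.E₄ ^ 3 : ℍ → ℂ) atImInfty (𝓝 1) := by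
    have h := tendsto_E₄.pow 3
    rwa [one_pow] at h
  have hEθ : (⇑ModularForm.E₄ ^ 3 : ℍ → ℂ) =Θ[atImInfty] fun _ : ℍ => (1 : ℝ) := by
    have h1 : (⇑ModularForm.E₄ ^ 3 : ℍ → ℂ) ~[atImInfty] Function.const ℍ (1 : ℂ) :=
      (Asymptotics.isEquivalent_const_iff_tendsto one_ne_zero).mpr hE
    exact h1.isTheta.trans (isTheta_const_const one_ne_zero one_ne_zero)
  have hD : Δ =Θ[atImInfty] fun τ : ℍ => Real.exp (-2 * π * τ.im) := by
    refine ⟨?_, ModularForm.exp_isBigO_discriminant⟩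
    simpa using CuspFormClass.exp_decay_atImInfty (h := 1) CuspForm.discriminant one_pos
      one_mem_strictPeriods_SL
  have := hEθ.div hD
  refine this.trans (Filter.EventuallyEq.isTheta (Eventually.of_forall fun τ => ?_))
  simp only [one_div, ← Real.exp_neg]; ring_nf

/-- Only `Γ₀(N)` fixes `j (N τ)`. -/
lemma mem_Gamma0_of_compSL_jN_eq {γ : SL(2, ℤ)} (h : compSL γ (jN N) = jN N) : γ ∈ Gamma0 N := by
  -- `j (N τ)` transformed by `γ` is `j` of `(g τ + b) / d` with `g d = N`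
  obtain ⟨g, b, d, hg, hd, hgd, h', hmem⟩ := exists_affH_compSL_jN N γ
  apply hmem
  have hg' : (0 : ℝ) < g := by exact_mod_cast hg
  have hd' : (0 : ℝ) < d := by exact_mod_cast hd
  -- compare the growth at infinity of the two sides
  have e1 : (jA ∘ affH ⟨(g : ℝ) / d, div_pos hg' hd'⟩ ((b : ℝ) / d)) =Θ[atImInfty]
      ((fun τ : ℍ => Real.exp (2 * π * τ.im)) ∘
        affH ⟨(g : ℝ) / d, div_pos hg' hd'⟩ ((b : ℝ) / d)) :=
    ⟨isTheta_jA.1.comp_tendsto (tendsto_affH _ _), isTheta_jA.2.comp_tendsto (tendsto_affH _ _)⟩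
  have e2 : (jA ∘ affH (posN N) 0) =Θ[atImInfty]
      ((fun τ : ℍ => Real.exp (2 * π * τ.im)) ∘ affH (posN N) 0) :=
    ⟨isTheta_jA.1.comp_tendsto (tendsto_affH _ _), isTheta_jA.2.comp_tendsto (tendsto_affH _ _)⟩
  rw [h] at h'
  rw [← h'] at e1
  have e := e1.symm.trans e2
  simp only [Function.comp_def, im_affH, posN] at e
  rw [Real.isTheta_exp_comp_exp_comp] at e
  obtain ⟨C, hC⟩ := e
  rw [eventually_map, Filter.Eventually, atImInfty_mem] at hC
  obtain ⟨A, hA⟩ := hC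
  -- equal growth forces `g / d = N`, hence `d = ±1`
  have hkey : (g : ℝ) / d = N := by
    by_contra hne
    set t := max (max A 1) ((|C| + 1) / (2 * π * |(g : ℝ) / d - N|)) with ht
    have ht0 : 0 < t := lt_max_of_lt_left (lt_max_of_lt_right one_pos)
    have := hA ⟨⟨0, t⟩, ht0⟩ (by simp [ht, UpperHalfPlane.im])
    simp only [Set.mem_ofPred_eq] at this
    rw [show (⟨⟨0, t⟩, ht0⟩ : ℍ).im = t from rfl] at this
    rw [show 2 * π * ((g : ℝ) / d * t) - 2 * π * ((N : ℝ) * t) =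
      (2 * π * t) * ((g : ℝ) / d - N) by ring, abs_mul, abs_of_pos (by positivity)] at this
    have h2 : (|C| + 1) / (2 * π * |(g : ℝ) / d - N|) ≤ t := le_max_right _ _
    rw [div_le_iff₀ (by positivity)] at h2
    nlinarith [le_abs_self C]
  rw [div_eq_iff hd'.ne'] at hkey
  have hk : g = (N : ℤ) * d := by exact_mod_cast hkey
  have hN : (0 : ℤ) < N := by exact_mod_cast NeZero.pos N
  have : d * d = 1 := by
    apply mul_left_cancel₀ hN.ne'
    linear_combination hgd - d * hk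
  rcases mul_self_eq_one_iff.mp this with hh | hh <;> [simp [hk, hh]; omega]

end Fermat.MC
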