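import Mathlib.NumberTheory.ModularForms.QExpansion
import Fermat.Prelude.Def_ModularCurve_X0
import Fermat.Prelude.Thm_ModularCurve_coeffMap_qExpand
import Fermat.Agent.MC.Gamma0

/-!
# The q-expansion of `f (N τ)`

The main results are `qL_comp_posN` and `qW_jN`.
-/

set_option autoImplicit false

noncomputable section

open Filter Function Asymptotics
open UpperHalfPlane hiding I
open ModularCurve (qExpand)
open scoped Manifold MatrixGroups

local notation "Δ" => ModularForm.discriminant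

namespace Fermat.MC

variable (N : ℕ) [NeZero N]

/-- Scaling preserves periodic functions bounded at `∞`. -/
lemma BddPer.comp_posN {f : ℍ → ℂ} (h : BddPer f) : BddPer (f ∘ affH (posN N) 0) := by
  refine ⟨mdiff_comp_affH h.1 _ _, ext_add_one _ fun z => ?_,
    IsBigO.comp_tendsto h.2.2 (tendsto_affH _ _)⟩
  have hz := h.2.1.nat_mul N ((affH (posN N) 0 z : ℍ) : ℂ)
  rw [show ((affH (posN N) 0 z : ℍ) : ℂ) + (N : ℕ) * 1 =
      ((affH (posN N) 0 (ModularGroup.T • z) : ℍ) : ℂ) by
    rw [modular_T_smul]; simp [coe_affH, posN]; ring] at hz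
  simpa [ext] using hz

/-- A type synonym providing a `FunLike` structure on plain functions. -/
def FnOnH : Type := ℍ → ℂ

/-- Plain functions coerce to functions. -/
instance : FunLike FnOnH ℍ ℂ where
  coe f := f
  coe_injective _ _ h := h

/-- The coefficients of `f (N τ)`. -/
lemma qExpansion_comp_posN {f : ℍ → ℂ} (h : BddPer f) (m : ℕ) :
    (qExpansion 1 (f ∘ affH (posN N) 0)).coeff m =
      if N ∣ m then (qExpansion 1 f).coeff (m / N) else 0 := by
  set c : ℕ → ℂ := fun m => if N ∣ m then (qExpansion 1 f).coeff (m / N) else 0 with hc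
  have hsum : ∀ τ : ℍ, HasSum (fun m => c m • Periodic.qParam 1 τ ^ m)
      ((f ∘ affH (posN N) 0) τ) := by
    intro τ
    have hs := hasSum_qExpansion one_pos (by exact_mod_cast h.2.1) h.1 h.2.2 (affH (posN N) 0 τ)
    have hq : Periodic.qParam 1 ((affH (posN N) 0 τ : ℍ) : ℂ) = Periodic.qParam 1 τ ^ N := by
      simp only [Periodic.qParam, ← Complex.exp_nat_mul, coe_affH, posN]
      congr 1
      push_cast
      ring
    simp_rw [hq, ← pow_mul] at hs
    have hinj : Injective (fun m : ℕ => N * m) := mul_right_injective₀ (NeZero.ne N)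
    have hsupp : ∀ x ∉ Set.range (fun m : ℕ => N * m),
        (fun m => c m • Periodic.qParam 1 τ ^ m) x = 0 := by
      intro x hx
      have : ¬ N ∣ x := by
        rintro ⟨d, rfl⟩
        exact hx ⟨d, rfl⟩
      simp [hc, this]
    refine (hinj.hasSum_iff hsupp).mp ?_
    convert hs using 1
    · ext m
      simp [hc, Nat.mul_div_cancel_left _ (NeZero.pos N)]
    · rfl
  exact (qExpansion_coeff_unique (F := FnOnH) (show FnOnH from f ∘ affH (posN N) 0) one_pos
    (h.comp_posN N).analyticAt hsum m).symm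

/-- The series of `f (N τ)` is that of `f` in `q ^ N`. -/
lemma qS_comp_posN {f : ℍ → ℂ} (h : BddPer f) :
    qS (f ∘ affH (posN N) 0) = qExpand ℂ N (qS f) := by
  ext k
  by_cases hk : (N : ℤ) ∣ k
  · obtain ⟨m, rfl⟩ := hk
    rw [ModularCurve.qExpand_coeff_mul]
    rcases le_or_gt 0 m with hm | hm
    · lift m to ℕ using hm
      rw [show (N : ℤ) * (m : ℤ) = ((N * m : ℕ) : ℤ) by push_cast; ring]
      simp only [qS, HahnSeries.ofPowerSeries_apply_coeff, qExpansion_comp_posN N h,
        dvd_mul_right, if_true, Nat.mul_div_cancel_left _ (NeZero.pos N)]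
    · have : (N : ℤ) * m < 0 := mul_neg_of_pos_of_neg (by exact_mod_cast NeZero.pos N) hm
      simp [qS, ModularCurve.ofPowerSeries_coeff_of_neg _ hm,
        ModularCurve.ofPowerSeries_coeff_of_neg _ this]
  · rw [ModularCurve.qExpand_coeff_of_not_dvd N _ hk]
    rcases le_or_gt 0 k with hm | hm
    · lift k to ℕ using hm
      simp only [qS, HahnSeries.ofPowerSeries_apply_coeff, qExpansion_comp_posN N h]
      rw [if_neg (fun hd => hk (by exact_mod_cast hd))]
    · simp [qS, ModularCurve.ofPowerSeries_coeff_of_neg _ hm]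

/-- `perAlg` is stable under `f ↦ f (N τ)`. -/
lemma mem_perAlg_comp_posN {f : ℍ → ℂ} (hf : f ∈ perAlg) : f ∘ affH (posN N) 0 ∈ perAlg := by
  obtain ⟨M, hM⟩ := exists_isBoundedAtImInfty_mul_discriminant_pow hf.2.2
  have hg := (bddPer_mul_discriminant_pow hf hM).comp_posN N
  refine ⟨mdiff_comp_affH hf.1 _ _, ?_, hf.2.2.comp_affH _ _⟩
  intro w
  have h1 := hg.2.1 w
  have h2 := ((bddPer_discriminant.pow M).comp_posN N).2.1 w
  simp only [ext, comp_apply, Pi.mul_apply] at h1 h2 ⊢
  rw [h2] at h1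
  refine mul_right_cancel₀ ?_ h1
  simp [ModularForm.discriminant_ne_zero]

/-- The series of `f (N τ)` is that of `f` in `q ^ N`, on `perAlg`. -/
theorem qL_comp_posN (f : perAlg) :
    qL ⟨(f : ℍ → ℂ) ∘ affH (posN N) 0, mem_perAlg_comp_posN N f.2⟩ = qExpand ℂ N (qL f) := by
  obtain ⟨M, hM⟩ := exists_isBoundedAtImInfty_mul_discriminant_pow f.2.2.2
  have hg := bddPer_mul_discriminant_pow f.2 hM
  have hD := (bddPer_discriminant.comp_posN N).pow M
  set fN : perAlg := ⟨(f : ℍ → ℂ) ∘ affH (posN N) 0, mem_perAlg_comp_posN N f.2⟩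
  have hmul : fN * ⟨_, hD.mem_perAlg⟩ = ⟨_, (hg.comp_posN N).mem_perAlg⟩ := Subtype.ext rfl
  have h1 := congrArg qL hmul
  rw [map_mul, qL_eq_qS hD, qL_eq_qS (hg.comp_posN N), qS_comp_posN N hg,
    qS_pow (bddPer_discriminant.comp_posN N), qS_comp_posN N bddPer_discriminant] at h1
  have hne : qExpand ℂ N (qS Δ) ^ M ≠ 0 :=
    pow_ne_zero _ ((map_ne_zero _).mpr qS_discriminant_ne_zero)
  rw [qL_apply f hM, map_div₀, map_pow, eq_div_iff hne]
  exact h1

/-- The series of `j (N τ)` is `j (q ^ N)`. -/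
theorem qW_jN : Lvl.qW (CongruenceSubgroup.Gamma0 N) ⟨jN N, jN_mem_W N⟩ =
    ModularCurve.coeffEmb ℂ (qExpand ℚ N ModularCurve.jq) := by
  rw [Lvl.qW_apply]
  change qL ⟨jA ∘ affH (posN N) 0, _⟩ = _
  rw [qL_comp_posN N ⟨jA, jA_mem_perAlg⟩, qL_jA, ModularCurve.coeffEmb,
    ModularCurve.coeffMap_qExpand]

end Fermat.MC
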