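import Mathlib.Algebra.Polynomial.Lifts
import Mathlib.Algebra.Polynomial.Derivative
import Fermat.Agent.MC.LevelOne
import Fermat.Agent.MC.QScale

/-!
# Functions of exponential growth at all cusps, polynomials in `j` and interpolation lemmas

`mem_range_jHom`: the functions invariant under `SL(2, ℤ)` are polynomials in `j`. The interpolation
on a level (`Lvl/Interp`) rests on it.
-/

set_option autoImplicit false

noncomputable section

open Filter Function
open UpperHalfPlane hiding I
open CongruenceSubgroup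
open Polynomial
open scoped Manifold MatrixGroups Polynomial

namespace Fermat.MC

/-- Holomorphic functions of exponential growth at all cusps. -/
def Wfull : Subalgebra ℂ (ℍ → ℂ) where
  carrier := {f | MDiff f ∧ ∀ γ, ExpGrowth (compSL γ f)}
  mul_mem' := fun ⟨h1, h3⟩ ⟨k1, k3⟩ => ⟨h1.mul k1, fun γ => (h3 γ).mul (k3 γ)⟩
  add_mem' := fun ⟨h1, h3⟩ ⟨k1, k3⟩ => ⟨h1.add k1, fun γ => (h3 γ).add (k3 γ)⟩
  algebraMap_mem' c := ⟨mdifferentiable_const, fun _ => ExpGrowth.const c⟩

/-- `Wfull` is a domain. -/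
instance : IsDomain Wfull := by
  have : NoZeroDivisors Wfull := ⟨fun {a b} h => by
    have h' := congrArg Subtype.val h
    exact ((UpperHalfPlane.mul_eq_zero_iff a.2.1 b.2.1).mp h').imp
      (fun h => Subtype.ext h) (fun h => Subtype.ext h)⟩
  have : Nontrivial Wfull := ⟨0, 1, fun h => zero_ne_one
    (α := ℂ) (congrFun (congrArg Subtype.val h) UpperHalfPlane.I)⟩
  exact NoZeroDivisors.to_isDomain _

/-- The action of `SL(2, ℤ)` on `Wfull`. -/
def compHom (γ : SL(2, ℤ)) : Wfull →ₐ[ℂ] Wfull where
  toFun f := ⟨compSL γ f, mdiff_compSL γ f.2.1, fun δ => by rw [← compSL_mul]; exact f.2.2 _⟩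
  map_one' := rfl
  map_mul' _ _ := rfl
  map_zero' := rfl
  map_add' _ _ := rfl
  commutes' _ := rfl

/-- The action is translation. -/
@[simp] lemma coe_compHom (γ : SL(2, ℤ)) (f : Wfull) :
    (compHom γ f : ℍ → ℂ) = compSL γ f := rfl

/-- The action is a right action. -/
lemma compHom_mul (γ δ : SL(2, ℤ)) (f : Wfull) :
    compHom (γ * δ) f = compHom δ (compHom γ f) := Subtype.ext (compSL_mul γ δ f)

/-- The identity acts trivially. -/
lemma compHom_one (f : Wfull) : compHom 1 f = f :=
  Subtype.ext (funext fun z => by simp [compSL])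

/-- Composition with `γ` is injective. -/
lemma compHom_injective (γ : SL(2, ℤ)) : Injective (compHom γ) := fun f g h => by
  have := congrArg (compHom γ⁻¹) h
  rwa [← compHom_mul, ← compHom_mul, mul_inv_cancel, compHom_one, compHom_one] at this

/-- A Lagrange sum is invariant under permuting the nodes. -/
lemma sum_prod_erase_comp_equiv {ι R : Type*} [Fintype ι] [DecidableEq ι] [CommRing R]
    (e : ι ≃ ι) (a b : ι → R) :
    ∑ q, a (e q) * ∏ q' ∈ Finset.univ.erase q, b (e q') =
      ∑ q, a q * ∏ q' ∈ Finset.univ.erase q, b q' := by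
  refine Fintype.sum_equiv e _ _ fun q => ?_
  congr 1
  refine Finset.prod_equiv e (fun q' => ?_) (fun q' _ => rfl)
  simp

/-- Lagrange interpolation at one of the nodes. -/
lemma eval_sum_mul_prod_erase {ι R : Type*} [Fintype ι] [DecidableEq ι] [CommRing R]
    (a r : ι → R) (q₀ : ι) :
    (∑ q, C (a q) * ∏ q' ∈ Finset.univ.erase q, (X - C (r q'))).eval (r q₀) =
      a q₀ * (derivative (∏ q, (X - C (r q)))).eval (r q₀) := by
  rw [derivative_prod_finset, eval_finsetSum, eval_finsetSum,
    Finset.sum_eq_single q₀, Finset.sum_eq_single q₀]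
  · simp only [eval_mul, eval_C, derivative_X_sub_C, mul_one]
  · intro q _ hq
    rw [eval_mul, eval_prod]
    refine mul_eq_zero_of_left ?_ _
    exact Finset.prod_eq_zero (Finset.mem_erase.mpr ⟨Ne.symm hq, Finset.mem_univ q₀⟩) (by simp)
  · simp
  · intro q _ hq
    rw [eval_mul, eval_prod]
    refine mul_eq_zero_of_right _ ?_
    exact Finset.prod_eq_zero (Finset.mem_erase.mpr ⟨Ne.symm hq, Finset.mem_univ q₀⟩) (by simp)
  · simp

/-- The degree of a Lagrange interpolation polynomial. -/
lemma natDegree_sum_mul_prod_erase_lt {ι R : Type*} [Fintype ι] [DecidableEq ι] [Nonempty ι]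
    [CommRing R] [Nontrivial R] (a r : ι → R) :
    (∑ q, C (a q) * ∏ q' ∈ Finset.univ.erase q, (X - C (r q'))).natDegree < Fintype.card ι := by
  refine lt_of_le_of_lt (natDegree_sum_le_of_forall_le _ _ fun q _ => ?_)
    (Nat.sub_lt (Fintype.card_pos (α := ι)) one_pos)
  refine (natDegree_C_mul_le _ _).trans ?_
  rw [natDegree_finsetProd_X_sub_C_eq_card, Finset.card_erase_of_mem (Finset.mem_univ _),
    Finset.card_univ]

/-- A map killing no nonzero polynomial of degree below `deg P` does not kill `P'`. -/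
lemma map_derivative_ne_zero {R T : Type*} [CommRing R] [IsDomain R] [CharZero R]
    [Semiring T] {φ : R[X] →+* T} {P : R[X]} {n : ℕ} (hn : 0 < n) (hdeg : P.natDegree = n)
    (hinj : ∀ H : R[X], H.natDegree < n → φ H = 0 → H = 0) : φ (derivative P) ≠ 0 := fun h => by
  have h0 := hinj _ (hdeg ▸ natDegree_derivative_lt (hdeg ▸ hn.ne')) h
  exact hn.ne' (hdeg ▸ derivative_eq_zero.mp h0)

/-- `j` in `Wfull`. -/
def jFull : Wfull := ⟨jA, mdiff_jA, (Lvl.jA_mem_W (Gamma0 1)).2.2⟩

/-- Polynomials in `j`. -/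
def jHom : ℂ[X] →ₐ[ℂ] Wfull := aeval jFull

/-- A polynomial in `j` as a function. -/
lemma coe_jHom (p : ℂ[X]) : (jHom p : ℍ → ℂ) = aeval jA p := by
  exact (aeval_algHom_apply Wfull.val jFull p).symm

/-- The leading coefficient of a power of `j`. -/
lemma coeff_jqC_pow_self (n : ℕ) :
    (ModularCurve.coeffEmb ℂ ModularCurve.jq ^ n).coeff (-(n : ℤ)) = 1 := by
  rw [← map_pow, ModularCurve.coeffEmb_coeff, ModularCurve.coeff_jq_pow_self, map_one]

/-- A power of `j` has no coefficients below its pole. -/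
lemma coeff_jqC_pow_of_lt {n : ℕ} {m : ℤ} (h : m < -(n : ℤ)) :
    (ModularCurve.coeffEmb ℂ ModularCurve.jq ^ n).coeff m = 0 := by
  rw [← map_pow, ModularCurve.coeffEmb_coeff, ModularCurve.coeff_jq_pow_of_lt h, map_zero]

/-- The series of `j` is transcendental over `ℂ`. -/
theorem aeval_jqC_injective :
    Injective (aeval (R := ℂ) (ModularCurve.coeffEmb ℂ ModularCurve.jq)) := by
  refine (injective_iff_map_eq_zero _).mpr fun p hp => ?_
  by_contra hp0
  have h : (aeval (ModularCurve.coeffEmb ℂ ModularCurve.jq) p).coeff (-(p.natDegree : ℤ)) =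
      p.leadingCoeff := by
    rw [aeval_eq_sum_range, HahnSeries.coeff_sum, Finset.sum_range_succ, Finset.sum_eq_zero,
      zero_add]
    · rw [Algebra.smul_def, ModularCurve.algebraMap_laurentSeries_eq_single,
        HahnSeries.coeff_single_zero_mul, coeff_jqC_pow_self, mul_one]
      rfl
    · intro i hi
      rw [Algebra.smul_def, ModularCurve.algebraMap_laurentSeries_eq_single,
        HahnSeries.coeff_single_zero_mul, coeff_jqC_pow_of_lt, mul_zero]
      have := Finset.mem_range.mp hi; omega
  rw [hp, HahnSeries.coeff_zero] at h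
  exact hp0 (leadingCoeff_eq_zero.mp h.symm)

/-- `j` is transcendental as a function. -/
lemma jHom_injective : Injective jHom := by
  intro p r h
  apply aeval_jqC_injective
  set jP : perAlg := ⟨jA, jA_mem_perAlg⟩
  rw [← show qL jP = ModularCurve.coeffEmb ℂ ModularCurve.jq from qL_jA, aeval_algHom_apply,
    aeval_algHom_apply]
  refine congrArg qL (Subtype.ext ?_)
  rw [← Subalgebra.coe_val, ← aeval_algHom_apply, ← aeval_algHom_apply]
  have h' := congrArg Subtype.val h
  rwa [coe_jHom, coe_jHom] at h'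

/-- Invariant functions are polynomials in `j`. -/
lemma mem_range_jHom {a : Wfull} (h : ∀ δ, compHom δ a = a) : ∃ p, jHom p = a := by
  have hW : (a : ℍ → ℂ) ∈ W 1 := mem_W_one a.2.1
    (fun γ z => congrFun (congrArg Subtype.val (h γ)) z) (by
      have h1 := a.2.2 1
      rwa [show compSL 1 (a : ℍ → ℂ) = a from funext fun z => by simp [compSL]] at h1)
  obtain ⟨p, hp⟩ := exists_poly_of_mem_W_one hW
  exact ⟨p, Subtype.ext (by rw [coe_jHom, ← hp])⟩

/-- Invariant polynomials have coefficients in `ℂ[j]`. -/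
lemma mem_lifts_jHom {P : Wfull[X]} (h : ∀ δ, P.map (compHom δ).toRingHom = P) :
    P ∈ lifts jHom.toRingHom := by
  rw [lifts_iff_coeff_lifts]
  intro n
  obtain ⟨p, hp⟩ := mem_range_jHom (a := P.coeff n) fun δ => by
    conv_rhs => rw [← h δ]
    rw [coeff_map]
    rfl
  exact ⟨p, hp⟩

end Fermat.MC
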