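import Mathlib.LinearAlgebra.Basis.VectorSpace
import Fermat.Agent.MC.Interp

/-!
# Rationality: coefficientwise conjugation and retraction of q-series

`exists_rat_relation`: a monic relation of minimal degree between functions with rational series has
rational coefficients. `Lvl/Rational` uses it for the equation of a separating function over `ℚ(j)`.
-/

set_option autoImplicit false

noncomputable section

open Polynomial
open ModularCurve (coeffEmb coeffMap jq)
open scoped Polynomial

namespace Fermat.MC

/-- Apply an additive map to all coefficients of a polynomial. -/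
def mapCoeff {R S : Type*} [Semiring R] [Semiring S] (φ : R →+ S) : R[X] →+ S[X] where
  toFun p := p.sum fun n a => monomial n (φ a)
  map_zero' := by simp
  map_add' p q := sum_add_index p q _ (fun i => by simp) (fun i a b => by simp)

/-- The map on a monomial. -/
@[simp] lemma mapCoeff_monomial {R S : Type*} [Semiring R] [Semiring S] (φ : R →+ S) (n : ℕ)
    (a : R) : mapCoeff φ (monomial n a) = monomial n (φ a) := by
  simp [mapCoeff]

/-- The coefficients of the image. -/
lemma coeff_mapCoeff {R S : Type*} [Semiring R] [Semiring S] (φ : R →+ S) (p : R[X]) (n : ℕ) :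
    (mapCoeff φ p).coeff n = φ (p.coeff n) := by
  induction p using Polynomial.induction_on' with
  | add p q hp hq => simp [hp, hq]
  | monomial m a => simp only [mapCoeff_monomial, coeff_monomial]; split <;> simp

/-- The degree does not grow. -/
lemma natDegree_mapCoeff_le {R S : Type*} [Semiring R] [Semiring S] (φ : R →+ S) (p : R[X]) :
    (mapCoeff φ p).natDegree ≤ p.natDegree :=
  natDegree_le_iff_coeff_eq_zero.mpr fun n hn => by
    rw [coeff_mapCoeff, coeff_eq_zero_of_natDegree_lt hn, map_zero]

/-- `ℚ` is a direct summand of `ℂ`. -/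
lemma exists_retraction : ∃ π : ℂ →ₗ[ℚ] ℚ, π 1 = 1 := by
  obtain ⟨π, hπ⟩ := LinearMap.exists_leftInverse_of_injective (Algebra.linearMap ℚ ℂ)
    (LinearMap.ker_eq_bot.mpr (algebraMap ℚ ℂ).injective)
  exact ⟨π, by simpa using LinearMap.congr_fun hπ 1⟩

/-- A `ℚ`-linear retraction `ℂ → ℚ`. -/
def retQ : ℂ →ₗ[ℚ] ℚ := exists_retraction.choose

/-- The retraction fixes one. -/
@[simp] lemma retQ_one : retQ 1 = 1 := exists_retraction.choose_spec

/-- The retraction fixes rationals. -/
@[simp] lemma retQ_algebraMap (q : ℚ) : retQ (algebraMap ℚ ℂ q) = q := by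
  rw [Algebra.algebraMap_eq_smul_one, map_smul, retQ_one, smul_eq_mul, mul_one]

/-- The retraction applied to all coefficients of a Laurent series. -/
def retL : LaurentSeries ℂ →+ LaurentSeries ℚ where
  toFun x := x.map retQ.toAddMonoidHom
  map_zero' := by ext; simp
  map_add' x y := by ext; simp

/-- The coefficients of the retracted series. -/
@[simp] lemma retL_coeff (x : LaurentSeries ℂ) (n : ℤ) : (retL x).coeff n = retQ (x.coeff n) := rfl

/-- Retraction of a multiple of a rational series. -/
lemma retL_smul_coeffEmb (c : ℂ) (r : LaurentSeries ℚ) :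
    retL (algebraMap ℂ (LaurentSeries ℂ) c * coeffEmb ℂ r) =
      algebraMap ℚ (LaurentSeries ℚ) (retQ c) * r := by
  ext n
  rw [retL_coeff, ModularCurve.algebraMap_laurentSeries_eq_single,
    ModularCurve.algebraMap_laurentSeries_eq_single, HahnSeries.coeff_single_zero_mul,
    HahnSeries.coeff_single_zero_mul, ModularCurve.coeffEmb_coeff, mul_comm,
    ← Algebra.smul_def, map_smul, smul_eq_mul, mul_comm]

/-- The retraction fixes rational series. -/
@[simp] lemma retL_coeffEmb (r : LaurentSeries ℚ) : retL (coeffEmb ℂ r) = r := by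
  simpa using retL_smul_coeffEmb 1 r

/-- The retraction is linear over rational series. -/
lemma retL_mul_coeffEmb (x : LaurentSeries ℂ) (r : LaurentSeries ℚ) :
    retL (x * coeffEmb ℂ r) = retL x * r := by
  ext m
  have hsub : (retL x).support ⊆ x.support := fun t ht => by
    simp only [HahnSeries.mem_support, ne_eq, retL_coeff] at ht ⊢
    exact fun h0 => ht (by rw [h0, map_zero])
  rw [retL_coeff, HahnSeries.coeff_mul_left' x.isPWO_support hsub, HahnSeries.coeff_mul, map_sum]
  refine Finset.sum_congr ?_ fun p _ => ?_
  · ext p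
    simp only [Finset.mem_antidiagonal, HahnSeries.mem_support, ne_eq,
      ModularCurve.coeffEmb_coeff, map_eq_zero_iff _ (algebraMap ℚ ℂ).injective]
  · rw [ModularCurve.coeffEmb_coeff, mul_comm (x.coeff p.1),
      ← Algebra.smul_def, map_smul, smul_eq_mul, mul_comm]
    rfl

/-- Rational series inject into complex ones. -/
lemma coeffEmb_injective : Function.Injective (coeffEmb ℂ) :=
  Function.LeftInverse.injective retL_coeffEmb

/-- Retraction on bivariate polynomials. -/
def retP : ℂ[X][X] →+ ℚ[X][X] := mapCoeff (mapCoeff retQ.toAddMonoidHom)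

/-- Extension of scalars for bivariate polynomials. -/
def extQ : ℚ[X][X] →+* ℂ[X][X] := mapRingHom (mapRingHom (algebraMap ℚ ℂ))

section Monomials

/- Two evaluations of bivariate polynomials, complex and rational, at `j` and one further series. -/
variable {α : ℂ[X][X] →+* LaurentSeries ℂ} {β : ℚ[X][X] →+* LaurentSeries ℚ} {g : LaurentSeries ℚ}
  (hα : ∀ (b a : ℕ) (c : ℂ), α (monomial b (monomial a c)) =
    algebraMap ℂ (LaurentSeries ℂ) c * coeffEmb ℂ (jq ^ a * g ^ b))
  (hβ : ∀ (b a : ℕ) (c : ℚ), β (monomial b (monomial a c)) =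
    algebraMap ℚ (LaurentSeries ℚ) c * (jq ^ a * g ^ b))
include hα hβ

/-- Retraction commutes with the two evaluations. -/
lemma map_retP (H : ℂ[X][X]) : β (retP H) = retL (α H) := by
  induction H using Polynomial.induction_on' with
  | add p q hp hq => simp [hp, hq]
  | monomial b p =>
    induction p using Polynomial.induction_on' with
    | add p q hp hq => simp [hp, hq]
    | monomial a c =>
      rw [retP, mapCoeff_monomial, mapCoeff_monomial, hα, hβ,
        retL_smul_coeffEmb]
      rfl

/-- The two evaluations of a rational polynomial agree. -/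
lemma map_extQ (P : ℚ[X][X]) : α (extQ P) = coeffEmb ℂ (β P) := by
  induction P using Polynomial.induction_on' with
  | add p q hp hq => simp [hp, hq]
  | monomial b p =>
    induction p using Polynomial.induction_on' with
    | add p q hp hq => simp [hp, hq]
    | monomial a c =>
      rw [extQ, coe_mapRingHom, map_monomial, coe_mapRingHom, map_monomial, hα,
        hβ]
      rw [map_mul (coeffEmb ℂ) (algebraMap ℚ (LaurentSeries ℚ) c)]
      congr 1
      ext n
      rw [ModularCurve.coeffEmb_coeff, ModularCurve.algebraMap_laurentSeries_eq_single,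
        ModularCurve.algebraMap_laurentSeries_eq_single, HahnSeries.coeff_single,
        HahnSeries.coeff_single]
      split <;> simp

/-- A monic relation of minimal degree has rational coefficients. -/
theorem exists_rat_relation {φ : ℂ[X][X]} {n : ℕ} (hn : 0 < n) (hm : φ.Monic)
    (hdeg : φ.natDegree = n) (hinj : ∀ H : ℂ[X][X], H.natDegree < n → α H = 0 → H = 0)
    (h0 : α φ = 0) : ∃ P : ℚ[X][X], P.Monic ∧ P.natDegree = n ∧ extQ P = φ := by
  set R := φ - X ^ n with hR
  have hRdeg : R.natDegree < n := by
    rcases eq_or_ne R 0 with h | h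
    · rw [h, natDegree_zero]; exact hn
    · rw [natDegree_lt_iff_degree_lt h]
      have := degree_sub_lt_left (p := φ) (q := (X : ℂ[X][X]) ^ n) ?_ hm.ne_zero ?_
      · rw [degree_eq_natDegree hm.ne_zero, hdeg] at this
        exact this
      · rw [degree_eq_natDegree hm.ne_zero, hdeg, degree_X_pow]
      · rw [hm.leadingCoeff, leadingCoeff_X_pow]
  have hP : φ = X ^ n + R := by rw [hR]; ring
  have hX : α (X ^ n) = coeffEmb ℂ (g ^ n) := by
    rw [X_pow_eq_monomial, ← monomial_zero_one, hα, map_one, one_mul, pow_zero, one_mul]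
  set P := retP R
  have hP' : β P = -(g ^ n) := by
    rw [map_retP hα hβ, eq_neg_iff_add_eq_zero, ← retL_coeffEmb (g ^ n), ← map_add,
      ← hX, add_comm, ← map_add, ← hP, h0, map_zero]
  have hP'deg : P.natDegree < n := lt_of_le_of_lt (natDegree_mapCoeff_le _ R) hRdeg
  have hRG : R - extQ P = 0 := by
    refine hinj _ (lt_of_le_of_lt (natDegree_sub_le _ _) (max_lt hRdeg ?_)) ?_
    · exact lt_of_le_of_lt natDegree_map_le hP'deg
    · rw [map_sub, map_extQ hα hβ, hP', map_neg, ← hX, sub_neg_eq_add, add_comm, ← map_add, ← hP,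
        h0]
  have hdeg' : P.degree < (n : WithBot ℕ) :=
    lt_of_le_of_lt degree_le_natDegree (by exact_mod_cast hP'deg)
  refine ⟨X ^ n + P, monic_X_pow_add hdeg', ?_, ?_⟩
  · rw [natDegree_eq_of_degree_eq_some]
    rw [degree_add_eq_left_of_degree_lt (by rw [degree_X_pow]; exact hdeg'), degree_X_pow]
  · rw [hP, map_add, sub_eq_zero.mp hRG]
    congr 1
    simp [extQ]

end Monomials

/-- Conjugation fixes rational series. -/
lemma coeffMap_coeffEmbC (σ : ℂ →+* ℂ) (r : LaurentSeries ℚ) :
    coeffMap σ (coeffEmb ℂ r) = coeffEmb ℂ r := by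
  rw [ModularCurve.coeffEmb, ModularCurve.coeffMap_coeffMap]
  exact ModularCurve.coeffMap_congr (RingHom.ext fun q => by simp) r

end Fermat.MC
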