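import Fermat.Prelude.Def_ModularCurve_X0
import Mathlib.RingTheory.RootsOfUnity.PrimitiveRoots
import Fermat.Agent.MC.JPoints
import Fermat.Agent.MC.Rational

/-!
# Expansions of modular functions at points and cusps

Functions periodic at two scales have divisible orders (`dvd_order_periodic`), whence the widths of
cusps and the orders at elliptic points in `Lvl/Expansions`.
-/

set_option autoImplicit false

noncomputable section

open Filter Function
open UpperHalfPlane hiding I
open ModularCurve (coeffEmb qExpand jq)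
open scoped Manifold MatrixGroups

local notation "Δ" => ModularForm.discriminant

namespace Fermat.MC

section Order

variable {R : Type*} [Field R]

/-- Series with the same support have the same order. -/
lemma order_eq_of_support {x y : LaurentSeries R} (h : ∀ n, x.coeff n = 0 ↔ y.coeff n = 0) :
    x.order = y.order := by
  rcases eq_or_ne x 0 with rfl | hx
  · rw [show y = 0 from HahnSeries.ext (funext fun n => by simpa using (h n).mp (by simp))]
  · have hy : y ≠ 0 := fun hy => hx (HahnSeries.ext (funext fun n => by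
      simpa using (h n).mpr (by simp [hy])))
    exact le_antisymm
      (HahnSeries.order_le_of_coeff_ne_zero fun h0 =>
        HahnSeries.coeff_order_eq_zero.not.mpr hy ((h _).mp h0))
      (HahnSeries.order_le_of_coeff_ne_zero fun h0 =>
        HahnSeries.coeff_order_eq_zero.not.mpr hx ((h _).mpr h0))

/-- A nonzero coefficient with zero ones below it gives the order. -/
lemma order_eq_of_coeff {x : LaurentSeries R} {a : ℤ} (h1 : x.coeff a ≠ 0)
    (h2 : ∀ b < a, x.coeff b = 0) : x.order = a := by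
  refine le_antisymm (HahnSeries.order_le_of_coeff_ne_zero h1) ?_
  by_contra h
  have hx : x ≠ 0 := fun h0 => h1 (by simp [h0])
  exact HahnSeries.coeff_order_eq_zero.not.mpr hx (h2 _ (not_le.mp h))

/-- Substituting `q ^ N` multiplies the order by `N`. -/
lemma order_qExpand (N : ℕ) [NeZero N] (x : LaurentSeries R) :
    (qExpand R N x).order = N * x.order := by
  rcases eq_or_ne x 0 with rfl | hx
  · simp
  refine order_eq_of_coeff
    (by rw [ModularCurve.qExpand_coeff_mul]; exact HahnSeries.coeff_order_eq_zero.not.mpr hx)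
    fun b hb => ?_
  by_cases hd : (N : ℤ) ∣ b
  · obtain ⟨c, rfl⟩ := hd
    rw [ModularCurve.qExpand_coeff_mul]
    refine HahnSeries.coeff_eq_zero_of_lt_order ?_
    have hN : (0 : ℤ) < N := by exact_mod_cast NeZero.pos N
    exact lt_of_mul_lt_mul_left hb hN.le
  · exact ModularCurve.qExpand_coeff_of_not_dvd N x hd

/-- The series of `j` has order `-1`. -/
lemma order_coeffEmb_jq (L : Type*) [Field L] [Algebra ℚ L] :
    (coeffEmb L jq).order = -1 := by
  refine order_eq_of_coeff (by simp) fun b hb => ?_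
  rw [ModularCurve.coeffEmb_coeff, ModularCurve.coeff_jq_of_lt hb, map_zero]

/-- The order of a power series as a Laurent series. -/
lemma order_ofPowerSeries {f : PowerSeries R} {n : ℕ} (h : f.order = n) :
    (HahnSeries.ofPowerSeries ℤ R f).order = n := by
  obtain ⟨h1, h2⟩ := PowerSeries.order_eq_nat.mp h
  refine order_eq_of_coeff (by rwa [HahnSeries.ofPowerSeries_apply_coeff]) fun b hb => ?_
  rcases lt_or_ge b 0 with hb0 | hb0
  · exact ModularCurve.ofPowerSeries_coeff_of_neg f hb0
  · lift b to ℕ using hb0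
    rw [HahnSeries.ofPowerSeries_apply_coeff]
    exact h2 b (by exact_mod_cast hb)

end Order

/-! ### Expansion at a point -/

/-- Taylor expansion at `z`, as a Laurent series. -/
def evPt (z : ℍ) : Wfull →+* LaurentSeries ℂ :=
  (HahnSeries.ofPowerSeries ℤ ℂ).comp
    { toFun := fun f => taylorPS (ext (f : ℍ → ℂ)) z
      map_one' := by
        change taylorPS (fun _ => (1 : ℂ)) _ = 1
        rw [taylorPS_const, map_one]
      map_mul' := fun f g => taylorPS_mul (analyticAt_ext f.2.1 z) (analyticAt_ext g.2.1 z)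
      map_zero' := by
        change taylorPS (fun _ => (0 : ℂ)) _ = 0
        rw [taylorPS_const, map_zero]
      map_add' := fun f g => taylorPS_add (analyticAt_ext f.2.1 z) (analyticAt_ext g.2.1 z) }

/-- A function is determined by its expansion at a point. -/
lemma evPt_injective (z : ℍ) : Injective (evPt z) := by
  refine (injective_iff_map_eq_zero _).mpr fun f hf => Subtype.ext ?_
  have h := HahnSeries.ofPowerSeries_injective (Γ := ℤ) (R := ℂ) (a₁ := taylorPS
    (ext (f : ℍ → ℂ)) z) (a₂ := 0)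
    (by rw [map_zero]; exact hf)
  rw [taylorPS_eq_zero_iff (analyticAt_ext f.2.1 z)] at h
  exact eq_zero_of_ext_eventuallyEq f.2.1 h

/-- The order of the expansion is the analytic order. -/
lemma order_evPt {z : ℍ} {f : Wfull} {n : ℕ}
    (h : analyticOrderAt (ext (f : ℍ → ℂ)) z = n) : (evPt z f).order = n :=
  order_ofPowerSeries ((order_taylorPS (analyticAt_ext f.2.1 z)).trans h)

/-- The order of the expansion of a nonzero function is its analytic order. -/
lemma order_evPt_eq_analyticOrderNatAt (z : ℍ) {f : Wfull} (hf : f ≠ 0) :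
    ((evPt z f).order : ℤ) = analyticOrderNatAt (ext (f : ℍ → ℂ)) z := by
  obtain ⟨n, hn⟩ := ENat.ne_top_iff_exists.mp
    (analyticOrderAt_ext_ne_top f.2.1 (fun h => hf (Subtype.ext h)) z)
  rw [order_evPt hn.symm, analyticOrderNatAt, ← hn, ENat.toNat_natCast]

/-! ### Expansion at infinity -/

/-- Translation by a real number. -/
def trH (t : ℝ) : ℍ → ℍ := affH ⟨1, one_pos⟩ t

/-- Translation as a complex number. -/
lemma coe_trH (t : ℝ) (z : ℍ) : (trH t z : ℂ) = z + t := by simp [trH, coe_affH]

/-- Translation multiplies the parameter by a constant. -/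
lemma qParam_trH (t : ℝ) (z : ℍ) :
    Periodic.qParam 1 (trH t z) = Periodic.qParam 1 (t : ℂ) * Periodic.qParam 1 z := by
  simp only [Periodic.qParam, coe_trH, ← Complex.exp_add]
  congr 1
  push_cast
  ring

/-- A translate of a periodic function is periodic. -/
lemma periodic_ext_comp_trH {F : ℍ → ℂ} (hF : Periodic (ext F) 1) (t : ℝ) :
    Periodic (ext (F ∘ trH t)) 1 := by
  refine ext_add_one _ fun z => ?_
  simp only [comp_apply]
  have h := hF (trH t z : ℂ)
  simp only [ext, comp_apply, ofComplex_apply] at h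
  rw [← h]
  congr 1
  rw [show ((trH t z : ℂ) + 1) = (((1 : ℝ) +ᵥ trH t z : ℍ) : ℂ) by
    rw [coe_vadd]; push_cast; ring, ofComplex_apply]
  apply UpperHalfPlane.ext
  simp only [UpperHalfPlane.modular_T_smul, coe_trH, coe_vadd]
  ring

/-- Translation preserves periodicity and boundedness. -/
lemma BddPer.trH {F : ℍ → ℂ} (hF : BddPer F) (t : ℝ) : BddPer (F ∘ Fermat.MC.trH t) :=
  ⟨mdiff_comp_affH hF.1 _ _, periodic_ext_comp_trH hF.2.1 t,
    hF.2.2.comp_tendsto (tendsto_affH _ _)⟩

/-- Translation multiplies the `n`-th coefficient by `qParam 1 t ^ n`. -/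
lemma qS_trH_coeff_eq {F : ℍ → ℂ} (hF : BddPer F) (t : ℝ) (n : ℤ) :
    (qS (F ∘ trH t)).coeff n = (qS F).coeff n * Periodic.qParam 1 (t : ℂ) ^ n := by
  rcases lt_or_ge n 0 with hn | hn
  · simp [qS, ModularCurve.ofPowerSeries_coeff_of_neg _ hn]
  lift n to ℕ using hn
  set c := Periodic.qParam 1 (t : ℂ)
  have hG := hF.trH t
  have hper : Periodic ((F ∘ trH t) ∘ ofComplex) ((1 : ℝ) : ℂ) := by exact_mod_cast hG.2.1
  have hsum : ∀ τ : ℍ, HasSum
      (fun m => ((qExpansion 1 F).coeff m * c ^ m) • Periodic.qParam 1 τ ^ m)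
      ((F ∘ trH t) τ) := fun τ => by
    have h := hasSum_qExpansion one_pos (by exact_mod_cast hF.2.1) hF.1 hF.2.2 (trH t τ)
    simpa [qParam_trH, mul_pow, smul_eq_mul, mul_assoc] using h
  have h1 := (hasFPowerSeriesOnBall_cuspFunction one_pos hG.analyticAt hsum).hasFPowerSeriesAt
  have h2 := (hasFPowerSeriesOnBall_cuspFunction one_pos hG.analyticAt
    (hasSum_qExpansion one_pos hper hG.1 hG.2.2)).hasFPowerSeriesAt
  have h := congrArg (fun p => FormalMultilinearSeries.coeff p n) (h1.eq_formalMultilinearSeries h2)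
  simp only [FormalMultilinearSeries.coeff_ofScalars] at h
  simp only [qS, HahnSeries.ofPowerSeries_apply_coeff, ← h]
  simp [c]

/-- Translation does not change which coefficients vanish. -/
lemma qS_trH_coeff_eq_zero_iff {F : ℍ → ℂ} (hF : BddPer F) (t : ℝ) (n : ℤ) :
    (qS (F ∘ trH t)).coeff n = 0 ↔ (qS F).coeff n = 0 := by
  simp [qS_trH_coeff_eq hF, zpow_ne_zero, Periodic.qParam_ne_zero]

/-- Translation preserves the periodic functions of moderate growth. -/
lemma mem_perAlg_trH {g : ℍ → ℂ} (hg : g ∈ perAlg) (t : ℝ) : g ∘ trH t ∈ perAlg :=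
  ⟨mdiff_comp_affH hg.1 _ _, periodic_ext_comp_trH hg.2.1 t, hg.2.2.comp_affH _ _⟩

/-- A nonzero periodic function has nonzero series. -/
lemma qL_ne_zero {g : perAlg} (hg : g ≠ 0) : qL g ≠ 0 :=
  (map_ne_zero_iff _ qL_injective).mpr hg

/-- Translation does not change the order at `∞`. -/
theorem order_qL_trH (g : perAlg) (t : ℝ) :
    (qL ⟨(g : ℍ → ℂ) ∘ trH t, mem_perAlg_trH g.2 t⟩).order = (qL g).order := by
  obtain ⟨M, hM⟩ := exists_isBoundedAtImInfty_mul_discriminant_pow g.2.2.2
  have hG := bddPer_mul_discriminant_pow g.2 hM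
  rcases eq_or_ne g 0 with rfl | hg
  · rw [map_zero, show (⟨((0 : perAlg) : ℍ → ℂ) ∘ trH t, mem_perAlg_trH (0 : perAlg).2 t⟩ : perAlg)
      = 0 from Subtype.ext rfl, map_zero]
  -- multiply by a power of `Δ` to get bounded functions, whose supports agree
  set gt : perAlg := ⟨(g : ℍ → ℂ) ∘ trH t, mem_perAlg_trH g.2 t⟩
  set D : perAlg := ⟨Δ, bddPer_discriminant.mem_perAlg⟩
  set Dt : perAlg := ⟨Δ ∘ trH t, (bddPer_discriminant.trH t).mem_perAlg⟩
  have hD0 : qL D ≠ 0 := by rw [qL_eq_qS bddPer_discriminant]; exact qS_discriminant_ne_zero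
  have hDt : (qL Dt).order = (qL D).order := by
    rw [qL_eq_qS (bddPer_discriminant.trH t), qL_eq_qS bddPer_discriminant]
    exact order_eq_of_support (qS_trH_coeff_eq_zero_iff bddPer_discriminant t)
  have hDt0 : qL Dt ≠ 0 := fun h0 => by
    have h1 := congrFun (congrArg Subtype.val ((map_eq_zero_iff _ qL_injective).mp h0))
      UpperHalfPlane.I
    exact ModularForm.discriminant_ne_zero _ h1
  have hgt0 : gt ≠ 0 := fun h0 => hg (Subtype.ext (funext fun z => by
    have h1 := congrFun (congrArg Subtype.val h0) (trH (-t) z)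
    have h2 : trH t (trH (-t) z) = z := UpperHalfPlane.ext (by simp [coe_trH])
    simpa [gt, h2] using h1))
  have e1 : qL (gt * Dt ^ M) = qS (((g : ℍ → ℂ) * Δ ^ M) ∘ trH t) := by
    rw [← qL_eq_qS (hG.trH t)]
    exact congrArg qL (Subtype.ext rfl)
  have e2 : qL (g * D ^ M) = qS ((g : ℍ → ℂ) * Δ ^ M) := by
    rw [← qL_eq_qS hG]
    exact congrArg qL (Subtype.ext rfl)
  have e : (qL (gt * Dt ^ M)).order = (qL (g * D ^ M)).order := by
    rw [e1, e2]; exact order_eq_of_support (qS_trH_coeff_eq_zero_iff hG t)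
  rw [map_mul, map_mul, map_pow, map_pow,
    HahnSeries.order_mul (qL_ne_zero hgt0) (pow_ne_zero _ hDt0),
    HahnSeries.order_mul (qL_ne_zero hg) (pow_ne_zero _ hD0),
    HahnSeries.order_pow, HahnSeries.order_pow, hDt] at e
  exact add_right_cancel e

/-- A function of period `s` has period one after rescaling. -/
lemma periodic_comp_posN (s : ℕ) [NeZero s] {g : ℍ → ℂ}
    (h : ∀ w, g (ModularGroup.T ^ (s : ℤ) • w) = g w) :
    Periodic (ext (g ∘ affH (posN s) 0)) 1 := by
  refine ext_add_one _ fun z => ?_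
  simp only [comp_apply]
  conv_rhs => rw [← h]
  congr 1
  apply UpperHalfPlane.ext
  simp only [UpperHalfPlane.modular_T_zpow_smul, UpperHalfPlane.modular_T_smul, coe_affH,
    coe_vadd, posN]
  push_cast
  ring

/-- A function of period `s` has period one in `z / s`. -/
lemma mem_perAlg_of_periodic {g : ℍ → ℂ} (s : ℕ) [NeZero s] (hg : g ∈ Wfull)
    (hinv : compSL (ModularGroup.T ^ (s : ℤ)) g = g) : g ∘ affH (posN s) 0 ∈ perAlg := by
  refine ⟨mdiff_comp_affH hg.1 _ _, periodic_comp_posN s fun w => congrFun hinv w, ?_⟩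
  · have h := hg.2 1
    rw [show compSL 1 g = g from funext fun z => by simp [compSL]] at h
    exact h.comp_affH _ _

variable (N : ℕ) [NeZero N]

/-- Multiplication by `s` is onto the half plane. -/
lemma affH_posN_surjective (s : ℕ) [NeZero s] : Surjective (affH (posN s) 0) := fun w => by
  have hs : (0 : ℝ) < s := by exact_mod_cast NeZero.pos s
  refine ⟨affH ⟨(s : ℝ)⁻¹, inv_pos.mpr hs⟩ 0 w, UpperHalfPlane.ext ?_⟩
  simp only [coe_affH, posN]
  have hs' : (s : ℂ) ≠ 0 := Nat.cast_ne_zero.mpr (NeZero.ne s)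
  push_cast
  field_simp
  ring

/-- A function with zero series in `z / N` is zero. -/
lemma eq_zero_of_qL_comp_posN {g : Wfull} {h : (g : ℍ → ℂ) ∘ affH (posN N) 0 ∈ perAlg}
    (h0 : qL ⟨_, h⟩ = 0) : g = 0 := by
  have h1 := congrArg Subtype.val ((map_eq_zero_iff _ qL_injective).mp h0)
  refine Subtype.ext (funext fun w => ?_)
  obtain ⟨z, rfl⟩ := affH_posN_surjective N w
  exact congrFun h1 z

/-- A function periodic at two scales has order at `∞` divisible accordingly. -/
lemma dvd_order_periodic (s : ℕ) [NeZero s] {g : ℍ → ℂ}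
    (h1 : g ∘ affH (posN s) 0 ∈ perAlg) (h2 : g ∘ affH (posN N) 0 ∈ perAlg) :
    (N : ℤ) ∣ (s : ℤ) * (qL ⟨_, h2⟩).order := by
  have hc : affH (posN s) 0 ∘ affH (posN N) 0 = affH (posN N) 0 ∘ affH (posN s) 0 := by
    funext z
    refine UpperHalfPlane.ext ?_
    simp only [comp_apply, coe_affH, posN]
    push_cast
    ring
  have e : (⟨(g ∘ affH (posN s) 0) ∘ affH (posN N) 0, mem_perAlg_comp_posN N h1⟩ : perAlg) =
      ⟨(g ∘ affH (posN N) 0) ∘ affH (posN s) 0, mem_perAlg_comp_posN s h2⟩ :=
    Subtype.ext (by simp only [comp_assoc, hc])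
  have e' := congrArg qL e
  rw [qL_comp_posN N ⟨_, h1⟩, qL_comp_posN s ⟨_, h2⟩] at e'
  have e'' := congrArg HahnSeries.order e'
  rw [order_qExpand, order_qExpand] at e''
  exact ⟨(qL ⟨_, h1⟩).order, e''.symm⟩

end Fermat.MC
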