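import Fermat.Prelude.Def_ModularCurve_ArithmeticGalois
import Fermat.Agent.MC.Expansions
import Fermat.Agent.MC.Count

/-!
# Tools for function fields of modular curves over a subfield of `ℂ`

`finrank_of_embeddings`: the degree of a simple extension from a complete family of expansions
(`Count`). `Lvl/Field` applies it to the levels.
-/

set_option autoImplicit false

noncomputable section

open Function Polynomial IntermediateField
open ModularCurve (coeffEmb coeffMap jq)
open scoped Polynomial

namespace Fermat.MC

section Generic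

variable {L : Type*} [Field L] [Algebra ℚ L]

/-- Extending the coefficients of an element of a generated field gives an element of the field
generated by the images. -/
lemma coeffEmb_mem_adjoin_image {S : Set (LaurentSeries ℚ)} {x : LaurentSeries ℚ}
    (hx : x ∈ adjoin ℚ S) : coeffEmb L x ∈ adjoin L (coeffEmb L '' S) := by
  rw [← SetLike.mem_coe]
  refine IntermediateField.adjoin_induction ℚ (fun y hy => ?_) (fun c => ?_)
    (fun _ _ _ _ h h' => ?_) (fun _ _ h => ?_) (fun _ _ _ _ h h' => ?_) hx
  · exact subset_adjoin L _ ⟨y, hy, rfl⟩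
  · rw [SetLike.mem_coe, show coeffEmb L (algebraMap ℚ (LaurentSeries ℚ) c) =
      algebraMap L (LaurentSeries L) (algebraMap ℚ L c) by
        rw [ModularCurve.algebraMap_laurentSeries_eq_single,
          ModularCurve.algebraMap_laurentSeries_eq_single, coeffEmb,
          ModularCurve.coeffMap_single]]
    exact IntermediateField.algebraMap_mem _ _
  · rw [SetLike.mem_coe, map_add]; exact add_mem h h'
  · rw [SetLike.mem_coe, map_inv₀]; exact inv_mem h
  · rw [SetLike.mem_coe, map_mul]; exact mul_mem h h'

/-- A function whose expansion is that of `j` is transcendental. -/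
lemma transcendental_of_coe_eq_jq [IsAlgClosed L] {E : IntermediateField L (LaurentSeries L)}
    {x : E} (hx : (x : LaurentSeries L) = coeffEmb L jq) : Transcendental L x := by
  refine Fermat.FF.transcendental_of_not_mem fun ⟨c, hc⟩ => ?_
  have h := congrArg (fun z : E => ((z : LaurentSeries L)).coeff (-1 : ℤ)) hc
  change (algebraMap L (LaurentSeries L) c).coeff (-1 : ℤ) =
    (x : LaurentSeries L).coeff (-1 : ℤ) at h
  rw [hx, ModularCurve.algebraMap_laurentSeries_eq_single,
    HahnSeries.coeff_single_of_ne (by norm_num), ModularCurve.coeffEmb_coeff,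
    ModularCurve.coeff_jq_neg_one, map_one] at h
  exact zero_ne_one h

/-- A rational relation between `j` and `g` holds for the functions with these expansions. -/
lemma aeval_map_eq_zero {E : IntermediateField L (LaurentSeries L)} {x y : E}
    (hx : (x : LaurentSeries L) = coeffEmb L jq) {g : LaurentSeries ℚ}
    (hy : (y : LaurentSeries L) = coeffEmb L g) {P : ℚ[X][X]}
    (hP : eval₂RingHom (aeval jq).toRingHom g P = 0) :
    aeval y (P.map (eval₂RingHom ((algebraMap L L⟮x⟯).comp (algebraMap ℚ L))
      (AdjoinSimple.gen L x))) = 0 := by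
  apply Subtype.val_injective
  rw [aeval_def, eval₂_map, ← IntermediateField.coe_val, ← AlgHom.coe_toRingHom,
    hom_eval₂, map_zero, ← map_zero (coeffEmb L), ← hP, coe_eval₂RingHom, hom_eval₂]
  refine congrArg₂ (fun φ z => eval₂ φ z P) ?_ hy
  refine Polynomial.ringHom_ext' (Subsingleton.elim _ _) ?_
  simp only [RingHom.comp_apply, coe_eval₂RingHom, eval₂_X, AlgHom.toRingHom_eq_coe,
    RingHom.coe_coe, aeval_X]
  exact hx

/-- The order of a quotient along a lift to the field of fractions. -/
lemma exists_ordT_lift {R F : Type*} [CommRing R] [IsDomain R] [Field F]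
    (φ : F →+* FractionRing R) {x : F} (hx : x ≠ 0) :
    ∃ a b : R, a ≠ 0 ∧ b ≠ 0 ∧
      φ x = algebraMap R (FractionRing R) a / algebraMap R (FractionRing R) b ∧
      ∀ (ev : R →+* LaurentSeries ℂ) (hev : Injective ev),
        ordT ((IsFractionRing.lift (A := R) (K := FractionRing R) (g := ev) hev).comp φ) x =
          (ev a).order - (ev b).order := by
  obtain ⟨a, b, hb, hab⟩ := IsFractionRing.div_surjective (A := R) (φ x)
  have hb0 : b ≠ 0 := nonZeroDivisors.ne_zero hb
  have ha0 : a ≠ 0 := fun h => hx ((map_eq_zero φ).mp (by rw [← hab, h, map_zero, zero_div]))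
  refine ⟨a, b, ha0, hb0, hab.symm, fun ev hev => ?_⟩
  have h1 : ev a ≠ 0 := (map_ne_zero_iff _ hev).mpr ha0
  have h2 : ev b ≠ 0 := (map_ne_zero_iff _ hev).mpr hb0
  rw [ordT, RingHom.comp_apply, ← hab, map_div₀, IsFractionRing.lift_algebraMap,
    IsFractionRing.lift_algebraMap]
  have h3 := HahnSeries.order_mul (div_ne_zero h1 h2) h2
  rw [div_mul_cancel₀ _ h2] at h3
  omega

end Generic

variable {L : Type*} [Field L] [Algebra ℚ L] (ι : L →+* ℂ)

/-- An embedding into `ℂ` fixes rational series. -/
lemma coeffMap_ι_coeffEmb (x : LaurentSeries ℚ) :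
    coeffMap ι (coeffEmb L x) = coeffEmb ℂ x := by
  rw [coeffEmb, ModularCurve.coeffMap_coeffMap]
  exact ModularCurve.coeffMap_congr (Subsingleton.elim _ _) x

omit [Algebra ℚ L] in
/-- An embedding into `ℂ` maps constant series to constant series. -/
lemma coeffMap_ι_algebraMap (c : L) :
    coeffMap ι (algebraMap L (LaurentSeries L) c) = algebraMap ℂ (LaurentSeries ℂ) (ι c) := by
  rw [ModularCurve.algebraMap_laurentSeries_eq_single, ModularCurve.coeffMap_single,
    ModularCurve.algebraMap_laurentSeries_eq_single]

/-- A nonzero constant has order zero. -/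
lemma order_algebraMap_C {c : ℂ} (hc : c ≠ 0) :
    (algebraMap ℂ (LaurentSeries ℂ) c).order = 0 := by
  rw [ModularCurve.algebraMap_laurentSeries_eq_single, HahnSeries.order_single hc]

/-- The degree of a simple extension from a complete family of embeddings. -/
lemma finrank_of_embeddings {K F E : Type*} [Field K] [Field F] [Field E] [Algebra K F]
    {Q : Type*} [Fintype Q] {σ : Q → F →+* E} {y : F} (p : K[X]) (hp : p.Monic)
    (hy : aeval y p = 0) (hdeg : p.natDegree = Fintype.card Q) (htop : adjoin K {y} = ⊤)
    (hσ : ∀ q q' (a : K), σ q (algebraMap K F a) = σ q' (algebraMap K F a))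
    (hinj : Injective fun q => σ q y) {n : ℕ} (hn : Fintype.card Q = n) :
    Module.finrank K F = n ∧ FiniteDimensional K F := by
  subst hn
  have hint : IsIntegral K y := ⟨p, hp, hy⟩
  have hle : (minpoly K y).natDegree ≤ Fintype.card Q :=
    hdeg ▸ natDegree_le_of_dvd (minpoly.dvd _ _ hy) hp.ne_zero
  have hge : Fintype.card Q ≤ (minpoly K y).natDegree := by
    by_contra hlt
    have hne : Nonempty Q := Fintype.card_pos_iff.mp (by omega)
    obtain ⟨q₀⟩ := hne
    refine ((minpoly.monic hint).map ((σ q₀).comp (algebraMap K F))).ne_zero ?_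
    refine eq_zero_of_natDegree_lt_card_of_eval_eq_zero _ hinj (fun q => ?_) ?_
    · rw [eval_map, show (σ q₀).comp (algebraMap K F) = (σ q).comp (algebraMap K F) from
        RingHom.ext (hσ q₀ q), ← hom_eval₂, ← aeval_def, minpoly.aeval, map_zero]
    · rw [(minpoly.monic hint).natDegree_map]
      exact not_le.mp hlt
  refine ⟨?_, ?_⟩
  · rw [← finrank_top', ← htop, adjoin.finrank hint]
    omega
  · have := adjoin.finiteDimensional hint
    rw [htop] at this
    exact (IntermediateField.topEquiv (F := K) (E := F)).toLinearEquiv.finiteDimensional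

end Fermat.MC
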