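import Mathlib.Data.ZMod.QuotientGroup
import Fermat.Agent.MC.Field
import Fermat.Agent.SL2.CosetAction

/-!
# Orbits, fibres and the elliptic points

For example, `card_fibre_orbClass` counts an orbit and `jA_rhoH`, `jA_I` give `j` at the elliptic
points.
-/

set_option autoImplicit false

attribute [local instance 10000] SubalgebraClass.toAlgebra HahnSeries.powerSeriesAlgebra

noncomputable section

open Function
open UpperHalfPlane hiding I
open AlgebraicCurve IntermediateField
open Fermat.FF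
open ModularForm (E₄ E₆)
open scoped MatrixGroups

namespace Fermat.MC

section Orbits

variable {G α : Type*} [Group G] [MulAction G α]

/-- The class of a point in the orbit space of `zpowers δ`. -/
def orbClass (δ : G) (a : α) : MulAction.orbitRel.Quotient (Subgroup.zpowers δ) α :=
  Quotient.mk'' a

/-- Every orbit is the class of a point. -/
lemma orbClass_surjective (δ : G) : Surjective (orbClass δ : α → _) := Quotient.mk''_surjective

/-- Two points have one class iff a power of `δ` carries one to the other. -/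
lemma orbClass_eq_iff (δ : G) (a b : α) :
    orbClass δ a = orbClass δ b ↔ ∃ k : ℤ, δ ^ k • b = a := by
  rw [orbClass, orbClass, Quotient.eq'', MulAction.orbitRel_apply]
  constructor
  · rintro ⟨⟨g, k, rfl⟩, hk⟩
    exact ⟨k, hk⟩
  · rintro ⟨k, hk⟩
    exact ⟨⟨δ ^ k, k, rfl⟩, hk⟩

/-- The orbit of `a` has as many points as the period of `a`. -/
lemma card_fibre_orbClass (δ : G) (a : α) :
    Nat.card {b // orbClass δ b = orbClass δ a} = minimalPeriod (δ • ·) a := by
  have e : {b // orbClass δ b = orbClass δ a} ≃ MulAction.orbit (Subgroup.zpowers δ) a :=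
    Equiv.subtypeEquivRight fun b => Quotient.eq''.trans MulAction.orbitRel_apply
  rw [Nat.card_congr (e.trans (MulAction.orbitZPowersEquiv δ a)), Nat.card_zmod]

/-- When `δ` has prime order `n` on `α`, an orbit is a fixed point or has `n` points. -/
lemma card_fibre_eq_one_or (δ : G) {n : ℕ} (hn : n.Prime) (hδ : ∀ a : α, δ ^ n • a = a) (a : α) :
    (Nat.card {b // orbClass δ b = orbClass δ a} = 1 ∧ δ • a = a) ∨
      (Nat.card {b // orbClass δ b = orbClass δ a} = n ∧ δ • a ≠ a) := by
  rw [card_fibre_orbClass]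
  have hdvd : minimalPeriod (δ • ·) a ∣ n := by
    refine IsPeriodicPt.minimalPeriod_dvd ?_
    change (δ • ·)^[n] a = a
    rw [smul_iterate]
    exact hδ a
  rcases (Nat.dvd_prime hn).mp hdvd with h | h
  · exact Or.inl ⟨h, minimalPeriod_eq_one_iff_isFixedPt.mp h⟩
  · exact Or.inr ⟨h, fun hfix => hn.one_lt.ne' (h.symm.trans
      (minimalPeriod_eq_one_iff_isFixedPt.mpr hfix))⟩

/-- Orbits of an element of prime order are counted by its fixed points. -/
lemma card_orbits_mul [Fintype α] (δ : G) {n : ℕ} (hn : n.Prime)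
    (hδ : ∀ a : α, δ ^ n • a = a) :
    n * Nat.card (MulAction.orbitRel.Quotient (Subgroup.zpowers δ) α) =
      Fintype.card α + (n - 1) * Nat.card {a : α // δ • a = a} := by
  classical
  have : Finite (MulAction.orbitRel.Quotient (Subgroup.zpowers δ) α) := Quotient.finite _
  have := Fintype.ofFinite (MulAction.orbitRel.Quotient (Subgroup.zpowers δ) α)
  -- count points and fixed points orbit by orbit
  rw [Nat.card_eq_fintype_card, Nat.card_eq_fintype_card, ← Finset.card_univ (α := α),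
    Finset.card_eq_sum_card_fiberwise (f := orbClass δ) (s := Finset.univ) (t := Finset.univ)
      (fun _ _ => Finset.mem_coe.mpr (Finset.mem_univ _)),
    Fintype.card_subtype,
    Finset.card_eq_sum_card_fiberwise (f := orbClass δ)
      (s := Finset.univ.filter fun a : α => δ • a = a) (t := Finset.univ)
      (fun _ _ => Finset.mem_coe.mpr (Finset.mem_univ _)), Finset.mul_sum, ← Finset.sum_add_distrib,
    ← Finset.card_univ, mul_comm, Finset.card_univ, ← smul_eq_mul, ← Finset.card_univ,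
    ← Finset.sum_const]
  refine Finset.sum_congr rfl fun o _ => ?_
  obtain ⟨a, rfl⟩ := orbClass_surjective δ o
  have h := card_fibre_eq_one_or δ hn hδ a
  rw [Nat.card_eq_fintype_card, Fintype.card_subtype] at h
  have hp := hn.one_lt
  -- an orbit is either a fixed point or has `n` points, none fixed
  rcases h with ⟨h1, h2⟩ | ⟨h1, h2⟩
  · have h3 : Finset.univ.filter (fun b => orbClass δ b = orbClass δ a) = {a} := by
      obtain ⟨b, hb⟩ := Finset.card_eq_one.mp h1
      have : a ∈ Finset.univ.filter (fun b => orbClass δ b = orbClass δ a) := by simp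
      rw [hb] at this ⊢
      rw [Finset.mem_singleton.mp this]
    rw [h1, Finset.filter_comm, h3, Finset.filter_singleton, if_pos h2, Finset.card_singleton]
    omega
  · rw [h1, Finset.filter_eq_empty_iff.mpr ?_, Finset.card_empty]
    · omega
    · intro b hb hbo
      rw [Finset.mem_filter] at hb
      obtain ⟨k, hk⟩ := (orbClass_eq_iff δ b a).mp hbo
      have hfixk : (δ ^ k)⁻¹ • b = a := by rw [← hk, inv_smul_smul]
      refine h2 ?_
      rw [← hfixk, smul_smul, ← zpow_neg, (Commute.self_zpow δ (-k)).eq, ← smul_smul, hb.2]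

/-- The orbits of `1` are the points. -/
lemma card_orbits_one : Nat.card (MulAction.orbitRel.Quotient (Subgroup.zpowers (1 : G)) α) =
    Nat.card α := by
  refine (Nat.card_congr (Equiv.ofBijective (orbClass (1 : G)) ⟨fun q q' h => ?_,
    orbClass_surjective _⟩)).symm
  obtain ⟨k, hk⟩ := (orbClass_eq_iff _ q q').mp h
  simpa using hk.symm

/-- A point of a finite orbit is fixed by the period. -/
lemma neZero_period_and_fix [Finite α] (δ : G) (a : α) :
    NeZero (minimalPeriod (δ • ·) a) ∧ (δ ^ (minimalPeriod (δ • ·) a : ℤ))⁻¹ • a = a := by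
  refine ⟨⟨?_⟩, ?_⟩
  · rw [← card_fibre_orbClass]
    have : Nonempty {b // orbClass δ b = orbClass δ a} := ⟨⟨a, rfl⟩⟩
    exact Nat.card_pos.ne'
  · rw [inv_smul_eq_iff, zpow_natCast]
    exact (MulAction.pow_smul_eq_iff_minimalPeriod_dvd.mpr dvd_rfl).symm

end Orbits

section Fibres

variable {K F : Type*} [Field K] [Field F] [Algebra K F]

/-- A fibre with as many points as the degree is unramified. -/
lemma ord_eq_one_of_sum_eq_card {x : F} {T : Finset (Place K F)}
    (hT : ∀ P, P ∈ T ↔ 0 < P.ord x) (hsum : ∑ P ∈ T, P.ord x = T.card) {P : Place K F}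
    (hP : 0 < P.ord x) : P.ord x = 1 :=
  ((Finset.sum_eq_sum_iff_of_le fun Q hQ => (Int.add_one_le_iff.mpr ((hT Q).mp hQ) :
    (0 : ℤ) + 1 ≤ Q.ord x)).mp (by rw [hsum]; simp) P ((hT P).mpr hP)).symm

variable [IsAlgClosed K] [CharZero K] [IsFunctionField K F]

/-- Riemann-Hurwitz for a function of degree `ψ` ramified over at most `a`, `b` and `∞`. -/
theorem genusFF_of_three_fibres {x : F} (hx : Transcendental K x) {ψ : ℕ}
    (hψ : Module.finrank K⟮x⟯ F = ψ) {a b : K} (hab : a ≠ b) {T₀ T₁ T₂ : Finset (Place K F)}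
    (hT₀ : ∀ P, P ∈ T₀ ↔ 0 < P.ord (x - algebraMap K F a))
    (hs₀ : ∑ P ∈ T₀, P.ord (x - algebraMap K F a) = ψ)
    (hT₁ : ∀ P, P ∈ T₁ ↔ 0 < P.ord (x - algebraMap K F b))
    (hs₁ : ∑ P ∈ T₁, P.ord (x - algebraMap K F b) = ψ)
    (hT₂ : ∀ P, P ∈ T₂ ↔ 0 < P.ord x⁻¹) (hs₂ : ∑ P ∈ T₂, P.ord x⁻¹ = ψ)
    (hone : ∀ c, c ≠ a → c ≠ b → ∀ P : Place K F, 0 < P.ord (x - algebraMap K F c) →
      P.ord (x - algebraMap K F c) = 1) :
    2 * (genusFF K F : ℤ) - 2 = (ψ : ℤ) - T₀.card - T₁.card - T₂.card := by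
  classical
  obtain ⟨R, hR, hg⟩ := hurwitz_of_tame hx (separable_of_charZero hx) (tame_of_charZero hx)
  rw [hψ] at hg
  -- The ramification indices over `a`, `b` and `∞`.
  have hval : ∀ (v : Place K F) (c : K), 0 < v.ord (x - algebraMap K F c) →
      0 ≤ v.ord x ∧ evalAt v x = c ∧ (ramIndex x v : ℤ) = v.ord (x - algebraMap K F c) := by
    intro v c hc
    have h1 : OrdGE v (x - algebraMap K F c) 1 := ordGE_iff.mpr (Or.inr hc)
    have hge : OrdGE v x 0 := by
      simpa using (h1.mono zero_le_one).add (ordGE_algebraMap v c)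
    have h0 : 0 ≤ v.ord x := by
      rcases ordGE_iff.mp hge with h | h
      · simp [h]
      · exact h
    refine ⟨h0, evalAt_eq h1, ?_⟩
    rw [ramIndex, if_pos h0, evalAt_eq h1, Int.toNat_of_nonneg hc.le]
  have hpole : ∀ v : Place K F, 0 < v.ord x⁻¹ →
      v.ord x < 0 ∧ (ramIndex x v : ℤ) = v.ord x⁻¹ := by
    intro v hv
    rw [v.ord_inv] at hv ⊢
    refine ⟨by omega, ?_⟩
    rw [ramIndex, if_neg (by omega), Int.toNat_of_nonneg (by omega)]
  have hd01 : Disjoint T₀ T₁ := Finset.disjoint_left.mpr fun v h h' =>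
    hab ((hval v a ((hT₀ v).mp h)).2.1.symm.trans (hval v b ((hT₁ v).mp h')).2.1)
  have hd2 : Disjoint (T₀ ∪ T₁) T₂ := Finset.disjoint_left.mpr fun v h h' => by
    have h2 := (hpole v ((hT₂ v).mp h')).1
    rcases Finset.mem_union.mp h with h | h
    · have := (hval v a ((hT₀ v).mp h)).1; omega
    · have := (hval v b ((hT₁ v).mp h)).1; omega
  -- The ramification divisor lives over these three points, with degree `ψ - #T` over each.
  have hsupp : R.support ⊆ (T₀ ∪ T₁) ∪ T₂ := by
    intro v hv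
    rw [Finsupp.mem_support_iff, hR] at hv
    simp only [Finset.mem_union, hT₀, hT₁, hT₂]
    rcases lt_or_ge (v.ord x) 0 with hneg | hnn
    · exact Or.inr (by rw [v.ord_inv]; omega)
    · have hge : OrdGE v x 0 := ordGE_iff.mpr (Or.inr hnn)
      have hne : x - algebraMap K F (evalAt v x) ≠ 0 := fun h =>
        hx (sub_eq_zero.mp h ▸ isAlgebraic_algebraMap _)
      have hpos : 0 < v.ord (x - algebraMap K F (evalAt v x)) :=
        (evalAt_spec hge).le_ord hne
      by_cases e0 : evalAt v x = a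
      · rw [e0] at hpos; exact Or.inl (Or.inl hpos)
      by_cases e1 : evalAt v x = b
      · rw [e1] at hpos; exact Or.inl (Or.inr hpos)
      exfalso
      refine hv ?_
      rw [(hval v _ hpos).2.2, hone _ e0 e1 v hpos, sub_self]
  have e : ∀ (T : Finset (Place K F)) (f : Place K F → ℤ), (∀ v ∈ T, (ramIndex x v : ℤ) = f v) →
      ∑ v ∈ T, f v = ψ → ∑ v ∈ T, R v = (ψ : ℤ) - T.card := fun T f hf hs => by
    rw [← hs, Finset.sum_congr rfl fun v hv => show R v = f v - 1 by rw [hR, hf v hv],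
      Finset.sum_sub_distrib, Finset.sum_const, nsmul_one]
  rw [degree_eq_sum, Finsupp.sum_of_support_subset _ hsupp _ (fun _ _ => rfl),
    Finset.sum_union hd2, Finset.sum_union hd01,
    e T₀ _ (fun v hv => (hval v a ((hT₀ v).mp hv)).2.2) hs₀,
    e T₁ _ (fun v hv => (hval v b ((hT₁ v).mp hv)).2.2) hs₁,
    e T₂ _ (fun v hv => (hpole v ((hT₂ v).mp hv)).2) hs₂] at hg
  linear_combination hg

end Fibres

/-- `(-1 + √3 i) / 2`. -/
def rhoH : ℍ := ⟨⟨-1 / 2, Real.sqrt 3 / 2⟩, by positivity⟩

/-- `ρ² + ρ + 1 = 0`. -/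
lemma rhoH_sq : (rhoH : ℂ) ^ 2 + rhoH + 1 = 0 := by
  have h : Real.sqrt 3 * Real.sqrt 3 = 3 := Real.mul_self_sqrt (by norm_num)
  apply Complex.ext
  · simp [rhoH, sq]
    nlinarith [h]
  · simp [rhoH, sq]
    ring

/-- The denominator of `S T` at `ρ` is `ρ + 1`. -/
lemma denom_ST_rhoH :
    denom ((ModularGroup.S * ModularGroup.T : SL(2, ℤ))) (rhoH : ℂ) = rhoH + 1 := by
  rw [ModularGroup.denom_apply]
  simp [ModularGroup.coe_S, ModularGroup.coe_T, Matrix.SpecialLinearGroup.coe_mul]

/-- `S T` fixes `ρ`. -/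
lemma ST_smul_rhoH : (ModularGroup.S * ModularGroup.T : SL(2, ℤ)) • rhoH = rhoH := by
  apply UpperHalfPlane.ext
  have h := rhoH_sq
  have hne : (rhoH : ℂ) + 1 ≠ 0 := by
    rw [← denom_ST_rhoH]; exact denom_ne_zero _ _
  rw [coe_specialLinearGroup_apply]
  simp [ModularGroup.coe_S, ModularGroup.coe_T, Matrix.SpecialLinearGroup.coe_mul]
  rw [div_eq_iff hne]
  linear_combination -h

/-- `S` fixes `i`. -/
lemma S_smul_I : ModularGroup.S • UpperHalfPlane.I = UpperHalfPlane.I := by
  apply UpperHalfPlane.ext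
  rw [UpperHalfPlane.modular_S_smul]
  simp [UpperHalfPlane.coe_I]

/-- The squared denominator of `S` at `i` is a primitive square root of one. -/
lemma isPrimitiveRoot_S :
    IsPrimitiveRoot (denom ModularGroup.S (UpperHalfPlane.I : ℂ) ^ 2) 2 := by
  rw [ModularGroup.denom_S, UpperHalfPlane.coe_I, Complex.I_sq]
  exact IsPrimitiveRoot.neg_one 0 (by norm_num)

/-- The squared denominator of `S T` at `ρ` is `ρ`. -/
lemma denom_ST_sq :
    denom ((ModularGroup.S * ModularGroup.T : SL(2, ℤ))) (rhoH : ℂ) ^ 2 = rhoH := by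
  rw [denom_ST_rhoH]
  linear_combination rhoH_sq

/-- `ρ ≠ 1`. -/
lemma rhoH_ne_one : (rhoH : ℂ) ≠ 1 := fun h => by
  have := congrArg Complex.re h
  simp [rhoH] at this
  norm_num at this

/-- The squared denominator of `S T` at `ρ` is a primitive cube root of one. -/
lemma isPrimitiveRoot_ST :
    IsPrimitiveRoot (denom ((ModularGroup.S * ModularGroup.T : SL(2, ℤ))) (rhoH : ℂ) ^ 2) 3 := by
  rw [denom_ST_sq]
  refine IsPrimitiveRoot.iff_orderOf.mpr ?_
  have : Fact (Nat.Prime 3) := ⟨Nat.prime_three⟩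
  exact orderOf_eq_prime (by linear_combination ((rhoH : ℂ) - 1) * rhoH_sq) rhoH_ne_one

/-- `j(ρ) = 0`. -/
lemma jA_rhoH : jA rhoH = 0 := by
  rw [jA_eq_zero_iff]
  have h := smul_eq_denom_zpow E₄ (ModularGroup.S * ModularGroup.T) rhoH
  rw [ST_smul_rhoH, zpow_ofNat, show ∀ d : ℂ, d ^ 4 = (d ^ 2) ^ 2 from fun d => by ring,
    denom_ST_sq] at h
  have h' : ((rhoH : ℂ) ^ 2 - 1) * E₄ rhoH = 0 := by linear_combination -h
  refine (mul_eq_zero.mp h').resolve_left fun h0 => ?_
  have : (rhoH : ℂ) = -2 := by linear_combination rhoH_sq - h0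
  have := congrArg Complex.re this
  simp [rhoH] at this
  norm_num at this

/-- `j(i) = 1728`. -/
lemma jA_I : jA UpperHalfPlane.I = 1728 := by
  rw [jA_eq_1728_iff]
  have h := smul_eq_denom_zpow E₆ ModularGroup.S UpperHalfPlane.I
  rw [S_smul_I, ModularGroup.denom_S, UpperHalfPlane.coe_I, zpow_ofNat,
    show ∀ d : ℂ, d ^ 6 = (d ^ 2) ^ 3 from fun d => by ring, Complex.I_sq] at h
  linear_combination h / 2

end Fermat.MC
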