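import Fermat.Prelude.Def_AlgebraicCurve_Repartitions
import Fermat.Agent.MC.Conjugate
import Fermat.Agent.MC.Fibres

/-!
# Tools for weight two cusp forms and regular differentials

Orders at points and cusps of quotients of modular functions, and the divisor of `dx`.

These are the estimates that identify `f ↦ f / θ j` with an isomorphism to `L (div dj)` in
`Lvl/DimS2`.
-/

set_option autoImplicit false

noncomputable section

open Function Filter Topology
open UpperHalfPlane hiding I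
open AlgebraicCurve
open Fermat.FF
open ModularForm (E₄ E₆)
open scoped Manifold MatrixGroups ModularForm

local notation "Δ" => ModularForm.discriminant

namespace Fermat.MC

/-- `E₄² E₆`. -/
def thN : ℍ → ℂ := (⇑E₄) ^ 2 * (⇑E₆) ^ 1

/-- `E₄² E₆` is periodic and bounded at `∞`. -/
lemma bddPer_thN : BddPer thN := bddPer_mono 2 1

/-- `E₄² E₆` has weight `14`. -/
lemma thN_smul (γ : SL(2, ℤ)) (z : ℍ) : thN (γ • z) = denom γ z ^ (14 : ℤ) * thN z :=
  (span_monoSet_props (k := 14) (Submodule.subset_span ⟨2, 1, by norm_num, rfl⟩)).2.1 γ z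

/-- `E₄² E₆` is not zero. -/
lemma thN_ne_zero : thN ≠ 0 := by
  intro h
  rcases (UpperHalfPlane.mul_eq_zero_iff (bddPer_E₄.pow 2).1 (bddPer_E₆.pow 1).1).mp h with h | h
  · exact EisensteinSeries.E_ne_zero _ ⟨2, rfl⟩ (DFunLike.coe_injective (eq_zero_of_pow_eq_zero h))
  · exact EisensteinSeries.E_ne_zero _ ⟨3, rfl⟩ (DFunLike.coe_injective (eq_zero_of_pow_eq_zero h))

/-- Taylor expansion at a point. -/
def tsL (z : ℍ) (f : ℍ → ℂ) : LaurentSeries ℂ :=
  HahnSeries.ofPowerSeries ℤ ℂ (taylorPS (ext f) z)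

/-- Taylor expansion is multiplicative. -/
lemma tsL_mul {f g : ℍ → ℂ} (hf : MDiff f) (hg : MDiff g) (z : ℍ) :
    tsL z (f * g) = tsL z f * tsL z g := by
  rw [tsL, show ext (f * g) = ext f * ext g from rfl,
    taylorPS_mul (analyticAt_ext hf z) (analyticAt_ext hg z), map_mul]
  rfl

/-- A nonzero function has nonzero Taylor expansion. -/
lemma tsL_ne_zero {f : ℍ → ℂ} (hf : MDiff f) (h : f ≠ 0) (z : ℍ) : tsL z f ≠ 0 := by
  rw [tsL, ne_eq, map_eq_zero_iff _ HahnSeries.ofPowerSeries_injective,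
    taylorPS_eq_zero_iff (analyticAt_ext hf z)]
  exact fun h0 => h (eq_zero_of_ext_eventuallyEq hf h0)

/-- Taylor expansions have nonnegative order. -/
lemma order_tsL_nonneg (z : ℍ) (f : ℍ → ℂ) : 0 ≤ (tsL z f).order := by
  rcases mem_regSub.mp (⟨taylorPS (ext f) z, rfl⟩ : tsL z f ∈ regSub ℂ) with h | h
  · rw [h, HahnSeries.order_zero]
  · exact h

/-- The order of the Taylor expansion is the analytic order. -/
lemma order_tsL {f : ℍ → ℂ} (hf : MDiff f) {z : ℍ} {n : ℕ}
    (h : analyticOrderAt (ext f) z = n) : (tsL z f).order = n :=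
  order_ofPowerSeries ((order_taylorPS (analyticAt_ext hf z)).trans h)

/-- `E₄² E₆` vanishes at `z` to the order `multJ z - 1`. -/
lemma order_tsL_thN (z : ℍ) : (tsL z thN).order = (multJ z : ℤ) - 1 := by
  have h := (analyticOrderAt_jA z).2
  rw [show ((⇑E₄) ^ 2 * ⇑E₆ : ℍ → ℂ) = thN by rw [thN, pow_one]] at h
  rw [order_tsL bddPer_thN.1 h, Nat.cast_sub (multJ_pos z), Nat.cast_one]

/-! ### Expansions at infinity -/

variable (N : ℕ) [NeZero N]

/-- Translations have trivial factor of automorphy. -/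
lemma denom_T_zpow (n : ℤ) (w : ℍ) : denom (ModularGroup.T ^ n : SL(2, ℤ)) (w : ℂ) = 1 := by
  rw [ModularGroup.denom_apply, ModularGroup.coe_T_zpow]
  simp

/-- The expansion at infinity in `q_N`. -/
def pS (g : ℍ → ℂ) : LaurentSeries ℂ := qS (g ∘ affH (posN N) 0)

/-- `E₄² E₆` has order zero at infinity. -/
lemma order_pS_thN : (pS N thN).order = 0 := by
  rw [pS, qS_comp_posN N bddPer_thN, order_qExpand]
  have hc : (qExpansion 1 thN).coeff 0 = 1 := by
    refine tendsto_nhds_unique (tendsto_cusp_atImInfty bddPer_thN) ?_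
    have := (tendsto_E₄.pow 2).mul (tendsto_E₆.pow 1)
    rwa [one_pow, one_pow, one_mul] at this
  rw [order_eq_of_coeff (a := 0) ?_ fun b hb => ?_, mul_zero]
  · rw [qS, show (0 : ℤ) = ((0 : ℕ) : ℤ) from rfl, HahnSeries.ofPowerSeries_apply_coeff, hc]
    exact one_ne_zero
  · rw [qS, ModularCurve.ofPowerSeries_coeff_of_neg _ hb]

/-- `Δ` has order `N` in the parameter of width `N`. -/
lemma order_pS_discriminant : (pS N Δ).order = N := by
  rw [pS, qS_comp_posN N bddPer_discriminant, order_qExpand,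
    order_eq_of_coeff (a := 1) ?_ fun b hb => ?_, mul_one]
  · rw [qS, show (1 : ℤ) = ((1 : ℕ) : ℤ) from rfl, HahnSeries.ofPowerSeries_apply_coeff,
      ModularForm.discriminant_qExpansion_coeff_one]
    exact one_ne_zero
  · rcases lt_or_eq_of_le (show b ≤ 0 by omega) with h | rfl
    · rw [qS, ModularCurve.ofPowerSeries_coeff_of_neg _ h]
    · exact qS_coeff_zero_of_isZeroAtImInfty bddPer_discriminant
        ModularForm.discriminant_isZeroAtImInfty

/-- A nonzero function has nonzero expansion at infinity. -/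
lemma pS_ne_zero {g : ℍ → ℂ} (hg : BddPer (g ∘ affH (posN N) 0)) (h : g ≠ 0) : pS N g ≠ 0 :=
  fun h0 => h (funext fun w => by
    obtain ⟨z, rfl⟩ := affH_posN_surjective N w
    exact congrFun ((qS_eq_zero_iff hg).mp h0) z)

/-- Quotient vanishing at infinity from the orders. -/
lemma isZeroAtImInfty_of_order_lt {P R : perAlg} (hR : R ≠ 0) {g : ℍ → ℂ}
    (h : (P : ℍ → ℂ) = R * g) (ho : P = 0 ∨ (qL R).order < (qL P).order) :
    IsZeroAtImInfty g := by
  obtain ⟨M₁, hM₁⟩ := exists_isBoundedAtImInfty_mul_discriminant_pow P.2.2.2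
  obtain ⟨M₂, hM₂⟩ := exists_isBoundedAtImInfty_mul_discriminant_pow R.2.2.2
  have hP := isBounded_mul_pow_add hM₁ M₂
  have hRb := isBounded_mul_pow_add hM₂ M₁
  rw [add_comm M₂] at hRb
  set M := M₁ + M₂
  have hU := bddPer_mul_discriminant_pow P.2 hP
  have hV := bddPer_mul_discriminant_pow R.2 hRb
  have hR0 : (R : ℍ → ℂ) * Δ ^ M ≠ 0 := fun h0 => by
    rcases (UpperHalfPlane.mul_eq_zero_iff R.2.1 (bddPer_discriminant.pow M).1).mp h0 with h1 | h1
    · exact hR (Subtype.ext h1)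
    · exact ModularForm.discriminant_ne_zero UpperHalfPlane.I
        (eq_zero_of_pow_eq_zero (congrFun h1 UpperHalfPlane.I))
  -- `U`, `V`: cusp functions of `P Δ ^ M`, `R Δ ^ M`; `U` vanishes to higher order than `V`.
  set U := cuspFunction 1 ((P : ℍ → ℂ) * Δ ^ M) with hUdef
  set V := cuspFunction 1 ((R : ℍ → ℂ) * Δ ^ M) with hVdef
  have hUa : AnalyticAt ℂ U 0 := hU.analyticAt
  have hVa : AnalyticAt ℂ V 0 := hV.analyticAt
  have hVtop : analyticOrderAt V 0 ≠ ⊤ := fun h0 => hR0 ((qS_eq_zero_iff hV).mp (by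
    rw [qS, qExpansion_eq_taylorPS, ← hVdef]
    rw [show taylorPS V 0 = 0 from PowerSeries.order_eq_top.mp ((order_taylorPS hVa).trans h0),
      map_zero]))
  obtain ⟨k, hk⟩ := ENat.ne_top_iff_exists.mp hVtop
  obtain ⟨v', hv', hv'0, hVeq⟩ := hVa.analyticOrderAt_eq_natCast.mp hk.symm
  have hle : ((k + 1 : ℕ) : ℕ∞) ≤ analyticOrderAt U 0 := by
    rcases eq_or_ne (analyticOrderAt U 0) ⊤ with h0 | h0
    · rw [h0]; exact le_top
    obtain ⟨l, hl⟩ := ENat.ne_top_iff_exists.mp h0
    rw [← hl, Nat.cast_le]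
    rcases ho with hP0 | ho
    · exfalso
      refine h0 ?_
      rw [← order_taylorPS hUa, hUdef, ← qExpansion_eq_taylorPS, PowerSeries.order_eq_top]
      have := (qS_eq_zero_iff hU).mpr (by rw [hP0]; simp)
      rwa [qS, map_eq_zero_iff _ HahnSeries.ofPowerSeries_injective] at this
    have eP := qL_apply P hP
    have eR := qL_apply R hRb
    have hD : qS Δ ^ M ≠ 0 := pow_ne_zero _ qS_discriminant_ne_zero
    rw [eq_div_iff hD] at eP eR
    have hRne : qL R ≠ 0 := qL_ne_zero hR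
    have hPne : qL P ≠ 0 := fun hP0 => by
      rw [hP0, zero_mul, eq_comm] at eP
      refine h0 ?_
      rw [← order_taylorPS hUa, hUdef, ← qExpansion_eq_taylorPS, PowerSeries.order_eq_top]
      rwa [qS, map_eq_zero_iff _ HahnSeries.ofPowerSeries_injective] at eP
    have oP : (qS ((P : ℍ → ℂ) * Δ ^ M)).order = l := by
      rw [qS, qExpansion_eq_taylorPS, ← hUdef]
      exact order_ofPowerSeries ((order_taylorPS hUa).trans hl.symm)
    have oR : (qS ((R : ℍ → ℂ) * Δ ^ M)).order = k := by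
      rw [qS, qExpansion_eq_taylorPS, ← hVdef]
      exact order_ofPowerSeries ((order_taylorPS hVa).trans hk.symm)
    rw [← eP, HahnSeries.order_mul hPne hD] at oP
    rw [← eR, HahnSeries.order_mul hRne hD] at oR
    omega
  -- So near `∞` the quotient is `q` times a bounded function.
  obtain ⟨u', hu', hUeq⟩ := (natCast_le_analyticOrderAt hUa).mp hle
  have hlim : Tendsto (fun q : ℂ => q * (u' q / v' q)) (𝓝 0) (𝓝 0) := by
    have := (continuousAt_id.mul (hu'.continuousAt.div hv'.continuousAt hv'0)).tendsto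
    rw [Pi.mul_apply, id_eq, zero_mul] at this
    exact this
  have hq := qParam_tendsto_atImInfty (h := 1) one_pos
  refine (hlim.comp hq).congr' ?_
  have hv'ev : ∀ᶠ q in 𝓝 (0 : ℂ), v' q ≠ 0 := hv'.continuousAt.eventually_ne hv'0
  filter_upwards [hq.eventually hUeq, hq.eventually hVeq, hq.eventually hv'ev] with τ h1 h2 h3
  rw [sub_zero, smul_eq_mul, hUdef,
    UpperHalfPlane.eq_cuspFunction τ one_ne_zero (by exact_mod_cast hU.2.1)] at h1
  rw [sub_zero, smul_eq_mul, hVdef,
    UpperHalfPlane.eq_cuspFunction τ one_ne_zero (by exact_mod_cast hV.2.1)] at h2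
  simp only [Pi.mul_apply, Pi.pow_apply, h] at h1
  simp only [Pi.mul_apply, Pi.pow_apply] at h2
  simp only [comp_apply]
  have hq0 : Periodic.qParam 1 (τ : ℂ) ≠ 0 := Periodic.qParam_ne_zero _
  rw [mul_right_comm, h2, pow_succ] at h1
  have h4 : v' (Periodic.qParam 1 τ) * g τ =
      Periodic.qParam 1 (τ : ℂ) * u' (Periodic.qParam 1 τ) :=
    mul_left_cancel₀ (pow_ne_zero k hq0) (by linear_combination h1)
  field_simp
  linear_combination -h4

/-! ### Weight two forms from quotients of modular functions -/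

/-- `Δ` is not the zero function. -/
lemma discriminant_fun_ne_zero : (Δ : ℍ → ℂ) ≠ 0 := fun h =>
  ModularForm.discriminant_ne_zero UpperHalfPlane.I (congrFun h _)

/-- Multiplication by `Δ` has no kernel on holomorphic functions. -/
lemma mul_discriminant_ne_zero {b : ℍ → ℂ} (hb : MDiff b) (hb0 : b ≠ 0) : b * Δ ≠ 0 := fun h =>
  ((UpperHalfPlane.mul_eq_zero_iff hb bddPer_discriminant.1).mp h).elim hb0 discriminant_fun_ne_zero

/-- A function in `L(D)` has order above `c n` in an expansion in which `x` has order `n`, when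
`D = -c div x - 1` at the zeros of `x`. -/
lemma lt_ordT_of_mem_riemannRochSpace {F : Type*} [Field F] [Algebra ℂ F] [IsFunctionField ℂ F]
    (τ : F →+* LaurentSeries ℂ) (hc : ∀ c : ℂ, c ≠ 0 → ordT τ (algebraMap ℂ F c) = 0)
    {x h : F} {n : ℤ} (hx : ordT τ x = n) (hn : 0 < n) (c : ℤ) {D : Divisor ℂ F}
    (hD : ∀ P : Place ℂ F, 0 < P.ord x → D P = -(c * P.ord x) - 1)
    (h0 : h ≠ 0) (hh : h ∈ riemannRochSpace D) : c * n < ordT τ h := by
  obtain ⟨P, hP, m, hm, hpull⟩ := exists_pullback τ hc (x := x) (by rw [hx]; exact hn)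
  have hx0 : x ≠ 0 := fun h => by rw [h, P.ord_zero] at hP; omega
  have h1 := (mem_riemannRochSpace.mp hh P).le_ord h0
  rw [hD P hP] at h1
  rw [← hx, hpull x hx0, hpull h h0]
  nlinarith

/-- If the orders of `a` exceed those of `b` by more than `-multJ`, then `a E₄² E₆ / (b Δ)` is
holomorphic. -/
lemma exists_mdiff_thN_eq_mul {a b : ℍ → ℂ} (ha : MDiff a) (hb : MDiff b) (ha0 : a ≠ 0)
    (hb0 : b ≠ 0) (hord : ∀ z : ℍ, -(multJ z : ℤ) < (tsL z a).order - (tsL z b).order) :
    ∃ w : ℍ → ℂ, MDiff w ∧ a * thN = w * (b * Δ) := by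
  have hum : MDiff (a * thN) := ha.mul bddPer_thN.1
  have hvm : MDiff (b * Δ) := hb.mul bddPer_discriminant.1
  have hu0 : a * thN ≠ 0 := fun h =>
    ((UpperHalfPlane.mul_eq_zero_iff ha bddPer_thN.1).mp h).elim ha0 thN_ne_zero
  have hv0 := mul_discriminant_ne_zero hb hb0
  refine exists_mdiff_div hum hvm hv0 fun z => ?_
  obtain ⟨k, hk⟩ := ENat.ne_top_iff_exists.mp (analyticOrderAt_ext_ne_top hvm hv0 z)
  obtain ⟨l, hl⟩ := ENat.ne_top_iff_exists.mp (analyticOrderAt_ext_ne_top hum hu0 z)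
  have hD0 : (tsL z Δ).order = 0 := by
    rw [order_tsL bddPer_discriminant.1 (n := 0) ((analyticAt_ext bddPer_discriminant.1 z)
      |>.analyticOrderAt_eq_zero.mpr (by rw [ext_coe]; exact ModularForm.discriminant_ne_zero z))]
    rfl
  have hkl : k ≤ l := by
    have e1 := order_tsL hum hl.symm
    have e2 := order_tsL hvm hk.symm
    rw [tsL_mul ha bddPer_thN.1, HahnSeries.order_mul (tsL_ne_zero ha ha0 z)
      (tsL_ne_zero bddPer_thN.1 thN_ne_zero z), order_tsL_thN] at e1
    rw [tsL_mul hb bddPer_discriminant.1, HahnSeries.order_mul (tsL_ne_zero hb hb0 z)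
      (tsL_ne_zero bddPer_discriminant.1 discriminant_fun_ne_zero z), hD0] at e2
    have := hord z
    omega
  obtain ⟨v', hv', hv'0, hveq⟩ :=
    (analyticAt_ext hvm z).analyticOrderAt_eq_natCast.mp hk.symm
  obtain ⟨u', hu', hueq⟩ := (natCast_le_analyticOrderAt (analyticAt_ext hum z)).mp
    (show ((k : ℕ) : ℕ∞) ≤ analyticOrderAt (ext (a * thN)) z by rw [← hl]; exact_mod_cast hkl)
  refine ⟨fun t => u' t / v' t, hu'.div hv' hv'0, ?_⟩
  filter_upwards [hueq.filter_mono nhdsWithin_le_nhds, hveq.filter_mono nhdsWithin_le_nhds,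
    (hv'.continuousAt.eventually_ne hv'0).filter_mono nhdsWithin_le_nhds] with t h1 h2 h3
  rw [h1, h2, smul_eq_mul, smul_eq_mul]
  field_simp

/-- If `a E₄² E₆ = w b Δ` with `a` and `b` invariant under `γ`, then `w` has weight two for `γ`. -/
lemma slash_two_eq_of_thN_eq {a b w : ℍ → ℂ} (hw : MDiff w) (hb : MDiff b) (hb0 : b ≠ 0)
    (huw : a * thN = w * (b * Δ)) {γ : SL(2, ℤ)} (haγ : compSL γ a = a) (hbγ : compSL γ b = b) :
    w ∣[(2 : ℤ)] γ = w := by
  rw [slash_eq_iff_smul]
  have hz : (fun z => w (γ • z) - denom γ z ^ (2 : ℤ) * w z) * (b * Δ) = 0 := by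
    funext z
    have hd := denom_ne_zero γ z
    have hD : Δ (γ • z) = denom γ z ^ (12 : ℤ) * Δ z :=
      smul_eq_denom_zpow CuspForm.discriminant γ z
    have e1 := congrFun huw (γ • z)
    have e2 := congrFun huw z
    simp only [Pi.mul_apply, thN_smul, hD, show a (γ • z) = a z from congrFun haγ z,
      show b (γ • z) = b z from congrFun hbγ z] at e1 e2 ⊢
    rw [show (14 : ℤ) = 12 + 2 from rfl, zpow_add₀ hd] at e1
    refine mul_right_cancel₀ (zpow_ne_zero (12 : ℤ) hd) ?_
    simp only [Pi.zero_apply]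
    linear_combination -e1 + denom γ z ^ (12 : ℤ) * denom γ z ^ (2 : ℤ) * e2
  exact fun z => sub_eq_zero.mp (congrFun (((UpperHalfPlane.mul_eq_zero_iff
    ((mdiff_compSL γ hw).sub ((UpperHalfPlane.mdifferentiable_denom_zpow (γ : GL (Fin 2) ℝ) _).mul
      hw)) (hb.mul bddPer_discriminant.1)).mp hz).resolve_right
    (mul_discriminant_ne_zero hb hb0)) z)

/-- Vanishing at infinity does not see a rescaling by `N`. -/
lemma isZeroAtImInfty_of_comp_posN {g : ℍ → ℂ} (hg : IsZeroAtImInfty (g ∘ affH (posN N) 0)) :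
    IsZeroAtImInfty g := by
  have hN : (0 : ℝ) < N := by exact_mod_cast NeZero.pos N
  have := hg.comp (tendsto_affH ⟨(N : ℝ)⁻¹, inv_pos.mpr hN⟩ 0)
  refine this.congr fun τ => congrArg _ (UpperHalfPlane.ext ?_)
  simp only [coe_affH, posN]
  have hN' : (N : ℂ) ≠ 0 := Nat.cast_ne_zero.mpr (NeZero.ne N)
  push_cast
  field_simp
  ring

/-- If `a E₄² E₆ = w b Δ` and, at a cusp of width `N`, the order of `a` exceeds that of `b` by
more than `N`, then `w` vanishes there. -/
lemma isZeroAtImInfty_slash_two {a b w : ℍ → ℂ} (huw : a * thN = w * (b * Δ)) (γ : SL(2, ℤ))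
    {A B : perAlg} (hA : (A : ℍ → ℂ) = compSL γ a ∘ affH (posN N) 0)
    (hB : (B : ℍ → ℂ) = compSL γ b ∘ affH (posN N) 0) (hA0 : qL A ≠ 0) (hB0 : qL B ≠ 0)
    (ho : (N : ℤ) < (qL A).order - (qL B).order) : IsZeroAtImInfty (w ∣[(2 : ℤ)] γ) := by
  set Θ : perAlg := ⟨_, (bddPer_thN.comp_posN N).mem_perAlg⟩
  set D : perAlg := ⟨_, (bddPer_discriminant.comp_posN N).mem_perAlg⟩
  have hΘ : qL Θ = pS N thN := qL_eq_qS (bddPer_thN.comp_posN N)
  have hD : qL D = pS N Δ := qL_eq_qS (bddPer_discriminant.comp_posN N)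
  have hΘ0 : qL Θ ≠ 0 := hΘ ▸ pS_ne_zero N (bddPer_thN.comp_posN N) thN_ne_zero
  have hD0 : qL D ≠ 0 :=
    hD ▸ pS_ne_zero N (bddPer_discriminant.comp_posN N) discriminant_fun_ne_zero
  refine isZeroAtImInfty_of_comp_posN N (isZeroAtImInfty_of_order_lt (P := A * Θ) (R := B * D)
    (fun h => ?_) (funext fun τ => ?_) (Or.inr ?_))
  · have := congrArg qL h
    rw [map_mul, map_zero] at this
    exact mul_ne_zero hB0 hD0 this
  · set z := affH (posN N) 0 τ
    have hd := denom_ne_zero γ z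
    have hDz : Δ (γ • z) = denom γ z ^ (12 : ℤ) * Δ z :=
      smul_eq_denom_zpow CuspForm.discriminant γ z
    have e1 := congrFun huw (γ • z)
    simp only [Pi.mul_apply, thN_smul, hDz, smul_eq_of_slash (k := (2 : ℤ)) (f := w)] at e1
    simp only [hA, hB, Θ, D, MulMemClass.coe_mul, Pi.mul_apply, comp_apply, compSL_apply]
    rw [show (14 : ℤ) = 12 + 2 from rfl, zpow_add₀ hd] at e1
    refine mul_left_cancel₀ (mul_ne_zero (zpow_ne_zero (12 : ℤ) hd) (zpow_ne_zero (2 : ℤ) hd)) ?_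
    linear_combination e1
  · rw [map_mul, map_mul, HahnSeries.order_mul hA0 hΘ0, HahnSeries.order_mul hB0 hD0, hΘ, hD,
      order_pS_thN, order_pS_discriminant]
    omega

/-- If `a E₄² E₆ = w b Δ` and `j Δ² = E₄³ E₆²`, then `w E₄ E₆ / Δ = a j / b`. -/
lemma mul_E46_div_mul_eq {a b w j : ℍ → ℂ} (huw : a * thN = w * (b * Δ))
    (hj : ∀ z, j z * Δ z ^ 2 = E₄ z ^ 3 * E₆ z ^ 2) (z : ℍ) :
    w z * (E46 z / Δ z) * b z = a z * j z := by
  have hD := ModularForm.discriminant_ne_zero z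
  have e := congrFun huw z
  have hj' := hj z
  simp only [Pi.mul_apply, thN, Pi.pow_apply, pow_one] at e
  simp only [E46, Pi.mul_apply, pow_one]
  field_simp
  refine mul_right_cancel₀ hD ?_
  linear_combination -(E₄ z * E₆ z) * e - a z * hj'

/-! ### Orders of the quotient attached to a weight two form -/

/-- The order of a quotient of Laurent series. -/
lemma order_div_eq {x y : LaurentSeries ℂ} (hx : x ≠ 0) (hy : y ≠ 0) :
    (x / y).order = x.order - y.order := by
  have h := HahnSeries.order_mul (div_ne_zero hx hy) hy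
  rw [div_mul_cancel₀ _ hy] at h
  omega

/-- A lower bound for the orders in an expansion passes to the place under it. -/
lemma lt_ord_of_pullback {F : Type*} [Field F] [Algebra ℂ F] {τ : F →+* LaurentSeries ℂ}
    {v : Place ℂ F} {m : ℤ} (hm : 0 < m) (hpull : ∀ h : F, h ≠ 0 → ordT τ h = m * v.ord h)
    {x h : F} (hx : x ≠ 0) (h0 : h ≠ 0) {c : ℤ} (hlt : c * ordT τ x < ordT τ h) :
    c * v.ord x < v.ord h := by
  rw [hpull x hx, hpull h h0] at hlt
  exact lt_of_mul_lt_mul_left (by linarith) hm.le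

/-- If `a E₄² E₆ = b g Δ` with `g` holomorphic, then the order of `a` exceeds that of `b` by more
than `-multJ` at each point. -/
lemma neg_multJ_lt_order_tsL_sub {a b g : ℍ → ℂ} (ha : MDiff a) (hb : MDiff b) (hg : MDiff g)
    (ha0 : a ≠ 0) (hb0 : b ≠ 0) (h : a * thN = b * (g * Δ)) (z : ℍ) :
    -(multJ z : ℤ) < (tsL z a).order - (tsL z b).order := by
  have e := congrArg (tsL z) h
  rw [tsL_mul ha bddPer_thN.1, tsL_mul hb (hg.mul bddPer_discriminant.1)] at e
  have hl := mul_ne_zero (tsL_ne_zero ha ha0 z) (tsL_ne_zero bddPer_thN.1 thN_ne_zero z)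
  rw [e] at hl
  have eo := congrArg HahnSeries.order e
  rw [HahnSeries.order_mul (tsL_ne_zero ha ha0 z) (tsL_ne_zero bddPer_thN.1 thN_ne_zero z),
    HahnSeries.order_mul (tsL_ne_zero hb hb0 z) (right_ne_zero_of_mul hl), order_tsL_thN] at eo
  have := order_tsL_nonneg z (g * Δ)
  omega

/-- If `A E₄² E₆ = B g Δ` at a cusp of width `N` with `g` vanishing there, then the order of `A`
exceeds that of `B` by more than `N`. -/
lemma lt_order_qL_sub {A B : perAlg} {g : ℍ → ℂ} (hg : BddPer g) (hg0 : IsZeroAtImInfty g)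
    (hA : qL A ≠ 0) (hB : qL B ≠ 0) (h : (A : ℍ → ℂ) * (thN ∘ affH (posN N) 0) =
      (B : ℍ → ℂ) * (g * (Δ ∘ affH (posN N) 0))) : (N : ℤ) < (qL A).order - (qL B).order := by
  set Θ : perAlg := ⟨_, (bddPer_thN.comp_posN N).mem_perAlg⟩
  set G : perAlg := ⟨_, hg.mem_perAlg⟩
  set D : perAlg := ⟨_, (bddPer_discriminant.comp_posN N).mem_perAlg⟩
  have e : A * Θ = B * (G * D) := Subtype.ext h
  have eo := congrArg (fun g => (qL g).order) e
  have hΘ : qL Θ = pS N thN := qL_eq_qS (bddPer_thN.comp_posN N)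
  have hD : qL D = pS N Δ := qL_eq_qS (bddPer_discriminant.comp_posN N)
  have hΘ0 : qL Θ ≠ 0 := hΘ ▸ pS_ne_zero N (bddPer_thN.comp_posN N) thN_ne_zero
  have hl : qL (A * Θ) ≠ 0 := by rw [map_mul]; exact mul_ne_zero hA hΘ0
  rw [e, map_mul, map_mul] at hl
  have hG0 : qL G ≠ 0 := left_ne_zero_of_mul (right_ne_zero_of_mul hl)
  have hGpos : 1 ≤ (qL G).order := by
    rw [qL_eq_qS hg] at hG0 ⊢
    by_contra hlt
    refine HahnSeries.coeff_order_eq_zero.not.mpr hG0 ?_
    rcases lt_or_eq_of_le (show (qS g).order ≤ 0 by omega) with h | h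
    · exact ModularCurve.ofPowerSeries_coeff_of_neg _ h
    · rw [h]
      exact qS_coeff_zero_of_isZeroAtImInfty hg hg0
  simp only [map_mul] at eo
  rw [HahnSeries.order_mul hA hΘ0, HahnSeries.order_mul hB (right_ne_zero_of_mul hl),
    HahnSeries.order_mul hG0 (right_ne_zero_of_mul (right_ne_zero_of_mul hl)), hΘ, hD,
    order_pS_thN, order_pS_discriminant] at eo
  omega

/-! ### The divisor of the differential of a function -/

/-- At a place where `x` takes the value `a` the order of `dx` is that of `x - a` minus one. -/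
lemma divD_finite {F : Type*} [Field F] [Algebra ℂ F] [IsFunctionField ℂ F] {x : F}
    (hx : Transcendental ℂ x) (hD : KaehlerDifferential.D ℂ F x ≠ 0) {v : Place ℂ F}
    (h : 0 ≤ v.ord x) :
    0 < v.ord (x - algebraMap ℂ F (evalAt v x)) ∧
      canonicalDivisorOf hD v = v.ord (x - algebraMap ℂ F (evalAt v x)) - 1 := by
  have hne : x - algebraMap ℂ F (evalAt v x) ≠ 0 := fun h0 =>
    hx (sub_eq_zero.mp h0 ▸ isAlgebraic_algebraMap _)
  have hpos := (evalAt_spec (ordGE_iff.mpr (Or.inr h) : OrdGE v x 0)).le_ord hne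
  refine ⟨by omega, ?_⟩
  rw [canonicalDivisorOf_apply, ordDifferential_D_eq_ramIndex hx v (tame_of_charZero hx v),
    ramIndex, if_pos h, poleDiv_apply, max_eq_right (by omega), Int.toNat_of_nonneg (by omega)]
  ring

/-- At a pole of `x` the order of `dx` is minus that of `1 / x`, minus one. -/
lemma divD_pole {F : Type*} [Field F] [Algebra ℂ F] [IsFunctionField ℂ F] {x : F}
    (hx : Transcendental ℂ x) (hD : KaehlerDifferential.D ℂ F x ≠ 0) {v : Place ℂ F}
    (h : v.ord x < 0) : 0 < v.ord x⁻¹ ∧ canonicalDivisorOf hD v = -v.ord x⁻¹ - 1 := by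
  refine ⟨by rw [v.ord_inv]; omega, ?_⟩
  rw [canonicalDivisorOf_apply, ordDifferential_D_eq_ramIndex hx v (tame_of_charZero hx v),
    ramIndex, if_neg (not_le.mpr h), poleDiv_apply, max_eq_left (by omega),
    Int.toNat_of_nonneg (by omega), v.ord_inv]
  ring

end Fermat.MC
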